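import Fermat.Agent.CongruenceRel.Inputs
import Fermat.Prelude.Def_ModularCurve_HeckeModule

set_option autoImplicit false

/-!
# Specialisation of `J₀(N)` with the Eichler–Shimura congruence

Reduction at a place over a good prime `ℓ` intertwines Galois, Hecke operators and Frobenius
(`reduction_galois`, `reduction_hecke_ell`, `reduction_relation`). The result is
`specializationExists`, the specialisation of `J₀(N)` at every good prime, used for S37 and the
Galois representations attached to eigenforms.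
-/

noncomputable section

namespace FLTAgent.CongruenceRel

open ModularCurve AlgebraicCurve FLTAgent.GoodReduction

local notation "Qbar" => AlgebraicClosure ℚ

theorem pic0_mk_eq_zero {K F : Type*} [Field K] [Field F] [Algebra K F]
    {D : Divisor.degZero (K := K) (F := F)} :
    Pic0.mk D = 0 ↔ Divisor.IsPrincipal (D : Divisor K F) := by
  rw [Pic0.mk, QuotientAddGroup.eq_zero_iff, AddSubgroup.mem_addSubgroupOf]
  rfl

variable {A : ValuationSubring Qbar} {N : ℕ}

/-- The two embeddings at `q` satisfy the inputs of the Hecke calculus. -/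
theorem heckeInputs (N q : ℕ) [NeZero N] [NeZero q] :
    HeckeAlphaBarIntegral Qbar N q ∧ HeckeBetaBarIntegral Qbar N q :=
  ⟨FFBasic.isIntegral_of_isFunctionField (heckeAlphaBar Qbar N q),
    FFBasic.isIntegral_of_isFunctionField (heckeBetaBar Qbar N q)⟩

theorem reduction_heckeOperatorAlong [NeZero N] (h : ReductionInputsModL A N) (q : ℕ) [NeZero q]
    (hα : HeckeAlphaBarIntegral Qbar N q) (hβ : HeckeBetaBarIntegral Qbar N q)
    (D : Divisor.degZero (K := Qbar) (F := modularFunctionFieldBar N)) :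
    ∃ E, reductionModL A N (heckeOperatorAlong Qbar N q (Pic0.mk D)) = Pic0.mk E ∧
      (E : Divisor (IsLocalRing.ResidueField A) _) =
        Finsupp.mapDomain (placeReductionModL h) (heckeDivBar hα hβ (D : Divisor Qbar _)) := by
  have hfin := FFBasic.finiteAlong (heckeAlphaBar Qbar N q)
  have hN := FFBasic.normFormulaAlong (heckeAlphaBar Qbar N q) hfin
  have hFI := FFBasic.fundamentalIdentityAlong (heckeBetaBar Qbar N q) hβ
  rw [heckeOperatorAlong_eq hα hβ hFI hfin hN]
  refine ⟨_, (congrArg _ (Pic0.correspondence_mk (heckeBetaBar Qbar N q) (heckeAlphaBar Qbar N q)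
    hβ hα hFI hfin hN D)).trans (reductionModL_mk h _), rfl⟩

theorem reduction_galois [NeZero N] {h : ReductionInputsModL A N}
    (hI : FibreInputs A N (placeReductionModL h))
    (σ : Qbar ≃ₐ[ℚ] Qbar) (hσ : ∀ x ∈ A, σ x ∈ A)
    (ρ : IsLocalRing.ResidueField A ≃+* IsLocalRing.ResidueField A)
    (hρ : ∀ a : A, IsLocalRing.residue A (restrictAut σ hσ a) = ρ (IsLocalRing.residue A a))
    (x : JZero N) :
    reductionModL A N (σ • x) = specialAut N ρ • reductionModL A N x := by
  obtain ⟨D, rfl⟩ := Pic0.mk_surjective x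
  rw [galois_smul_pic0_def, SemilinearAut.pic0_smul_mk, reductionModL_mk h, reductionModL_mk h,
    SemilinearAut.pic0_smul_mk]
  exact congrArg Pic0.mk (Subtype.ext (hI.mapDomain_galois σ hσ ρ hρ D.2))

theorem reduction_hecke_zero [NeZero N] {h : ReductionInputsModL A N}
    (hI : FibreInputs A N (placeReductionModL h)) (q : Nat.Primes) {x : JZero N}
    (hx : reductionModL A N x = 0) : reductionModL A N (heckeOperatorBar N q x) = 0 := by
  have : NeZero (q : ℕ) := ⟨q.2.ne_zero⟩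
  obtain ⟨hα, hβ⟩ := heckeInputs N q
  obtain ⟨D, rfl⟩ := Pic0.mk_surjective x
  rw [reductionModL_mk h, pic0_mk_eq_zero] at hx
  rw [heckeOperatorBar_apply]
  obtain ⟨E, hE, hE'⟩ := reduction_heckeOperatorAlong h q hα hβ D
  rw [hE, pic0_mk_eq_zero, hE']
  exact hI.mapDomain_hecke_isPrincipal hα hβ
    (FFBasic.fundamentalIdentityAlong _ hβ) (FFBasic.finiteAlong _)
    (FFBasic.normFormulaAlong _ _) D.2 hx

theorem reduction_hecke_ell [NeZero N] {h : ReductionInputsModL A N}
    (hI : FibreInputs A N (placeReductionModL h)) {ℓ : ℕ} (hℓ : ℓ.Prime) (hℓN : ¬ ℓ ∣ N)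
    (hA : A.LiesOverPrime ℓ)
    (ρ : IsLocalRing.ResidueField A ≃+* IsLocalRing.ResidueField A) (hρ : ∀ a, ρ a = a ^ ℓ)
    (x : JZero N) :
    reductionModL A N (heckeOperatorBar N ⟨ℓ, hℓ⟩ x) =
      specialAut N ρ • reductionModL A N x
        + (ℓ : ℤ) • ((specialAut N ρ)⁻¹ • reductionModL A N x) := by
  have : NeZero ℓ := ⟨hℓ.ne_zero⟩
  have : Fact ℓ.Prime := ⟨hℓ⟩
  obtain ⟨hα, hβ⟩ := heckeInputs N ℓ
  obtain ⟨D, rfl⟩ := Pic0.mk_surjective x
  have hdeg : finrankAlong Qbar (heckeAlphaBar Qbar N ℓ) = ℓ + 1 := by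
    rw [HeckeJacobian.finrankAlong_heckeAlphaBar N ℓ hℓ, if_neg hℓN]
  show reductionModL A N (heckeOperatorAlong Qbar N ℓ (Pic0.mk D)) = _
  obtain ⟨E, hE, hE'⟩ := reduction_heckeOperatorAlong h ℓ hα hβ D
  rw [reductionModL_mk h D, SemilinearAut.pic0_smul_mk, SemilinearAut.pic0_smul_mk]
  refine hE.trans ?_
  refine (congrArg Pic0.mk (Subtype.ext (hE'.trans ?_))).trans
    ((map_add (QuotientAddGroup.mk' _) _ _).trans
      (congrArg _ (map_zsmul (QuotientAddGroup.mk' _) (ℓ : ℤ) _)))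
  exact hI.mapDomain_hecke_ell ℓ hα hβ hA ρ hρ (FFBasic.fundamentalIdentityAlong _ hβ)
    (FFBasic.finiteAlong _) (FFBasic.normFormulaAlong _ _) hdeg D.2

section Kernel

variable [NeZero N] (hcomm : HeckeOperatorsCommuteBar N) {h : ReductionInputsModL A N}
  (hI : FibreInputs A N (placeReductionModL h))

include hcomm hI in
theorem reduction_smul_zero (t : HeckeAlg) (x : JZero N) (hx : reductionModL A N x = 0) :
    (letI := heckeModuleBar N; reductionModL A N (t • x)) = 0 := by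
  let := heckeModuleBar N
  induction t using MvPolynomial.induction_on generalizing x with
  | C a => rw [heckeModuleBar_C_smul, map_zsmul, hx, smul_zero]
  | add p q hp hq => rw [add_smul, map_add, hp x hx, hq x hx, add_zero]
  | mul_X p q hp =>
    rw [mul_smul]
    refine hp _ ?_
    rw [show (MvPolynomial.X q : HeckeAlg) = heckeGen q from rfl,
      heckeModuleBar_heckeGen_smul hcomm]
    exact reduction_hecke_zero hI q hx

/-- The kernel of reduction as a Hecke submodule. -/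
def redKer : letI := heckeModuleBar N; Submodule HeckeAlg (JZero N) :=
  letI := heckeModuleBar N
  { carrier := {x | reductionModL A N x = 0}
    add_mem' := fun {x y} hx hy => by
      rw [Set.mem_ofPred_eq] at hx hy ⊢
      rw [map_add, hx, hy, add_zero]
    zero_mem' := map_zero (reductionModL A N)
    smul_mem' := fun t x hx => reduction_smul_zero hcomm hI t x hx }

end Kernel

theorem apply_mem_of_decomposition {σ : Qbar ≃ₐ[ℚ] Qbar} (hσ : σ ∈ A.decompositionSubgroup ℚ) :
    ∀ x ∈ A, σ x ∈ A := fun x hx => (Density.apply_mem_iff hσ x).mpr hx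

theorem residue_restrictAut_eq {σ : Qbar ≃ₐ[ℚ] Qbar} (hσ : ∀ x ∈ A, σ x ∈ A) (a b : A)
    (hab : σ (a : Qbar) - (b : Qbar) ∈ A.nonunits) :
    IsLocalRing.residue A (restrictAut σ hσ a) = IsLocalRing.residue A b := by
  rw [← sub_eq_zero, ← map_sub, IsLocalRing.residue_eq_zero_iff,
    ← ValuationSubring.coe_mem_nonunits_iff]
  exact hab

theorem exists_frobeniusEquiv {ℓ : ℕ} (hℓ : ℓ.Prime) (hA : A.LiesOverPrime ℓ) :
    ∃ ρ : IsLocalRing.ResidueField A ≃+* IsLocalRing.ResidueField A, ∀ a, ρ a = a ^ ℓ := by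
  have := charP_residueField hℓ hA
  have : Fact ℓ.Prime := ⟨hℓ⟩
  have : ExpChar (IsLocalRing.ResidueField A) ℓ := ExpChar.prime hℓ
  have : PerfectRing (IsLocalRing.ResidueField A) ℓ := PerfectField.toPerfectRing ℓ
  exact ⟨frobeniusEquiv _ ℓ, fun a => rfl⟩

theorem reduction_frobenius [NeZero N] {h : ReductionInputsModL A N}
    (hI : FibreInputs A N (placeReductionModL h)) {ℓ : ℕ}
    (ρ : IsLocalRing.ResidueField A ≃+* IsLocalRing.ResidueField A) (hρ : ∀ a, ρ a = a ^ ℓ)
    {σ : Qbar ≃ₐ[ℚ] Qbar} (hσ : A.IsFrobeniusAt σ ℓ) (x : JZero N) :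
    reductionModL A N (σ • x) = specialAut N ρ • reductionModL A N x := by
  obtain ⟨hd, hf⟩ := Density.isFrobeniusAt_iff.mp hσ
  refine reduction_galois hI σ (apply_mem_of_decomposition hd) ρ (fun a => ?_) x
  rw [hρ, ← map_pow]
  exact residue_restrictAut_eq _ a (a ^ ℓ) (by simpa using hf a a.2)

theorem reduction_inertia [NeZero N] {h : ReductionInputsModL A N}
    (hI : FibreInputs A N (placeReductionModL h))
    {σ : Qbar ≃ₐ[ℚ] Qbar} (hσ : σ ∈ A.inertiaSubgroupIn ℚ) (x : JZero N) :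
    reductionModL A N (σ • x) = reductionModL A N x := by
  obtain ⟨hd, hf⟩ := Density.mem_inertiaSubgroupIn_iff.mp hσ
  rw [reduction_galois hI σ (apply_mem_of_decomposition hd) (RingEquiv.refl _) (fun a => ?_) x,
    specialAut_refl, one_smul]
  exact residue_restrictAut_eq _ a a (hf a a.2)

theorem reduction_relation [NeZero N] (hcomm : HeckeOperatorsCommuteBar N)
    {h : ReductionInputsModL A N}
    (hI : FibreInputs A N (placeReductionModL h)) {ℓ : ℕ} (hℓ : ℓ.Prime) (hℓN : ¬ ℓ ∣ N)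
    (hA : A.LiesOverPrime ℓ) {σ : Qbar ≃ₐ[ℚ] Qbar} (hσ : A.IsFrobeniusAt σ ℓ) (x : JZero N) :
    (letI := heckeModuleBar N;
      reductionModL A N (σ • σ • x - heckeGen ⟨ℓ, hℓ⟩ • (σ • x) + ℓ • x)) = 0 := by
  obtain ⟨ρ, hρ⟩ := exists_frobeniusEquiv hℓ hA
  let := heckeModuleBar N
  rw [map_add, map_sub, map_nsmul]
  erw [heckeModuleBar_heckeGen_smul hcomm ⟨ℓ, hℓ⟩ (σ • x)]
  rw [reduction_hecke_ell hI hℓ hℓN hA ρ hρ, reduction_frobenius hI ρ hρ hσ,
    reduction_frobenius hI ρ hρ hσ, inv_smul_smul, natCast_zsmul]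
  abel

/-- Specialisation at every good prime. -/
theorem specializationExists (N p : ℕ) [NeZero N] (hcomm : HeckeOperatorsCommuteBar N) :
    letI := heckeModuleBar N
    ∀ (_ : SMulCommClass (Qbar ≃ₐ[ℚ] Qbar) HeckeAlg (JZero N)),
      SpecializationExists (K := ℚ) (L := Qbar) N p (JZero N) := by
  let := heckeModuleBar N
  intro hc ℓ hℓ hℓNp A hA
  have hℓN : ¬ ℓ ∣ N := fun hd => hℓNp (dvd_mul_of_dvd_left hd p)
  have hℓp : ¬ ℓ ∣ p := fun hd => hℓNp (dvd_mul_of_dvd_right hd N)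
  have : Fact ℓ.Prime := ⟨hℓ⟩
  obtain ⟨h, hI⟩ := fibreInputs N hℓ hℓN A hA
  obtain ⟨ρ, hρ⟩ := exists_frobeniusEquiv hℓ hA
  obtain ⟨σ₀, hσ₀⟩ := Density.exists_isFrobeniusAt A hℓ hA
  let K₀ : Submodule HeckeAlg (JZero N) := redKer hcomm hI
  have hmem : ∀ x : JZero N, x ∈ K₀ ↔ reductionModL A N x = 0 := fun x => Iff.rfl
  let φ : JZero N →ₗ[HeckeAlg] JZero N :=
    { toFun := fun x => σ₀ • x
      map_add' := smul_add σ₀
      map_smul' := fun t x => smul_comm σ₀ t x }
  have hφ : K₀ ≤ K₀.comap φ := fun x hx => by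
    rw [Submodule.mem_comap, hmem]
    show reductionModL A N (σ₀ • x) = 0
    rw [reduction_frobenius hI ρ hρ hσ₀, (hmem x).mp hx]
    exact smul_zero (A := JZeroC (IsLocalRing.ResidueField A) N) (specialAut N ρ)
  have heq : ∀ x y : JZero N, reductionModL A N x = reductionModL A N y →
      Submodule.Quotient.mk (p := K₀) x = Submodule.Quotient.mk y := fun x y hxy => by
    rw [Submodule.Quotient.eq, hmem, map_sub, hxy, sub_self]
  refine ⟨JZero N ⧸ K₀, inferInstance, inferInstance, K₀.mkQ.toAddMonoidHom,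
    (K₀.mapQ K₀ φ hφ).toAddMonoidHom, ⟨fun T x => map_smul K₀.mkQ T x, ?_, ?_, ?_⟩, ?_⟩
  · exact fun σ hσ x => heq _ _ (reduction_inertia hI hσ x)
  · intro σ hσ x
    refine heq _ _ ?_
    show reductionModL A N (σ • x) = reductionModL A N (σ₀ • x)
    rw [reduction_frobenius hI ρ hρ hσ, reduction_frobenius hI ρ hρ hσ₀]
  · rintro x ⟨n, hn⟩ hx
    exact Deuring.Modular.eq_zero_of_reductionModL_eq_zero hI.red hA h
      (fun hd => hℓp (hℓ.dvd_of_dvd_pow hd)) x hn
      ((hmem x).mp ((Submodule.Quotient.mk_eq_zero K₀).mp hx))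
  · intro y
    obtain ⟨x, rfl⟩ := Submodule.Quotient.mk_surjective K₀ y
    show Submodule.Quotient.mk (σ₀ • σ₀ • x) - heckeGen ⟨ℓ, hℓ⟩ • Submodule.Quotient.mk (σ₀ • x)
      + ℓ • Submodule.Quotient.mk (p := K₀) x = 0
    rw [← Submodule.Quotient.mk_smul, ← Submodule.Quotient.mk_sub, ← Submodule.Quotient.mk_smul,
      ← Submodule.Quotient.mk_add, Submodule.Quotient.mk_eq_zero, hmem]
    exact reduction_relation hcomm hI hℓ hℓN hA hσ₀ x

end FLTAgent.CongruenceRel
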