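import Fermat.Prelude.Def_ModularCurve_ArithmeticGalois
import Fermat.Agent.Density.Frobenius
import Mathlib.RingTheory.Multiplicity
import Mathlib.RingTheory.UniqueFactorizationDomain.Multiplicity
import Mathlib.FieldTheory.Perfect
import Fermat.Agent.FFBasic.ResidueAlgClosed

set_option autoImplicit false

/-!
# Coefficients of algebraic Laurent series at a place over `ℓ`

Coefficients of elements of the base-changed modular function field lie in a number field, so a
series all of whose coefficients lie in the maximal ideal is divisible by a fixed element of it.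
The main result is `exists_eq_const_mul`.
-/

noncomputable section

namespace FLTAgent.CongruenceRel

open ModularCurve Polynomial

local notation "Qbar" => AlgebraicClosure ℚ

variable {A : ValuationSubring Qbar} {ℓ : ℕ}

theorem valuation_natCast_of_not_dvd (hℓ : ℓ.Prime) (hA : A.LiesOverPrime ℓ) {n : ℕ}
    (hn : ¬ ℓ ∣ n) : A.valuation (n : Qbar) = 1 := by
  have h1 : A.valuation (n : Qbar) ≤ 1 := (A.valuation_le_one_iff _).mpr (natCast_mem A n)
  have h2 := Density.natCast_notMem_nonunits hℓ hA hn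
  rw [ValuationSubring.mem_nonunits_iff] at h2
  exact le_antisymm h1 (not_lt.mp h2)

theorem valuation_natCast (hℓ : ℓ.Prime) (hA : A.LiesOverPrime ℓ) {n : ℕ} (hn : n ≠ 0) :
    ∃ a : ℕ, A.valuation (n : Qbar) = A.valuation (ℓ : Qbar) ^ a := by
  obtain ⟨a, m, hm, rfl⟩ := Nat.exists_eq_pow_mul_and_not_dvd hn ℓ hℓ.ne_one
  exact ⟨a, by rw [Nat.cast_mul, Nat.cast_pow, map_mul, map_pow,
    valuation_natCast_of_not_dvd hℓ hA hm, mul_one]⟩

theorem valuation_natCast_self_ne_zero (hℓ : ℓ.Prime) : A.valuation (ℓ : Qbar) ≠ 0 :=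
  (Valuation.ne_zero_iff _).mpr (by exact_mod_cast hℓ.ne_zero)

theorem valuation_algebraMap_rat (hℓ : ℓ.Prime) (hA : A.LiesOverPrime ℓ) {c : ℚ} (hc : c ≠ 0) :
    ∃ a : ℤ, A.valuation (algebraMap ℚ Qbar c) = A.valuation (ℓ : Qbar) ^ a := by
  obtain ⟨a, ha⟩ := valuation_natCast hℓ hA (Int.natAbs_ne_zero.mpr (Rat.num_ne_zero.mpr hc))
  obtain ⟨b, hb⟩ := valuation_natCast hℓ hA c.den_ne_zero
  refine ⟨(a : ℤ) - b, ?_⟩
  have habs : A.valuation (c.num : Qbar) = A.valuation (c.num.natAbs : Qbar) := by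
    rcases Int.natAbs_eq c.num with h | h <;> conv_lhs => rw [h]
    · simp
    · simp [Valuation.map_neg]
  rw [eq_ratCast, Rat.cast_def, map_div₀, habs, ha, hb,
    zpow_sub₀ (valuation_natCast_self_ne_zero hℓ), zpow_natCast, zpow_natCast]

/-- Powers with exponent bounded by the degree of an algebraic element of the maximal ideal
are divisible by `ℓ`. -/
theorem valuation_pow_le_of_natDegree_le (hℓ : ℓ.Prime) (hA : A.LiesOverPrime ℓ) {x : Qbar}
    {n : ℕ} (hn : (minpoly ℚ x).natDegree ≤ n) (hx : A.valuation x < 1) :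
    A.valuation x ^ n ≤ A.valuation (ℓ : Qbar) := by
  classical
  have hpos : 0 < (minpoly ℚ x).natDegree :=
    minpoly.natDegree_pos (Algebra.IsIntegral.isIntegral (R := ℚ) x)
  rcases eq_or_ne x 0 with rfl | hx0
  · rw [map_zero, zero_pow (by omega)]; exact zero_le
  have hℓ1 : A.valuation (ℓ : Qbar) < 1 := (A.mem_nonunits_iff).mp hA
  have hv0 : 0 < A.valuation (ℓ : Qbar) := zero_lt_iff.mpr (valuation_natCast_self_ne_zero hℓ)
  have hx0' : A.valuation x ≠ 0 := (Valuation.ne_zero_iff _).mpr hx0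
  set p := minpoly ℚ x with hpdef
  have hp : p ≠ 0 := minpoly.ne_zero (Algebra.IsIntegral.isIntegral x)
  set t : ℕ → Qbar := fun i => algebraMap ℚ Qbar (p.coeff i) * x ^ i with ht
  have hsum : ∑ i ∈ p.support, t i = 0 := by
    have := minpoly.aeval ℚ x
    rwa [Polynomial.aeval_def, Polynomial.eval₂_eq_sum, Polynomial.sum_def] at this
  obtain ⟨j, hj, hmax⟩ := Finset.exists_max_image p.support (fun i => A.valuation (t i))
    (Polynomial.nonempty_support_iff.mpr hp)
  have hex : ∃ i ∈ p.support, i ≠ j ∧ A.valuation (t i) = A.valuation (t j) := by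
    by_contra! hno
    have hlt : ∀ i ∈ p.support \ {j}, A.valuation (t i) < A.valuation (t j) := by
      intro i hi
      rw [Finset.mem_sdiff, Finset.mem_singleton] at hi
      exact lt_of_le_of_ne (hmax i hi.1) (hno i hi.1 hi.2)
    have htj : t j ≠ 0 :=
      mul_ne_zero (by simpa using Polynomial.mem_support_iff.mp hj) (pow_ne_zero _ hx0)
    have h := Valuation.map_sum_eq_of_lt A.valuation hj hlt
    rw [hsum, map_zero] at h
    exact htj ((Valuation.zero_iff _).mp h.symm)
  obtain ⟨i, hi, hij, hval⟩ := hex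
  obtain ⟨a, ha⟩ := valuation_algebraMap_rat hℓ hA (Polynomial.mem_support_iff.mp hi)
  obtain ⟨b, hb⟩ := valuation_algebraMap_rat hℓ hA (Polynomial.mem_support_iff.mp hj)
  simp only [ht, map_mul, map_pow, ha, hb] at hval
  have key : ∀ (i j : ℕ) (a b : ℤ), i ≤ j →
      A.valuation (ℓ : Qbar) ^ a * A.valuation x ^ i
        = A.valuation (ℓ : Qbar) ^ b * A.valuation x ^ j →
      A.valuation x ^ (j - i) = A.valuation (ℓ : Qbar) ^ (a - b) := by
    intro i j a b hle h
    rw [pow_sub₀ _ hx0' hle, zpow_sub₀ hv0.ne', ← div_eq_mul_inv,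
      div_eq_div_iff (pow_ne_zero _ hx0') (zpow_ne_zero _ hv0.ne'), mul_comm, ← h]
  obtain ⟨e, a', he, hepos, heq⟩ : ∃ (e : ℕ) (a' : ℤ), e ≤ n ∧ 0 < e ∧
      A.valuation x ^ e = A.valuation (ℓ : Qbar) ^ a' := by
    have hin := (Polynomial.le_natDegree_of_mem_supp i hi).trans hn
    have hjn := (Polynomial.le_natDegree_of_mem_supp j hj).trans hn
    rcases lt_or_gt_of_ne hij with hlt | hlt
    · exact ⟨j - i, a - b, by omega, by omega, key i j a b hlt.le hval⟩
    · exact ⟨i - j, b - a, by omega, by omega, key j i b a hlt.le hval.symm⟩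
  have ha' : 1 ≤ a' := by
    by_contra hlt
    have h1 : (1 : A.ValueGroup) ≤ A.valuation (ℓ : Qbar) ^ a' :=
      one_le_zpow_of_nonpos₀ hv0 hℓ1.le (by omega)
    rw [← heq] at h1
    exact absurd (pow_lt_one₀ zero_le hx hepos.ne') (not_lt.mpr h1)
  calc A.valuation x ^ n ≤ A.valuation x ^ e := pow_le_pow_right_of_le_one' hx.le he
    _ = A.valuation (ℓ : Qbar) ^ a' := heq
    _ ≤ A.valuation (ℓ : Qbar) ^ (1 : ℤ) := zpow_le_zpow_right_of_le_one₀ hv0 hℓ1.le ha'
    _ = _ := zpow_one _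

/-- A fixed element of the maximal ideal dividing all elements of the maximal ideal of a given
number field. -/
theorem exists_uniform_divisor (hℓ : ℓ.Prime) (hA : A.LiesOverPrime ℓ)
    (K₀ : IntermediateField ℚ Qbar) [FiniteDimensional ℚ K₀] :
    ∃ μ : Qbar, μ ∈ A.nonunits ∧ μ ≠ 0 ∧ ∀ x ∈ K₀, x ∈ A.nonunits → x / μ ∈ A := by
  set n := Module.finrank ℚ K₀
  have hn : n ≠ 0 := Module.finrank_pos.ne'
  obtain ⟨μ, hμ⟩ := IsAlgClosed.exists_pow_nat_eq (ℓ : Qbar) (Nat.pos_of_ne_zero hn)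
  have hℓ1 : A.valuation (ℓ : Qbar) < 1 := (A.mem_nonunits_iff).mp hA
  have hμv : A.valuation μ ^ n = A.valuation (ℓ : Qbar) := by rw [← map_pow, hμ]
  have hμ0 : μ ≠ 0 := by
    rintro rfl
    rw [zero_pow hn] at hμ
    exact hℓ.ne_zero (by exact_mod_cast hμ.symm)
  refine ⟨μ, A.mem_nonunits_iff.mpr ?_, hμ0, fun x hxK hx => ?_⟩
  · by_contra h
    exact absurd hℓ1 (not_lt.mpr (hμv ▸ one_le_pow₀ (not_lt.mp h)))
  · have hdeg : (minpoly ℚ x).natDegree ≤ n := by
      have h := minpoly.natDegree_le (A := ℚ) (⟨x, hxK⟩ : K₀)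
      have e := minpoly.algHom_eq K₀.val Subtype.val_injective ⟨x, hxK⟩
      rw [show K₀.val ⟨x, hxK⟩ = x from rfl] at e
      rw [e]
      convert h using 3
      exact Subsingleton.elim _ _
    have h := valuation_pow_le_of_natDegree_le hℓ hA hdeg ((A.mem_nonunits_iff).mp hx)
    rw [← hμv] at h
    rw [← A.valuation_le_one_iff, map_div₀]
    exact div_le_one_of_le₀ (le_of_pow_le_pow_left₀ hn zero_le h) zero_le

/-- The coefficients of an element of a base-changed field of Laurent series lie in a number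
field. -/
theorem exists_finite_coeff_field (F₀ : IntermediateField ℚ (LaurentSeries ℚ))
    {x : LaurentSeries Qbar} (hx : x ∈ laurentBaseChange Qbar F₀) :
    ∃ K₀ : IntermediateField ℚ Qbar, FiniteDimensional ℚ K₀ ∧ ∀ n, x.coeff n ∈ K₀ := by
  have hlift : ∀ (K₀ : IntermediateField ℚ Qbar) (y : LaurentSeries Qbar),
      (∀ n, y.coeff n ∈ K₀) → ∃ y₀ : LaurentSeries K₀, coeffMap K₀.val.toRingHom y₀ = y := by
    intro K₀ y hy
    refine ⟨⟨fun n => ⟨y.coeff n, hy n⟩, y.isPWO_support.mono fun n hn h0 => ?_⟩,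
      HahnSeries.ext rfl⟩
    exact hn (Subtype.ext h0)
  have hop : ∀ (op : ∀ (R : Type) [Field R], LaurentSeries R → LaurentSeries R → LaurentSeries R),
      (∀ (K₀ : IntermediateField ℚ Qbar) (a b : LaurentSeries K₀),
        coeffMap K₀.val.toRingHom (op K₀ a b) =
          op Qbar (coeffMap K₀.val.toRingHom a) (coeffMap K₀.val.toRingHom b)) →
      ∀ a b : LaurentSeries Qbar,
      (∃ K₀ : IntermediateField ℚ Qbar, FiniteDimensional ℚ K₀ ∧ ∀ n, a.coeff n ∈ K₀) →
      (∃ K₀ : IntermediateField ℚ Qbar, FiniteDimensional ℚ K₀ ∧ ∀ n, b.coeff n ∈ K₀) →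
      ∃ K₀ : IntermediateField ℚ Qbar, FiniteDimensional ℚ K₀ ∧
        ∀ n, (op Qbar a b).coeff n ∈ K₀ := by
    rintro op hop a b ⟨K₁, h1, ha⟩ ⟨K₂, h2, hb⟩
    refine ⟨K₁ ⊔ K₂, IntermediateField.finiteDimensional_sup K₁ K₂, fun n => ?_⟩
    obtain ⟨a₀, rfl⟩ := hlift (K₁ ⊔ K₂) a fun m => (le_sup_left : K₁ ≤ K₁ ⊔ K₂) (ha m)
    obtain ⟨b₀, rfl⟩ := hlift (K₁ ⊔ K₂) b fun m => (le_sup_right : K₂ ≤ K₁ ⊔ K₂) (hb m)
    rw [← hop]
    exact Subtype.property _
  rw [mem_laurentBaseChange_iff] at hx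
  induction hx using Subfield.closure_induction with
  | mem y hy =>
    rcases hy with ⟨c, rfl⟩ | ⟨z, -, rfl⟩
    · refine ⟨IntermediateField.adjoin ℚ {c},
        IntermediateField.adjoin.finiteDimensional (Algebra.IsIntegral.isIntegral c), fun n => ?_⟩
      rw [algebraMap_laurentSeries_eq_single, HahnSeries.coeff_single]
      split
      · exact IntermediateField.mem_adjoin_simple_self ℚ c
      · exact zero_mem _
    · refine ⟨⊥, inferInstance, fun n => ?_⟩
      rw [coeffEmb_coeff]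
      exact IntermediateField.algebraMap_mem _ _
  | one =>
    refine ⟨⊥, inferInstance, fun n => ?_⟩
    rw [HahnSeries.coeff_one]
    split
    · exact one_mem _
    · exact zero_mem _
  | add a b _ _ ha hb =>
    exact hop (fun _ _ x y => x + y) (fun _ _ _ => map_add _ _ _) a b ha hb
  | neg a _ ha => exact hop (fun _ _ x _ => -x) (fun _ _ _ => map_neg _ _) a a ha ha
  | inv a _ ha => exact hop (fun _ _ x _ => x⁻¹) (fun _ _ _ => map_inv₀ _ _) a a ha ha
  | mul a b _ _ ha hb =>
    exact hop (fun _ _ x y => x * y) (fun _ _ _ => map_mul _ _ _) a b ha hb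

/-- A series whose coefficients lie in the maximal ideal is a multiple of an element of the
maximal ideal. -/
theorem exists_eq_const_mul (hℓ : ℓ.Prime) (hA : A.LiesOverPrime ℓ)
    (F₀ : IntermediateField ℚ (LaurentSeries ℚ)) {y : LaurentSeries A}
    (hy : coeffMap A.subtype y ∈ laurentBaseChange Qbar F₀)
    (h0 : coeffMap (IsLocalRing.residue A) y = 0) :
    ∃ (μ : A) (z : LaurentSeries A), (μ : Qbar) ≠ 0 ∧ IsLocalRing.residue A μ = 0 ∧
      y = HahnSeries.single 0 μ * z := by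
  obtain ⟨K₀, hfin, hK⟩ := exists_finite_coeff_field F₀ hy
  obtain ⟨μ, hμ, hμ0, hdiv⟩ := exists_uniform_divisor hℓ hA K₀
  have hμA : μ ∈ A := A.nonunits_le hμ
  have hmem : ∀ n, (y.coeff n : Qbar) ∈ A.nonunits := fun n => by
    rw [ValuationSubring.coe_mem_nonunits_iff, ← IsLocalRing.residue_eq_zero_iff]
    have h := congrArg (fun s => HahnSeries.coeff s n) h0
    simpa using h
  let z : LaurentSeries A :=
    ⟨fun n => ⟨(y.coeff n : Qbar) / μ, hdiv _ (hK n) (hmem n)⟩,
      y.isPWO_support.mono fun n hn h => hn (Subtype.ext (by simp [h]))⟩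
  refine ⟨⟨μ, hμA⟩, z, hμ0, ?_, ?_⟩
  · rw [IsLocalRing.residue_eq_zero_iff, ← ValuationSubring.coe_mem_nonunits_iff]
    exact hμ
  · ext n
    rw [HahnSeries.coeff_single_zero_mul]
    show (y.coeff n : Qbar) = μ * ((y.coeff n : Qbar) / μ)
    rw [mul_div_cancel₀ _ hμ0]

/-- The residue field of a valuation subring of an algebraically closed field is algebraically
closed. -/
instance isAlgClosed_residueField {L : Type*} [Field L] [IsAlgClosed L] (B : ValuationSubring L) :
    IsAlgClosed (IsLocalRing.ResidueField B) :=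
  FFBasic.isAlgClosed_residueField B

end FLTAgent.CongruenceRel
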