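import Fermat.Prelude.Def_ModularCurve_ArithmeticGalois
import Fermat.Prelude.Def_ModularCurve_X0ModL

set_option autoImplicit false

/-!
# Shortcut instances

The constant-field algebra structures on the function fields, recorded once so that instance
search does not rebuild them from the Laurent series field each time.
-/

noncomputable section

namespace FLTAgent.CongruenceRel

open ModularCurve

/-- Shortcut for the constants of the base-changed function field. -/
instance (priority := 2000) algebraBar (N : ℕ) :
    Algebra (AlgebraicClosure ℚ) (modularFunctionFieldBar N) := inferInstance

/-- Shortcut for the constants of the special-fibre function field. -/
instance (priority := 2000) algebraFullC (k : Type) [Field k] (N : ℕ) :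
    Algebra k (modularFunctionFieldFullC k N) := inferInstance

/-- Shortcut for the constants of Laurent series. -/
instance (priority := 2000) algebraLaurentQbar :
    Algebra (AlgebraicClosure ℚ) (LaurentSeries (AlgebraicClosure ℚ)) := inferInstance

end FLTAgent.CongruenceRel
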