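import Fermat.Agent.CongruenceRel.IntRing
import Mathlib.RingTheory.Norm.Transitivity
import Mathlib.RingTheory.Trace.Basic
import Mathlib.RingTheory.Ideal.GoingUp
import Mathlib.RingTheory.Localization.FractionRing
import Mathlib.FieldTheory.IsAlgClosed.AlgebraicClosure
import Mathlib.Algebra.Polynomial.Identities

set_option autoImplicit false

/-!
# Reduction of norms along a finite extension

`α β : F →+* F'` are two embeddings, `B` a subring of `F` with a reduction `red : B →+* K`.
Norms (along `α`) of elements integral over `B` reduce to products of ring homomorphisms into a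
field extension `E` of `K`; on elements `β b` these only depend on `red b`.
`exists_normRed` produces this data (`NormRedData`) from `NormRedHyp`.
-/

noncomputable section

namespace FLTAgent.CongruenceRel

open Polynomial

universe u

variable {F F' K : Type u} [Field F] [Field F'] [Field K]

/-- Hypotheses on a correspondence `F ⇉ F'` and a reduction of a subring of `F`. -/
structure NormRedHyp (α β : F →+* F') (B : Subring F) (red : B →+* K) : Prop where
  closed : ∀ x : F, B.subtype.IsIntegralElem x → x ∈ B
  beta_integral : ∀ b : B, (α.comp B.subtype).IsIntegralElem (β b)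
  alpha_integral : ∀ b : B, (β.comp B.subtype).IsIntegralElem (α b)
  ker_le : ∀ b : B, red b = 0 → ∃ c b' : B, α c = β c ∧ red c = 0 ∧ b = c * b'
  dim_one : ∀ P : Ideal red.range, P.IsPrime → P ≠ ⊥ → P.IsMaximal
  not_field : ¬ IsField red.range
  frac : ∀ y : K, ∃ a b : B, red b ≠ 0 ∧ y * red b = red a

variable (α β : F →+* F') (B : Subring F) (red : B →+* K)

/-- The elements of `F'` integral over `B` along `α`. -/
abbrev normRing : Subring F' := intRing (α.comp B.subtype)

variable {α β B red}

/-- `α` restricted to `B`. -/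
def alphaInt (b : B) : normRing α B := ⟨α b, apply_mem_intRing (α.comp B.subtype) b⟩

/-- `β` restricted to `B`. -/
def betaInt (H : NormRedHyp α β B red) (b : B) : normRing α B := ⟨β b, H.beta_integral b⟩

@[simp] theorem coe_alphaInt (b : B) : (alphaInt (α := α) b : F') = α b := rfl

@[simp] theorem coe_betaInt (H : NormRedHyp α β B red) (b : B) : (betaInt H b : F') = β b := rfl

theorem isFractionRing_range (H : NormRedHyp α β B red) : IsFractionRing red.range K := by
  refine IsFractionRing.of_field red.range K fun z => ?_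
  obtain ⟨a, b, hb, h⟩ := H.frac z
  refine ⟨⟨red a, a, rfl⟩, ⟨red b, b, rfl⟩, ?_⟩
  show z = red a / red b
  rw [eq_div_iff hb, h]

/-- The data produced by `exists_normRed`. -/
structure NormRedData (α β : F →+* F') (B : Subring F) (red : B →+* K)
    (H : NormRedHyp α β B red) : Type (u + 1) where
  E : Type u
  fieldE : Field E
  ι : K →+* E
  S : Type u
  fintypeS : Fintype S
  ψ : S → normRing α B →+* E
  φ : S → K →+* E
  ψ_alpha : ∀ (s : S) (b : B), ψ s (alphaInt b) = ι (red b)
  ψ_beta : ∀ (s : S) (b : B), ψ s (betaInt H b) = φ s (red b)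
  φ_const : ∀ (s : S) (c : B), α c = β c → φ s (red c) = ι (red c)
  ψ_integral : ∀ (s : S) (x : normRing α B), (ι.comp red).IsIntegralElem (ψ s x)
  ψ_integral' : ∀ (s t : S) (x : normRing α B), ((φ s).comp red).IsIntegralElem (ψ t x)
  card_eq : Fintype.card S = (letI := α.toAlgebra; Module.finrank F F')
  norm_mem : ∀ x : normRing α B, (letI := α.toAlgebra; Algebra.norm F (x : F')) ∈ B
  norm_red : ∀ x : normRing α B, ι (red ⟨_, norm_mem x⟩) = ∏ s, ψ s x
  norm_dvd : ∀ x : normRing α B, ∃ u : normRing α B, alphaInt ⟨_, norm_mem x⟩ = x * u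
  trace_mem : ∀ x : normRing α B, (letI := α.toAlgebra; Algebra.trace F F' (x : F')) ∈ B
  trace_red : ∀ x : normRing α B, ι (red ⟨_, trace_mem x⟩) = ∑ s, ψ s x
  Ω : Type u
  fieldΩ : Field Ω
  emb : S → F' →+* Ω
  emb_injective : Function.Injective emb
  eq_of_simple_root : ∀ (s s' : S) (x : normRing α B) (P : Polynomial B),
    P.eval₂ (α.comp B.subtype) (x : F') = 0 → ψ s x = ψ s' x →
    P.derivative.eval₂ (ι.comp red) (ψ s x) ≠ 0 → emb s (x : F') = emb s' (x : F')

attribute [instance] NormRedData.fieldE NormRedData.fintypeS NormRedData.fieldΩ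

theorem NormRedData.eq_of_closure {H : NormRedHyp α β B red} (d : NormRedData α β B red H)
    {s s' : d.S} {T : Set F'} (hT : Subfield.closure T = ⊤)
    (h : ∀ x ∈ T, d.emb s x = d.emb s' x) : s = s' := by
  refine d.emb_injective (RingHom.ext fun x => ?_)
  exact RingHom.eqOn_field_closure (f := d.emb s) (g := d.emb s') h
    (hT ▸ Subfield.mem_top x)

section Lemmas

variable {L Ω : Type*} [Field L] [Field Ω] [Algebra F L] [Algebra F Ω]

/-- An embedding over `F` sends elements integral over `B` to elements integral over `B`. -/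
private theorem algHom_mem_intRing (s : L →ₐ[F] Ω) {x : L}
    (hx : ((algebraMap F L).comp B.subtype).IsIntegralElem x) :
    s x ∈ intRing ((algebraMap F Ω).comp B.subtype) := by
  have h1 := isIntegralElem_map (f := (algebraMap F L).comp B.subtype) (s : L →+* Ω) hx
  have h2 : (s : L →+* Ω).comp ((algebraMap F L).comp B.subtype) =
      (algebraMap F Ω).comp B.subtype := RingHom.ext fun b => s.commutes (b : F)
  rwa [h2] at h1

variable [FiniteDimensional F L] [Algebra.IsSeparable F L]

/-- Norm and trace of an element integral over an integrally closed `B` lie in `B`. -/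
private theorem norm_trace_mem (hcl : ∀ x : F, B.subtype.IsIntegralElem x → x ∈ B) {x : L}
    (hx : ((algebraMap F L).comp B.subtype).IsIntegralElem x) :
    Algebra.norm F x ∈ B ∧ Algebra.trace F L x ∈ B := by
  have hdown : ∀ f : F, algebraMap F (AlgebraicClosure F) f ∈
      intRing ((algebraMap F (AlgebraicClosure F)).comp B.subtype) → f ∈ B := fun f hf =>
    hcl f ((isIntegralElem_map_iff (algebraMap F (AlgebraicClosure F))
      (algebraMap F (AlgebraicClosure F)).injective).mp hf)
  refine ⟨hdown _ ?_, hdown _ ?_⟩
  · rw [Algebra.norm_eq_prod_embeddings]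
    exact Subring.prod_mem _ fun s _ => algHom_mem_intRing s hx
  · rw [trace_eq_sum_embeddings]
    exact Subring.sum_mem _ fun s _ => algHom_mem_intRing s hx

/-- An element integral over `B` divides its norm among such elements. -/
private theorem exists_mul_eq_norm {x : L}
    (hx : ((algebraMap F L).comp B.subtype).IsIntegralElem x) :
    ∃ u ∈ intRing ((algebraMap F L).comp B.subtype),
      algebraMap F L (Algebra.norm F x) = x * u := by
  classical
  rcases eq_or_ne x 0 with rfl | hx0
  · exact ⟨0, zero_mem _, by simp⟩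
  set u : L := algebraMap F L (Algebra.norm F x) / x with hu
  obtain ⟨s0⟩ : Nonempty (L →ₐ[F] AlgebraicClosure F) := ⟨IsAlgClosed.lift⟩
  have hu' : s0 u = ∏ s ∈ Finset.univ.erase s0, s x := by
    rw [hu, map_div₀, s0.commutes, Algebra.norm_eq_prod_embeddings,
      ← Finset.mul_prod_erase Finset.univ _ (Finset.mem_univ s0),
      mul_div_cancel_left₀ _ (by simpa using hx0)]
  set g := (algebraMap F (AlgebraicClosure F)).comp B.subtype with hg
  have h1 : g.IsIntegralElem (s0 u) :=
    hu' ▸ Subring.prod_mem (intRing g) fun s _ => algHom_mem_intRing s hx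
  have h2 : g = (s0 : L →+* AlgebraicClosure F).comp ((algebraMap F L).comp B.subtype) :=
    RingHom.ext fun b => (s0.commutes (b : F)).symm
  rw [h2] at h1
  exact ⟨u, (isIntegralElem_map_iff (s0 : L →+* AlgebraicClosure F) s0.injective).mp h1,
    by rw [hu, mul_div_cancel₀ _ hx0]⟩

end Lemmas

/-- The elements integral along `g` are integral along the corestriction of `g`. -/
private theorem isIntegral_codRestrict_intRing {R S : Type*} [CommRing R] [CommRing S]
    (g : R →+* S) : (g.codRestrict (intRing g) (apply_mem_intRing g)).IsIntegral := fun x => by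
  obtain ⟨P, hP, hPx⟩ := x.2
  exact ⟨P, hP, Subtype.ext ((Polynomial.hom_eval₂ P _ (intRing g).subtype x).trans hPx)⟩

/-- If `B` is integral along `γ`, then the elements integral over `B` in a field over `F` are
integral along `s ∘ γ`. -/
private theorem isIntegral_comp_algHom [Algebra F F'] {Ω : Type*} [Field Ω] [Algebra F Ω]
    {γ : F →+* F'} (hint : ∀ b : B, (γ.comp B.subtype).IsIntegralElem (algebraMap F F' b))
    (s : F' →ₐ[F] Ω) (f : B →+* intRing ((algebraMap F Ω).comp B.subtype))
    (hf : ∀ b, (f b : Ω) = s (γ b)) : f.IsIntegral := fun x => by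
  have hfs : (intRing ((algebraMap F Ω).comp B.subtype)).subtype.comp f =
      (s : F' →+* Ω).comp (γ.comp B.subtype) := RingHom.ext hf
  have hb : ∀ b : B, ((s : F' →+* Ω).comp (γ.comp B.subtype)).IsIntegralElem
      ((algebraMap F Ω).comp B.subtype b) := fun b => by
    have h := isIntegralElem_map (f := γ.comp B.subtype) (s : F' →+* Ω) (hint b)
    rwa [show (s : F' →+* Ω) (algebraMap F F' b) = (algebraMap F Ω).comp B.subtype b from
      s.commutes (b : F)] at h
  obtain ⟨P, hP, hPx⟩ := isIntegralElem_of_forall hb x.2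
  rw [← hfs] at hPx
  exact ⟨P, hP, Subtype.ext ((Polynomial.hom_eval₂ P f _ x).trans hPx)⟩

/-- If every nonzero prime of `R` is maximal and `R` is no field, an integral map of `R` to a
domain is injective as soon as there is an injective one. -/
private theorem injective_of_isIntegral_of_dim_one {R D : Type*} [CommRing R] [IsDomain R]
    [CommRing D] [IsDomain D] (hdim : ∀ P : Ideal R, P.IsPrime → P ≠ ⊥ → P.IsMaximal)
    (hR : ¬ IsField R) {i j : R →+* D} (hi : Function.Injective i) (hii : i.IsIntegral)
    (hji : j.IsIntegral) : Function.Injective j := by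
  rw [RingHom.injective_iff_ker_eq_bot]
  by_contra hne
  have := hdim _ (RingHom.ker_isPrime j) hne
  let jb : R ⧸ RingHom.ker j →+* D := RingHom.kerLift j
  have hjb : jb.IsIntegral := fun y => by
    have h : j = jb.comp (Ideal.Quotient.mk (RingHom.ker j)) := RingHom.ext fun _ => rfl
    have h1 := hji y
    rw [h] at h1
    exact isIntegralElem_of_comp h1
  have hD : IsField D := by
    let := jb.toAlgebra
    have : Algebra.IsIntegral (R ⧸ RingHom.ker j) D := ⟨hjb⟩
    exact isField_of_isIntegral_of_isField'
      ((Ideal.Quotient.maximal_ideal_iff_isField_quotient (RingHom.ker j)).mp inferInstance)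
  let := i.toAlgebra
  have : Algebra.IsIntegral R D := ⟨hii⟩
  exact hR (isField_of_isIntegral_of_isField (S := D) hi hD)

/-- A map of `B` vanishing where `red` does, as a map of the range of `red`. -/
private def rangeLift {D : Type*} [CommRing D] (red : B →+* K) (f : B →+* D)
    (hf : ∀ b, red b = 0 → f b = 0) : red.range →+* D :=
  red.rangeRestrict.liftOfSurjective red.rangeRestrict_surjective
    ⟨f, fun b hb => RingHom.mem_ker.mpr (hf b (congrArg Subtype.val (RingHom.mem_ker.mp hb) :))⟩

private theorem rangeLift_apply {D : Type*} [CommRing D] {f : B →+* D}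
    {hf : ∀ b, red b = 0 → f b = 0} (b : B) : rangeLift red f hf (red.rangeRestrict b) = f b :=
  RingHom.liftOfRightInverse_comp_apply _ _ _ _ b

private theorem rangeLift_isIntegral {D : Type*} [CommRing D] {f : B →+* D}
    {hf : ∀ b, red b = 0 → f b = 0} (hfi : f.IsIntegral) :
    (rangeLift red f hf).IsIntegral := fun y => by
  have h : f = (rangeLift red f hf).comp red.rangeRestrict :=
    RingHom.ext fun b => (rangeLift_apply (hf := hf) b).symm
  have h1 := hfi y
  rw [h] at h1
  exact isIntegralElem_of_comp h1

/-- A field `E` receiving `C` compatibly with a map of `K`, into which every second integral map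
of `B` to `C` killing `ker red` also induces a map of `K`. -/
private theorem exists_residual_maps (H : NormRedHyp α β B red) {C : Type u} [CommRing C]
    [IsDomain C] {gC : B →+* C} (hgi : gC.IsIntegral) (hg : Function.Injective gC) :
    ∃ (E : Type u) (_ : Field E) (π : C →+* E) (ι : K →+* E), (∀ b, ι (red b) = π (gC b)) ∧
      ∀ f : B →+* C, f.IsIntegral → (∀ b, red b = 0 → π (f b) = 0) →
        ∃ φ : K →+* E, ∀ b, φ (red b) = π (f b) := by
  let := gC.toAlgebra
  have : Algebra.IsIntegral B C := ⟨hgi⟩
  have : (RingHom.ker red).IsPrime := RingHom.ker_isPrime red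
  obtain ⟨Q, hQp, hQ⟩ := Ideal.exists_ideal_over_prime_of_isIntegral_of_isDomain
    (R := B) (S := C) (RingHom.ker red) (by
      rw [show algebraMap B C = gC from rfl, (RingHom.injective_iff_ker_eq_bot _).mp hg]
      exact bot_le)
  have := hQp
  have := isFractionRing_range H
  let E := FractionRing (C ⧸ Q)
  let π : C →+* E := (algebraMap (C ⧸ Q) E).comp (Ideal.Quotient.mk Q)
  have hπ0 : ∀ x : C, π x = 0 ↔ Ideal.Quotient.mk Q x = 0 := fun x =>
    map_eq_zero_iff _ (IsFractionRing.injective (C ⧸ Q) E)
  have hgQ : ∀ b : B, Ideal.Quotient.mk Q (gC b) = 0 ↔ red b = 0 := fun b => by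
    rw [Ideal.Quotient.eq_zero_iff_mem, ← RingHom.mem_ker, ← hQ]; rfl
  have hint : ∀ {f : B →+* C}, f.IsIntegral → ((Ideal.Quotient.mk Q).comp f).IsIntegral :=
    fun hf y => by
      obtain ⟨x, rfl⟩ := Ideal.Quotient.mk_surjective y
      exact isIntegralElem_map _ (hf x)
  have hlift : ∀ (f : B →+* C) (hf : ∀ b, red b = 0 → Ideal.Quotient.mk Q (f b) = 0),
      Function.Injective (rangeLift red ((Ideal.Quotient.mk Q).comp f) hf) →
        ∃ φ : K →+* E, ∀ b, φ (red b) = π (f b) := fun f hf hinj =>
    ⟨IsFractionRing.lift (g := (algebraMap (C ⧸ Q) E).comp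
        (rangeLift red ((Ideal.Quotient.mk Q).comp f) hf))
      ((IsFractionRing.injective (C ⧸ Q) E).comp hinj), fun b =>
      (IsFractionRing.lift_algebraMap _ (red.rangeRestrict b)).trans
        (congrArg (algebraMap (C ⧸ Q) E)
          (rangeLift_apply (f := (Ideal.Quotient.mk Q).comp f) (hf := hf) b))⟩
  have hi : Function.Injective
      (rangeLift red ((Ideal.Quotient.mk Q).comp gC) fun b => (hgQ b).mpr) := by
    rw [injective_iff_map_eq_zero]
    intro y hy
    obtain ⟨b, rfl⟩ := red.rangeRestrict_surjective y
    rw [rangeLift_apply, RingHom.comp_apply, hgQ] at hy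
    exact Subtype.ext hy
  obtain ⟨ι, hι⟩ := hlift gC (fun b => (hgQ b).mpr) hi
  exact ⟨E, inferInstance, π, ι, hι, fun f hfi hf => hlift f (fun b hb => (hπ0 _).mp (hf b hb))
    (injective_of_isIntegral_of_dim_one H.dim_one H.not_field hi
      (rangeLift_isIntegral (hint hgi)) (rangeLift_isIntegral (hint hfi)))⟩

/-- Two roots congruent under `π`, one of them simple there, are equal. -/
private theorem eq_of_simple_root_map {R C E : Type*} [CommRing R] [CommRing C] [IsDomain C]
    [CommRing E] (π : C →+* E) (f : R →+* C) (P : Polynomial R) {a a' : C}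
    (ha : P.eval₂ f a = 0) (ha' : P.eval₂ f a' = 0) (he : π a = π a')
    (hd : P.derivative.eval₂ (π.comp f) (π a) ≠ 0) : a = a' := by
  by_contra hne
  rw [← Polynomial.eval_map] at ha ha'
  obtain ⟨k, hk⟩ := Polynomial.binomExpansion (P.map f) a (a' - a)
  rw [add_sub_cancel, ha', ha, zero_add] at hk
  have h0 : (P.map f).derivative.eval a + k * (a' - a) = 0 := by
    refine (mul_eq_zero.mp ?_).resolve_right (sub_ne_zero.mpr (Ne.symm hne))
    rw [add_mul, mul_assoc, ← sq]
    exact hk.symm
  apply hd
  have h1 := congrArg π h0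
  rwa [map_add, map_mul, map_sub, map_zero, ← he, sub_self, mul_zero, add_zero,
    Polynomial.derivative_map, Polynomial.eval_map, Polynomial.hom_eval₂] at h1

theorem exists_normRed (H : NormRedHyp α β B red)
    (hfin : letI := α.toAlgebra; FiniteDimensional F F')
    (hsep : letI := α.toAlgebra; Algebra.IsSeparable F F') :
    Nonempty (NormRedData α β B red H) := by
  classical
  let := α.toAlgebra
  have : FiniteDimensional F F' := hfin
  have : Algebra.IsSeparable F F' := hsep
  let g : B →+* AlgebraicClosure F := (algebraMap F (AlgebraicClosure F)).comp B.subtype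
  let C : Subring (AlgebraicClosure F) := intRing g
  let gC : B →+* C := g.codRestrict C (apply_mem_intRing g)
  have hgi : gC.IsIntegral := isIntegral_codRestrict_intRing g
  have hgCinj : Function.Injective gC := fun a b h =>
    Subtype.ext ((algebraMap F (AlgebraicClosure F)).injective (congrArg Subtype.val h :))
  obtain ⟨E, hE, π, ι, hι, hφex⟩ := exists_residual_maps H hgi hgCinj
  have hιπ : π.comp gC = ι.comp red := RingHom.ext fun b => (hι b).symm
  have hs : ∀ (s : F' →ₐ[F] AlgebraicClosure F) (x : normRing α B), s (x : F') ∈ C :=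
    fun s x => algHom_mem_intRing s x.2
  let ψ : (F' →ₐ[F] AlgebraicClosure F) → normRing α B →+* E := fun s =>
    π.comp (((s : F' →+* AlgebraicClosure F).comp (normRing α B).subtype).codRestrict C (hs s))
  have hψα : ∀ s b, ψ s (alphaInt b) = ι (red b) := fun s b =>
    (congrArg π (Subtype.ext (s.commutes (b : F)) : _ = gC b)).trans (hι b).symm
  -- the maps `φ`, read through `β`
  let fC : (F' →ₐ[F] AlgebraicClosure F) → B →+* C := fun s =>
    ((s : F' →+* AlgebraicClosure F).comp (β.comp B.subtype)).codRestrict C
      fun b => hs s (betaInt H b)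
  have hfC : ∀ s, (fC s).IsIntegral := fun s =>
    isIntegral_comp_algHom H.alpha_integral s (fC s) fun b => rfl
  have hker : ∀ s b, red b = 0 → π (fC s b) = 0 := fun s b hb => by
    obtain ⟨c, b', hc, hc0, rfl⟩ := H.ker_le b hb
    rw [map_mul, map_mul, show π (fC s c) = ψ s (alphaInt c) from
      congrArg π (Subtype.ext (congrArg s hc.symm)), hψα, hc0, map_zero, zero_mul]
  choose φ hφ using fun s => hφex (fC s) (hfC s) (hker s)
  refine ⟨{
    E := E
    fieldE := hE
    ι := ι
    S := F' →ₐ[F] AlgebraicClosure F
    fintypeS := inferInstance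
    ψ := ψ
    φ := φ
    ψ_alpha := hψα
    ψ_beta := fun s b => (hφ s b).symm
    φ_const := fun s c hc => ?_
    ψ_integral := fun s x => hιπ ▸ isIntegralElem_map π (hgi ⟨s x.1, hs s x⟩)
    ψ_integral' := fun s t x => ?_
    card_eq := AlgHom.card F F' (AlgebraicClosure F)
    norm_mem := fun x => (norm_trace_mem H.closed x.2).1
    norm_red := fun x => ?_
    norm_dvd := fun x => ?_
    trace_mem := fun x => (norm_trace_mem H.closed x.2).2
    trace_red := fun x => ?_
    Ω := AlgebraicClosure F
    fieldΩ := inferInstance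
    emb := fun s => (s : F' →+* AlgebraicClosure F)
    emb_injective := fun s s' h => AlgHom.coe_ringHom_injective h
    eq_of_simple_root := fun s s' x P hP hψe hd => ?_ }⟩
  · rw [hφ, ← hψα s c]
    exact congrArg π (Subtype.ext (congrArg s hc.symm))
  · have h : π.comp (fC s) = (φ s).comp red := RingHom.ext fun b => (hφ s b).symm
    exact h ▸ isIntegralElem_map π (hfC s ⟨t x.1, hs t x⟩)
  · rw [hι]
    refine (congrArg π (Subtype.ext ?_)).trans (map_prod π _ _)
    rw [SubmonoidClass.coe_finsetProd]
    exact Algebra.norm_eq_prod_embeddings F (AlgebraicClosure F) (x : F')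
  · obtain ⟨u, hu, hxu⟩ := exists_mul_eq_norm x.2
    exact ⟨⟨u, hu⟩, Subtype.ext hxu⟩
  · rw [hι]
    refine (congrArg π (Subtype.ext ?_)).trans (map_sum π _ _)
    rw [AddSubmonoidClass.coe_finsetSum]
    exact trace_eq_sum_embeddings (K := F) (L := F') (AlgebraicClosure F) (x := (x : F'))
  · have hroot : ∀ t : F' →ₐ[F] AlgebraicClosure F, P.eval₂ gC ⟨t x.1, hs t x⟩ = 0 := fun t => by
      refine Subtype.ext ((Polynomial.hom_eval₂ P gC C.subtype _).trans ?_)
      rw [show C.subtype.comp gC = (t : F' →+* AlgebraicClosure F).comp (α.comp B.subtype) from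
        RingHom.ext fun b => (t.commutes (b : F)).symm]
      exact (Polynomial.hom_eval₂ P _ (t : F' →+* AlgebraicClosure F) _).symm.trans
        (by rw [hP, map_zero]; rfl)
    rw [← hιπ] at hd
    exact congrArg Subtype.val (eq_of_simple_root_map π gC P (hroot s) (hroot s') hψe hd)

end FLTAgent.CongruenceRel
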