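import Fermat.Agent.ModularFF.JExpansion
import Fermat.Prelude.Def_ModularCurve_ReductionModL
import Fermat.Prelude.Def_ModularCurve_HeckeOperator
import Fermat.Agent.GoodReduction.Data
import Fermat.Agent.CongruenceRel.Instances
import Fermat.Agent.CongruenceRel.Coeff
import Fermat.Agent.CongruenceRel.NormReduction

set_option autoImplicit false

/-!
# The integral chart ring of `X₀(N)` and its reduction

`chart` is the ring of functions integral over `A[j]`, with integral expansions `series` and
reduction `chartRed`, whose kernel is described by `ker_chartRed`. `ModularEquations` states that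
`j` and the `j(q^d)` are integral over each other; `jgen` gives the `j(q^d)` in the chart.
-/

noncomputable section

namespace FLTAgent.CongruenceRel

open ModularCurve AlgebraicCurve Polynomial FLTAgent.GoodReduction

local notation "Qbar" => AlgebraicClosure ℚ

/-- `p ↦ p(j)` in Laurent series over `R`. -/
def evalJ (R : Type*) [CommRing R] : Polynomial ℤ →+* LaurentSeries R :=
  Polynomial.eval₂RingHom (Int.castRingHom _) (jqModC R)

@[simp] theorem evalJ_X (R : Type*) [CommRing R] : evalJ R X = jqModC R := by simp [evalJ]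

theorem coeffMap_comp_evalJ {R S : Type*} [CommRing R] [CommRing S] (f : R →+* S) :
    (coeffMap f).comp (evalJ R) = evalJ S :=
  Polynomial.ringHom_ext' (RingHom.ext_int _ _) (by simp [coeffMap_jqModC])

theorem coeffEmb_comp_evalJ {L : Type*} [Field L] [Algebra ℚ L] :
    (coeffEmb L).comp (evalJ ℚ) = evalJ L :=
  coeffMap_comp_evalJ _

theorem coeffEmb_qExpand_jq {L : Type*} [Field L] [Algebra ℚ L] (d : ℕ) [NeZero d] :
    coeffEmb L (qExpand ℚ d jq) = qExpand L d (jqModC L) := by
  rw [← jqModC_rat, coeffEmb, coeffMap_qExpand, coeffMap_jqModC]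

theorem qExpand_algebraMap {L : Type*} [Field L] (q : ℕ) [NeZero q] (a : L) :
    qExpand L q (algebraMap L (LaurentSeries L) a) = algebraMap L (LaurentSeries L) a := by
  rw [algebraMap_laurentSeries_eq_single, qExpand_single, mul_zero]

/-- `j` and every `j(q^d)` are integral over each other. -/
structure ModularEquations : Prop where
  fwd : ∀ (d : ℕ) [NeZero d], (evalJ ℚ).IsIntegralElem (qExpand ℚ d jq)
  bwd : ∀ (d : ℕ) [NeZero d], ((qExpand ℚ d).comp (evalJ ℚ)).IsIntegralElem jq

theorem ModularEquations.fwd' (hM : ModularEquations) {L : Type*} [Field L] [Algebra ℚ L]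
    (d : ℕ) [NeZero d] : (evalJ L).IsIntegralElem (qExpand L d (jqModC L)) := by
  have h := isIntegralElem_map (coeffEmb L) (hM.fwd d)
  rwa [coeffEmb_comp_evalJ, coeffEmb_qExpand_jq] at h

theorem ModularEquations.bwd' (hM : ModularEquations) {L : Type*} [Field L] [Algebra ℚ L]
    (d : ℕ) [NeZero d] : ((qExpand L d).comp (evalJ L)).IsIntegralElem (jqModC L) := by
  have h := isIntegralElem_map (coeffEmb L) (hM.bwd d)
  have h2 : (coeffEmb L).comp ((qExpand ℚ d).comp (evalJ ℚ)) = (qExpand L d).comp (evalJ L) :=
    RingHom.ext fun x => by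
      rw [RingHom.comp_apply, RingHom.comp_apply, RingHom.comp_apply,
        ← coeffEmb_comp_evalJ (L := L), RingHom.comp_apply, coeffEmb, coeffMap_qExpand]
  rwa [h2, ModularFF.coeffEmb_jq] at h

/-- An injective ring map is injective on coefficients of series. -/
theorem coeffMap_injective {R S : Type*} [CommRing R] [CommRing S] {f : R →+* S}
    (hf : Function.Injective f) : Function.Injective (coeffMap f) := fun _ _ h =>
  HahnSeries.ext <| funext fun n => hf (congrArg (fun s => HahnSeries.coeff s n) h)

theorem aeval_jqModC_eq_zero {k : Type*} [Field k] {p : Polynomial k}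
    (h : Polynomial.aeval (jqModC k) p = 0) : p = 0 := by
  by_contra hp
  have hc := congrArg (fun s => HahnSeries.coeff s (-(p.natDegree : ℤ))) h
  simp only [HahnSeries.coeff_zero] at hc
  rw [Polynomial.aeval_eq_sum_range, HahnSeries.coeff_sum,
    Finset.sum_eq_single_of_mem p.natDegree (Finset.self_mem_range_succ _)] at hc
  · rw [Algebra.smul_def, algebraMap_laurentSeries_eq_single, HahnSeries.coeff_single_zero_mul,
      coeff_jqModC_pow_self, mul_one] at hc
    exact hp (Polynomial.leadingCoeff_eq_zero.mp hc)
  · intro i hi hne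
    have hi' : i < p.natDegree := lt_of_le_of_ne (Nat.lt_succ_iff.mp (Finset.mem_range.mp hi)) hne
    rw [Algebra.smul_def, algebraMap_laurentSeries_eq_single, HahnSeries.coeff_single_zero_mul,
      coeff_jqModC_pow_of_lt k (by omega), mul_zero]

section Chart

variable (A : ValuationSubring Qbar) (N : ℕ)

local notation "FF" => modularFunctionFieldBar N
local notation "kA" => IsLocalRing.ResidueField A
local notation "FK" => modularFunctionFieldFullC (IsLocalRing.ResidueField A) N

/-- The chart ring as a subring of the function field. -/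
def chart : Subring (FF) :=
  (chartRing A N (jqModC Qbar)).comap (IntermediateField.val (FF)).toRingHom

variable {A N}

theorem mem_chart {x : FF} :
    x ∈ chart A N ↔ IsIntegral (baseRing A (jqModC Qbar)) (x : LaurentSeries Qbar) :=
  ⟨fun h => h.1, fun h => ⟨h, x.2⟩⟩

theorem evalJ_mem_baseRing (p : Polynomial ℤ) :
    evalJ Qbar p ∈ baseRing A (jqModC Qbar) := by
  induction p using Polynomial.induction_on' with
  | add p q hp hq => rw [map_add]; exact add_mem hp hq
  | monomial n a =>
    rw [← Polynomial.C_mul_X_pow_eq_monomial, map_mul, map_pow, evalJ_X, eq_intCast, map_intCast]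
    exact mul_mem (intCast_mem _ a) (pow_mem (self_mem_baseRing _ _) n)

theorem isIntegral_baseRing_of_evalJ {x : LaurentSeries Qbar}
    (hx : (evalJ Qbar).IsIntegralElem x) : IsIntegral (baseRing A (jqModC Qbar)) x :=
  isIntegralElem_of_forall (g := algebraMap (baseRing A (jqModC Qbar)) (LaurentSeries Qbar))
    (fun p => RingHom.isIntegralElem_map _ (x := (⟨_, evalJ_mem_baseRing p⟩ : baseRing A _))) hx

variable (A) in
/-- Constants of `A` in the chart. -/
def chartC : A →+* chart A N :=
  ((algebraMap Qbar (FF)).comp A.subtype).codRestrict (chart A N) fun a =>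
    mem_chart.mpr (isIntegral_algebraMap (R := baseRing A (jqModC Qbar))
      (x := ⟨_, algebraMap_mem_baseRing A _ a⟩))

@[simp] theorem coe_chartC (a : A) :
    ((chartC A a : chart A N) : FF) = algebraMap Qbar (FF) (a : Qbar) := rfl

theorem coe_coe_chartC (a : A) :
    (((chartC A a : chart A N) : FF) : LaurentSeries Qbar) = HahnSeries.single 0 (a : Qbar) :=
  algebraMap_laurentSeries_eq_single Qbar (a : Qbar)

theorem qExpand_jqModC_mem (d : ℕ) [NeZero d] (hd : d ∣ N) :
    qExpand Qbar d (jqModC Qbar) ∈ FF :=
  coeffEmb_qExpand_jq (L := Qbar) d ▸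
    coeffEmb_mem_laurentBaseChange Qbar (jqd_mem_full N hd)

/-- `j(q^d)` as an element of the chart. -/
def jgen (hM : ModularEquations) (d : ℕ) [NeZero d] (hd : d ∣ N) : chart A N :=
  ⟨⟨_, qExpand_jqModC_mem d hd⟩, mem_chart.mpr (isIntegral_baseRing_of_evalJ (hM.fwd' d))⟩

variable (hGR : X0GoodReduction A (IsLocalRing.residue A) N)

include hGR in
theorem exists_series (b : chart A N) :
    ∃ y : LaurentSeries A, coeffMap A.subtype y = ((b : FF) : LaurentSeries Qbar) :=
  hGR.exists_coeff_fin _ b.2

/-- The `A`-integral expansion of a chart element. -/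
def series : chart A N →+* LaurentSeries A where
  toFun b := (exists_series hGR b).choose
  map_one' := coeffMap_injective Subtype.val_injective <| by
    rw [(exists_series hGR 1).choose_spec, map_one]; rfl
  map_mul' a b := coeffMap_injective Subtype.val_injective <| by
    rw [(exists_series hGR (a * b)).choose_spec, map_mul, (exists_series hGR a).choose_spec,
      (exists_series hGR b).choose_spec]; rfl
  map_zero' := coeffMap_injective Subtype.val_injective <| by
    rw [(exists_series hGR 0).choose_spec, map_zero]; rfl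
  map_add' a b := coeffMap_injective Subtype.val_injective <| by
    rw [(exists_series hGR (a + b)).choose_spec, map_add, (exists_series hGR a).choose_spec,
      (exists_series hGR b).choose_spec]; rfl

theorem coeffMap_series (b : chart A N) :
    coeffMap A.subtype (series hGR b) = ((b : FF) : LaurentSeries Qbar) :=
  (exists_series hGR b).choose_spec

theorem series_eq {b : chart A N} {y : LaurentSeries A}
    (h : coeffMap A.subtype y = ((b : FF) : LaurentSeries Qbar)) : series hGR b = y :=
  coeffMap_injective Subtype.val_injective ((coeffMap_series hGR b).trans h.symm)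

/-- Reduction of the chart. -/
def chartRed : chart A N →+* FK :=
  ((coeffMap (IsLocalRing.residue A)).comp (series hGR)).codRestrict (FK) fun b =>
    hGR.red_mem _ (coeffMap_series hGR b ▸ (b : FF).2)

theorem coe_chartRed (b : chart A N) :
    (chartRed hGR b : LaurentSeries kA) = coeffMap (IsLocalRing.residue A) (series hGR b) := rfl

theorem coe_chartRed_of_eq {b : chart A N} {y : LaurentSeries A}
    (h : coeffMap A.subtype y = ((b : FF) : LaurentSeries Qbar)) :
    (chartRed hGR b : LaurentSeries kA) = coeffMap (IsLocalRing.residue A) y := by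
  rw [coe_chartRed, series_eq hGR h]

theorem chartRed_chartC (a : A) :
    chartRed hGR (chartC A a) = algebraMap kA (FK) (IsLocalRing.residue A a) := by
  apply Subtype.ext
  rw [coe_chartRed_of_eq hGR (y := HahnSeries.single 0 a)]
  · rw [coeffMap_single]
    exact (algebraMap_laurentSeries_eq_single _ _).symm
  · rw [coeffMap_single, coe_coe_chartC]
    rfl

theorem chartRed_jgen (hM : ModularEquations) (d : ℕ) [NeZero d] (hd : d ∣ N) :
    (chartRed hGR (jgen hM d hd) : LaurentSeries kA) = qExpand kA d (jqModC kA) := by
  rw [coe_chartRed_of_eq hGR (y := qExpand A d (jqModC A))]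
  · rw [coeffMap_qExpand, coeffMap_jqModC]
  · rw [coeffMap_qExpand, coeffMap_jqModC]
    rfl

theorem adjoin_le_of_integral {x : LaurentSeries Qbar}
    (hx : IsIntegral (baseRing A (jqModC Qbar)) x) :
    IsIntegral (Algebra.adjoin Qbar {jqModC Qbar}) x := by
  refine isIntegralElem_of_forall (f := (baseRing A (jqModC Qbar)).subtype)
    (g := algebraMap (Algebra.adjoin Qbar {jqModC Qbar}) (LaurentSeries Qbar)) (fun r => ?_) hx
  have hr : (r : LaurentSeries Qbar) ∈ Algebra.adjoin Qbar {jqModC Qbar} := by
    refine (Subring.closure_le (t := (Algebra.adjoin Qbar {jqModC Qbar}).toSubring)).mpr ?_ r.2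
    rintro _ (rfl | ⟨a, rfl⟩)
    · exact Algebra.subset_adjoin (Set.mem_singleton _)
    · exact Subalgebra.algebraMap_mem _ _
  exact RingHom.isIntegralElem_map _ (x := (⟨_, hr⟩ : Algebra.adjoin Qbar {jqModC Qbar}))

include hGR in
theorem mem_chart_of_coeff {x : FF} {y : LaurentSeries A}
    (hy : coeffMap A.subtype y = (x : LaurentSeries Qbar))
    (hx : IsIntegral (Algebra.adjoin Qbar {jqModC Qbar}) (x : LaurentSeries Qbar)) :
    x ∈ chart A N := by
  have h := hGR.mem_chart_fin y (hy ▸ x.2) (hy ▸ hx)
  rw [hy] at h
  exact mem_chart.mpr h.1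

theorem ker_chartRed {ℓ : ℕ} (hℓ : ℓ.Prime) (hA : A.LiesOverPrime ℓ) (b : chart A N)
    (hb : chartRed hGR b = 0) :
    ∃ (μ : A) (b' : chart A N), IsLocalRing.residue A μ = 0 ∧ b = chartC A μ * b' := by
  obtain ⟨μ, z, hμ0, hμ, hz⟩ := exists_eq_const_mul hℓ hA (modularFunctionFieldFull N)
    (y := series hGR b) (coeffMap_series hGR b ▸ (b : FF).2)
    (congrArg Subtype.val hb)
  set x : FF := (b : FF) * (algebraMap Qbar (FF) (μ : Qbar))⁻¹ with hxdef
  have hne : algebraMap Qbar (FF) (μ : Qbar) ≠ 0 := by simpa using hμ0
  have hzx : coeffMap A.subtype z = (x : LaurentSeries Qbar) := by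
    rw [hxdef, IntermediateField.coe_mul, IntermediateField.coe_inv, ← coeffMap_series hGR b, hz,
      map_mul, coeffMap_single, IntermediateField.coe_algebraMap_apply,
      algebraMap_laurentSeries_eq_single]
    have : (HahnSeries.single (0 : ℤ) (μ : Qbar) : LaurentSeries Qbar) ≠ 0 := by simpa using hμ0
    rw [show A.subtype μ = (μ : Qbar) from rfl]
    field_simp
  have hxint : IsIntegral (Algebra.adjoin Qbar {jqModC Qbar}) (x : LaurentSeries Qbar) := by
    rw [hxdef, IntermediateField.coe_mul]
    refine (adjoin_le_of_integral (mem_chart.mp b.2)).mul ?_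
    rw [← map_inv₀, IntermediateField.coe_algebraMap_apply,
      IsScalarTower.algebraMap_apply Qbar (Algebra.adjoin Qbar {jqModC Qbar})]
    exact isIntegral_algebraMap
  refine ⟨μ, ⟨x, mem_chart_of_coeff hGR hzx hxint⟩, hμ, Subtype.ext ?_⟩
  show (b : FF) = algebraMap Qbar (FF) (μ : Qbar) * ((b : FF) * (algebraMap Qbar (FF) (μ : Qbar))⁻¹)
  field_simp

end Chart

end FLTAgent.CongruenceRel
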