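import Fermat.Prelude.Def_AlgebraicCurve_DivisorClassGroup
import Mathlib.Algebra.Order.BigOperators.Group.Finset

set_option autoImplicit false

/-!
# Bounded homomorphisms on divisors

A homomorphism `Div → ℤ` killing principal divisors and bounded on places kills `Div⁰`, as soon
as every divisor class of degree `0` contains some `E - C • P₀` with `E ≥ 0` of degree `C`.
The main result is `eq_zero_of_bounded`.
-/

namespace FLTAgent.CongruenceRel

open AlgebraicCurve

variable {K F : Type*} [Field K] [Field F] [Algebra K F]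

/-- Weak Riemann inequality in the form used for `eq_zero_of_bounded`. -/
def BoundedEffective (K F : Type*) [Field K] [Field F] [Algebra K F] : Prop :=
  ∃ (P₀ : Place K F) (C : ℕ), ∀ D ∈ Divisor.degZero (K := K) (F := F),
    ∃ E : Divisor K F, (∀ P, 0 ≤ E P) ∧ Divisor.degree E = C ∧
      E - (C : ℤ) • Finsupp.single P₀ 1 - D ∈ Divisor.principal (K := K) (F := F)

theorem abs_le_of_nonneg (hdeg : ∀ P : Place K F, P.deg = 1) (δ : Divisor K F →+ ℤ) (M : ℤ)
    (hb : ∀ P, |δ (Finsupp.single P 1)| ≤ M) {E : Divisor K F} (hE : ∀ P, 0 ≤ E P) :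
    |δ E| ≤ Divisor.degree E * M := by
  have hsum : δ E = ∑ P ∈ E.support, E P * δ (Finsupp.single P 1) := by
    conv_lhs => rw [← Finsupp.sum_single E, Finsupp.sum, map_sum]
    refine Finset.sum_congr rfl fun P _ => ?_
    rw [← Finsupp.smul_single_one, map_zsmul, smul_eq_mul]
  have hdE : Divisor.degree E = ∑ P ∈ E.support, E P := by
    conv_lhs => rw [← Finsupp.sum_single E, Finsupp.sum, map_sum]
    refine Finset.sum_congr rfl fun P _ => ?_
    rw [Divisor.degree_single, hdeg, Nat.cast_one, mul_one]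
  rw [hsum, hdE, Finset.sum_mul]
  refine (Finset.abs_sum_le_sum_abs _ _).trans (Finset.sum_le_sum fun P _ => ?_)
  rw [abs_mul, abs_of_nonneg (hE P)]
  exact mul_le_mul_of_nonneg_left (hb P) (hE P)

/-- A bounded homomorphism killing principal divisors kills divisors of degree zero. -/
theorem eq_zero_of_bounded (hdeg : ∀ P : Place K F, P.deg = 1) (hRR : BoundedEffective K F)
    (δ : Divisor K F →+ ℤ) (hprin : ∀ D ∈ Divisor.principal (K := K) (F := F), δ D = 0)
    (M : ℤ) (hb : ∀ P, |δ (Finsupp.single P 1)| ≤ M)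
    {D : Divisor K F} (hD : D ∈ Divisor.degZero (K := K) (F := F)) : δ D = 0 := by
  obtain ⟨P₀, C, hC⟩ := hRR
  have hbound : ∀ n : ℕ, |(n : ℤ) * δ D| ≤ 2 * C * M := by
    intro n
    obtain ⟨E, hE, hdE, hp⟩ := hC ((n : ℤ) • D) (AddSubgroup.zsmul_mem _ hD _)
    have h := hprin _ hp
    rw [map_sub, map_sub, map_zsmul, map_zsmul, smul_eq_mul, smul_eq_mul, sub_eq_zero] at h
    rw [← h]
    refine (abs_sub _ _).trans ?_
    have h1 := abs_le_of_nonneg hdeg δ M hb hE
    rw [hdE] at h1
    have h2 : |(C : ℤ) * δ (Finsupp.single P₀ 1)| ≤ C * M := by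
      rw [abs_mul, Nat.abs_cast]
      exact mul_le_mul_of_nonneg_left (hb P₀) (Int.natCast_nonneg C)
    linarith
  by_contra hne
  have h := hbound ((2 * C * M).natAbs + 1)
  rw [abs_mul, Nat.abs_cast] at h
  have h1 : (1 : ℤ) ≤ |δ D| := Int.one_le_abs hne
  have h2 : 2 * (C : ℤ) * M ≤ ((2 * C * M).natAbs : ℤ) := Int.le_natAbs
  have h3 := mul_le_mul_of_nonneg_left h1 (Int.natCast_nonneg ((2 * (C : ℤ) * M).natAbs + 1))
  push_cast at h h3
  linarith [le_abs_self (2 * (C : ℤ) * M)]

end FLTAgent.CongruenceRel
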