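import Fermat.Agent.CongruenceRel.JLine

set_option autoImplicit false

/-!
# The norm-reduction hypotheses for the Hecke correspondence at `q`

The chart of `X₀(N)` is integrally closed (`chart_closed`) and both degeneracy maps to level `N q`
send it to integral elements. `normRedHyp` packages this as the input of `NormReduction`.
-/

noncomputable section

namespace FLTAgent.CongruenceRel

open ModularCurve AlgebraicCurve Polynomial FLTAgent.GoodReduction

local notation "Qbar" => AlgebraicClosure ℚ

section Chart

variable (A : ValuationSubring Qbar) (N : ℕ)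

local notation "FF" => modularFunctionFieldBar N
local notation "kA" => IsLocalRing.ResidueField A
local notation "FK" => modularFunctionFieldFullC (IsLocalRing.ResidueField A) N

variable {A N} (hGR : X0GoodReduction A (IsLocalRing.residue A) N)

theorem isIntegralElem_of_baseRing {B : Type*} [CommRing B]
    (h : LaurentSeries Qbar →+* LaurentSeries Qbar) (g : B →+* LaurentSeries Qbar)
    (hj : g.IsIntegralElem (h (jqModC Qbar)))
    (hc : ∀ a : A, g.IsIntegralElem (h (algebraMap Qbar (LaurentSeries Qbar) (a : Qbar))))
    {x : LaurentSeries Qbar} (hx : IsIntegral (baseRing A (jqModC Qbar)) x) :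
    g.IsIntegralElem (h x) := by
  refine isIntegralElem_of_forall (f := h.comp (baseRing A (jqModC Qbar)).subtype) (fun r => ?_)
    (isIntegralElem_map h hx)
  refine (Subring.closure_le (t := (intRing g).comap h)).mpr ?_ r.2
  rintro _ (rfl | ⟨a, rfl⟩)
  · exact hj
  · exact hc a

variable (A N) in
/-- The inclusion of the chart into Laurent series. -/
def chartIncl : chart A N →+* LaurentSeries Qbar :=
  (IntermediateField.val (FF)).toRingHom.comp (chart A N).subtype

theorem chartIncl_apply (b : chart A N) :
    chartIncl A N b = ((b : FF) : LaurentSeries Qbar) := rfl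

theorem chartIncl_chartC (a : A) :
    chartIncl A N (chartC A a) = algebraMap Qbar (LaurentSeries Qbar) (a : Qbar) := rfl

theorem evalJ_mem_range (hM : ModularEquations) (p : Polynomial ℤ) :
    ∃ b : chart A N, chartIncl A N b = evalJ Qbar p := by
  refine ⟨Polynomial.eval₂ (Int.castRingHom _) (jgen hM 1 (one_dvd N)) p, ?_⟩
  rw [Polynomial.hom_eval₂, RingHom.ext_int ((chartIncl A N).comp (Int.castRingHom _))
    (Int.castRingHom _), show chartIncl A N (jgen hM 1 (one_dvd N)) = jqModC Qbar from
      qExpand_one_apply _]
  rfl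

theorem chart_closed {x : FF} (hx : (chart A N).subtype.IsIntegralElem x) : x ∈ chart A N :=
  mem_chart.mpr (isIntegralElem_of_forall (f := chartIncl A N) (fun b => mem_chart.mp b.2)
    (isIntegralElem_map (IntermediateField.val (FF)).toRingHom hx))

variable (q : ℕ) [NeZero q]

theorem isIntegralElem_qExpand (hM : ModularEquations) (b : chart A N) :
    (chartIncl A N).IsIntegralElem (qExpand Qbar q (chartIncl A N b)) := by
  refine isIntegralElem_of_baseRing (A := A) (qExpand Qbar q) _ ?_ (fun a => ?_) (mem_chart.mp b.2)
  · refine isIntegralElem_of_forall (fun p => ?_) (hM.fwd' (L := Qbar) q)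
    obtain ⟨x, hx⟩ := evalJ_mem_range hM (A := A) (N := N) p
    exact hx ▸ RingHom.isIntegralElem_map _
  · rw [qExpand_algebraMap, ← chartIncl_chartC (N := N)]
    exact RingHom.isIntegralElem_map _

theorem isIntegralElem_qExpand' (hM : ModularEquations) (b : chart A N) :
    ((qExpand Qbar q).comp (chartIncl A N)).IsIntegralElem (chartIncl A N b) := by
  refine isIntegralElem_of_baseRing (A := A) (RingHom.id _) _ ?_ (fun a => ?_) (mem_chart.mp b.2)
  · refine isIntegralElem_of_forall (fun p => ?_) (hM.bwd' (L := Qbar) q)
    obtain ⟨x, hx⟩ := evalJ_mem_range hM (A := A) (N := N) p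
    rw [RingHom.comp_apply, ← hx]
    exact RingHom.isIntegralElem_map ((qExpand Qbar q).comp (chartIncl A N)) (x := x)
  · rw [RingHom.id_apply, ← qExpand_algebraMap q, ← chartIncl_chartC (N := N)]
    exact RingHom.isIntegralElem_map ((qExpand Qbar q).comp (chartIncl A N)) (x := chartC A a)

theorem isIntegralElem_of_val {L M : Type*} [Field L] [Field M] [Algebra L M]
    {E E' : IntermediateField L M} (u v : E →ₐ[L] E') (hu hv : M →+* M)
    (hu' : ∀ x : E, ((u x : E') : M) = hu (x : M)) (hv' : ∀ x : E, ((v x : E') : M) = hv (x : M))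
    (C : Subring E) {b : E}
    (h : (hu.comp ((IntermediateField.val E).toRingHom.comp C.subtype)).IsIntegralElem
      (hv (b : M))) :
    (u.toRingHom.comp C.subtype).IsIntegralElem (v b) := by
  refine (isIntegralElem_map_iff (IntermediateField.val E').toRingHom Subtype.val_injective).mp ?_
  have e : (IntermediateField.val E').toRingHom.comp (u.toRingHom.comp C.subtype)
      = hu.comp ((IntermediateField.val E).toRingHom.comp C.subtype) :=
    RingHom.ext fun c => hu' (c : E)
  rw [e, show (IntermediateField.val E').toRingHom (v b) = hv (b : M) from hv' b]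
  exact h

theorem beta_integral_chart [NeZero N] (hM : ModularEquations) (b : chart A N) :
    ((heckeAlphaBar Qbar N q).toRingHom.comp (chart A N).subtype).IsIntegralElem
      (heckeBetaBar Qbar N q (b : FF)) := by
  refine isIntegralElem_of_val (heckeAlphaBar Qbar N q) (heckeBetaBar Qbar N q) (RingHom.id _)
    (qExpand Qbar q) (coe_heckeAlphaBar N q) (coe_heckeBetaBar N q) (chart A N) ?_
  rw [RingHom.id_comp]
  exact isIntegralElem_qExpand q hM b

theorem alpha_integral_chart [NeZero N] (hM : ModularEquations) (b : chart A N) :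
    ((heckeBetaBar Qbar N q).toRingHom.comp (chart A N).subtype).IsIntegralElem
      (heckeAlphaBar Qbar N q (b : FF)) :=
  isIntegralElem_of_val (heckeBetaBar Qbar N q) (heckeAlphaBar Qbar N q) (qExpand Qbar q)
    (RingHom.id _) (coe_heckeBetaBar N q) (coe_heckeAlphaBar N q) (chart A N)
    (isIntegralElem_qExpand' q hM b)

theorem ker_le_chart [NeZero N] {ℓ : ℕ} (hℓ : ℓ.Prime) (hA : A.LiesOverPrime ℓ) (b : chart A N)
    (hb : chartRed hGR b = 0) :
    ∃ c b' : chart A N, heckeAlphaBar Qbar N q (c : FF) = heckeBetaBar Qbar N q (c : FF) ∧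
      chartRed hGR c = 0 ∧ b = c * b' := by
  obtain ⟨μ, b', hμ, h⟩ := ker_chartRed hGR hℓ hA b hb
  refine ⟨chartC A μ, b', ?_, ?_, h⟩
  · exact ((heckeAlphaBar Qbar N q).commutes _).trans ((heckeBetaBar Qbar N q).commutes _).symm
  · rw [chartRed_chartC, hμ, map_zero]

theorem normRedHyp [NeZero N] (hM : ModularEquations) {ℓ : ℕ} (hℓ : ℓ.Prime)
    (hA : A.LiesOverPrime ℓ) :
    NormRedHyp (heckeAlphaBar Qbar N q).toRingHom (heckeBetaBar Qbar N q).toRingHom
      (chart A N) (chartRed hGR) where
  closed _ hx := chart_closed hx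
  beta_integral b := beta_integral_chart q hM b
  alpha_integral b := alpha_integral_chart q hM b
  ker_le b hb := ker_le_chart hGR q hℓ hA b hb
  dim_one P hP hP0 := by
    obtain ⟨f, hf, -⟩ := exists_jline hGR hM
    exact jline_isMaximal f hf P hP hP0
  not_field h := by
    obtain ⟨f, hf, hinj⟩ := exists_jline hGR hM
    exact jline_not_field f hf hinj h
  frac := chartRed_frac hGR hM

end Chart

end FLTAgent.CongruenceRel
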