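import Fermat.Prelude.Def_AlgebraicCurve_Correspondence
import Fermat.Agent.CongruenceRel.BoundedHom

set_option autoImplicit false

/-!
# Divisor lemmas for correspondences

A correspondence sends the divisor of `f` to the divisor of a norm
(`correspondence_apply_eq_ord`) and preserves effectivity; its degree on a point is computed in
`degree_correspondence_single`. These feed the reduction of Hecke correspondences in `Hecke`.
-/

noncomputable section

namespace FLTAgent.CongruenceRel

open AlgebraicCurve

variable {K F F' : Type*} [Field K] [Field F] [Field F'] [Algebra K F] [Algebra K F']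
variable [HasPrincipalDivisors K F'] (φ ψ : F →ₐ[K] F') (hφ : φ.toRingHom.IsIntegral)
  (hψ : ψ.toRingHom.IsIntegral)

/-- A correspondence maps the divisor of `f` to the divisor of the norm of `φ f`. -/
theorem correspondence_apply_eq_ord (hfin : FiniteAlong K ψ) (hN : NormFormulaAlong K ψ hfin)
    {f : F} (hf : f ≠ 0) {D : Divisor K F} (hD : ∀ v, D v = v.ord f) (v : Place K F) :
    Divisor.correspondence φ ψ hφ hψ D v
      = v.ord (letI := ψ.toRingHom.toAlgebra; Algebra.norm F (φ f)) := by
  rw [Divisor.correspondence_apply]
  have hpb : ∀ w, Divisor.pullbackAlong φ hφ D w = w.ord (φ f) := fun w => by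
    rw [Divisor.pullbackAlong_apply, hD, Place.ord_restrictAlong φ hφ]
  exact hN (φ f) (by simpa using hf) _ hpb v

theorem correspondence_single_nonneg (P : Place K F) (v : Place K F) :
    0 ≤ Divisor.correspondence φ ψ hφ hψ (Finsupp.single P 1) v := by
  classical
  rw [Divisor.correspondence_apply, Divisor.pullbackAlong_single, map_sum, Finsupp.finsetSum_apply]
  refine Finset.sum_nonneg fun W _ => ?_
  rw [Divisor.pushforwardAlong_single, Finsupp.single_apply]
  split <;> positivity

theorem degree_correspondence_single (hFI : FundamentalIdentityAlong K φ hφ)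
    (P : Place K F) (hP : P.deg = 1) :
    Divisor.degree (Divisor.correspondence φ ψ hφ hψ (Finsupp.single P 1))
      = finrankAlong K φ := by
  rw [Divisor.degree_correspondence φ ψ hφ hψ hFI, Divisor.degree_single, hP]
  simp

theorem mapDomain_apply_nonneg {α β : Type*} (r : α → β) {D : α →₀ ℤ} (hD : ∀ a, 0 ≤ D a)
    (b : β) : 0 ≤ Finsupp.mapDomain r D b := by
  classical
  rw [Finsupp.mapDomain, Finsupp.sum_apply]
  refine Finset.sum_nonneg fun a _ => ?_
  show 0 ≤ Finsupp.single (r a) (D a) b
  rw [Finsupp.single_apply]
  split
  · exact hD a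
  · exact le_rfl

/-- An entry of an effective divisor is at most its degree when all places have degree one. -/
theorem apply_le_degree {K' G : Type*} [Field K'] [Field G] [Algebra K' G]
    (hdeg : ∀ P : Place K' G, P.deg = 1) {D : Divisor K' G} (hD : ∀ P, 0 ≤ D P) (v : Place K' G) :
    D v ≤ Divisor.degree D := by
  classical
  have hdE : Divisor.degree D = ∑ P ∈ D.support, D P := by
    conv_lhs => rw [← Finsupp.sum_single D, Finsupp.sum, map_sum]
    refine Finset.sum_congr rfl fun P _ => ?_
    rw [Divisor.degree_single, hdeg, Nat.cast_one, mul_one]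
  rw [hdE]
  by_cases hv : v ∈ D.support
  · exact Finset.single_le_sum (fun P _ => hD P) hv
  · rw [Finsupp.notMem_support_iff.mp hv]
    exact Finset.sum_nonneg fun P _ => hD P

end FLTAgent.CongruenceRel
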