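import Fermat.Agent.CongruenceRel.NormReduction
import Mathlib.Algebra.CharP.Lemmas
import Mathlib.FieldTheory.Perfect

set_option autoImplicit false

/-!
# The conjugate embeddings of a correspondence satisfying Kronecker's congruence

If all generators `cᵢ` of `K` satisfy `(φ cᵢ - (ι cᵢ)^ℓ) ((φ cᵢ)^ℓ - ι cᵢ) = 0`, exactly one
embedding is `x ↦ (ι (σ⁻¹ x))^ℓ` and the others satisfy `(φ x)^ℓ = ι (σ x)`.
See `exists_special` and `prod_eq`, used in `EllCase`.
-/

noncomputable section

namespace FLTAgent.CongruenceRel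

open Polynomial

/-- Data for the congruence of level `ℓ`. -/
structure EllHyp {F F' K : Type} [Field F] [Field F'] [Field K]
    (α β : F →+* F') (B : Subring F) (red : B →+* K)
    (ℓ : ℕ) (D : Type) (g : D → B) (one : D) (σ : K ≃+* K) (G : Set K) : Prop where
  prime : ℓ.Prime
  char : CharP K ℓ
  rel : ∀ i, ∃ P : Polynomial B, P.eval₂ (α.comp B.subtype) (β (g i)) = 0 ∧
    P.map red = (X - C (red (g i) ^ ℓ)) * (X ^ ℓ - C (red (g i)))
  pow_inj : ∀ i, Function.Injective fun n : ℕ => red (g i) ^ n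
  fwd : ∀ i, (Polynomial.eval₂RingHom (Int.castRingHom K) (red (g one))).IsIntegralElem (red (g i))
  bwd : ∀ i, (Polynomial.eval₂RingHom (Int.castRingHom K) (red (g i))).IsIntegralElem (red (g one))
  not_pow : ∀ T : K, T ^ ℓ ≠ red (g one)
  σ_gen : ∀ i, σ (red (g i)) = red (g i)
  σ_const : ∀ a ∈ G, σ a = a ^ ℓ
  const : ∀ a ∈ G, ∃ c : B, α c = β c ∧ red c = a
  genK : Subfield.closure (G ∪ Set.range fun i => red (g i)) = ⊤
  genF : Subfield.closure
    ((Set.range fun b : B => α b) ∪ Set.range fun i => β (g i)) = ⊤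

variable {F F' K : Type} [Field F] [Field F'] [Field K]
variable {α β : F →+* F'} {B : Subring F} {red : B →+* K} {H : NormRedHyp α β B red}
variable {ℓ : ℕ} {D : Type} {g : D → B} {one : D} {σ : K ≃+* K} {G : Set K}

/-- An embedding of `F'` is the same as any other on `α`-images. -/
theorem NormRedData.emb_alpha (d : NormRedData α β B red H) (s s' : d.S) (b : B) :
    d.emb s (α b) = d.emb s' (α b) := by
  refine d.eq_of_simple_root s s' (alphaInt b) (X - C b) ?_ ((d.ψ_alpha s b).trans
    (d.ψ_alpha s' b).symm) ?_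
  · simp
  · simp

theorem NormRedData.eval_phi_eq_zero (d : NormRedData α β B red H) (s : d.S) (b : B)
    {P : Polynomial B} (hP : P.eval₂ (α.comp B.subtype) (β b) = 0) :
    (P.map red).eval₂ d.ι (d.φ s (red b)) = 0 := by
  let αI : B →+* normRing α B :=
    (α.comp B.subtype).codRestrict (normRing α B) (apply_mem_intRing _)
  have h : P.eval₂ αI (betaInt H b) = 0 :=
    Subtype.ext ((Polynomial.hom_eval₂ P αI (normRing α B).subtype (betaInt H b)).trans hP)
  have h' := congrArg (d.ψ s) h
  rw [Polynomial.hom_eval₂, map_zero, d.ψ_beta,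
    show (d.ψ s).comp αI = d.ι.comp red from RingHom.ext fun c => d.ψ_alpha s c] at h'
  rwa [Polynomial.eval₂_map]

namespace EllHyp

variable (h : EllHyp α β B red ℓ D g one σ G) (d : NormRedData α β B red H)
include h

theorem charE : CharP d.E ℓ := by
  have := h.char
  exact charP_of_injective_ringHom d.ι.injective ℓ

theorem alternative (s : d.S) (i : D) :
    d.φ s (red (g i)) = d.ι (red (g i)) ^ ℓ ∨ d.φ s (red (g i)) ^ ℓ = d.ι (red (g i)) := by
  obtain ⟨P, hP, hPr⟩ := h.rel i
  have h0 := d.eval_phi_eq_zero s (g i) hP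
  rw [hPr] at h0
  simpa [sub_eq_zero, Polynomial.eval₂_pow] using h0

omit h in
theorem no_mixing {E : Type} [Field E] (χ ι : K →+* E) (gp : Polynomial ℤ →+* K) (a : K) {m : ℕ}
    (hm : 1 < m) (hg : χ.comp gp = ι.comp gp) (hint : gp.IsIntegralElem a)
    (ha : χ a = ι a ^ m) (hinj : Function.Injective fun n : ℕ => a ^ n) : False := by
  obtain ⟨P, hP, hPa⟩ := hint
  have hroot : ∀ i : ℕ, (P.map gp).eval (a ^ m ^ i) = 0 := by
    intro i
    induction i with
    | zero => simpa [Polynomial.eval_map] using hPa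
    | succ i ih =>
      apply ι.injective
      have h1 := congrArg χ ih
      rw [Polynomial.eval_map, Polynomial.hom_eval₂, map_zero, hg, map_pow, ha, ← pow_mul,
        ← pow_succ', ← map_pow] at h1
      rw [Polynomial.eval_map, Polynomial.hom_eval₂, map_zero, h1]
  have hinf : Set.Infinite {x : K | (P.map gp).IsRoot x} := by
    refine Set.Infinite.mono (s := Set.range fun i : ℕ => a ^ m ^ i) ?_
      (Set.infinite_range_of_injective fun i j hij => Nat.pow_right_injective hm (hinj hij))
    rintro _ ⟨i, rfl⟩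
    exact hroot i
  exact hinf (Polynomial.finite_setOfPred_isRoot ((hP.map gp).ne_zero))

theorem consistent (s : d.S) :
    (∀ i, d.φ s (red (g i)) = d.ι (red (g i)) ^ ℓ) ∨
      ((∀ i, d.φ s (red (g i)) ^ ℓ = d.ι (red (g i))) ∧
        d.φ s (red (g one)) ≠ d.ι (red (g one)) ^ ℓ) := by
  have := h.charE d
  have : ExpChar d.E ℓ := ExpChar.prime h.prime
  have hm : 1 < ℓ * ℓ := by nlinarith [h.prime.two_le]
  let χ : K →+* d.E := (frobenius d.E ℓ).comp (d.φ s)
  have hχ : ∀ x, χ x = d.φ s x ^ ℓ := fun x => rfl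
  have hcomp : ∀ i, d.φ s (red (g i)) ^ ℓ = d.ι (red (g i)) →
      χ.comp (Polynomial.eval₂RingHom (Int.castRingHom K) (red (g i))) =
        d.ι.comp (Polynomial.eval₂RingHom (Int.castRingHom K) (red (g i))) := fun i hi =>
    Polynomial.ringHom_ext' (RingHom.ext_int _ _) (by simpa [hχ] using hi)
  have hsq : ∀ i, d.φ s (red (g i)) = d.ι (red (g i)) ^ ℓ →
      χ (red (g i)) = d.ι (red (g i)) ^ (ℓ * ℓ) := fun i hi => by rw [hχ, hi, ← pow_mul]
  by_cases h1 : d.φ s (red (g one)) = d.ι (red (g one)) ^ ℓ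
  · refine Or.inl fun i => ?_
    rcases h.alternative d s i with hi | hi
    · exact hi
    · exact (no_mixing χ d.ι _ _ hm (hcomp i hi) (h.bwd i) (hsq one h1) (h.pow_inj one)).elim
  · have h1' := (h.alternative d s one).resolve_left h1
    refine Or.inr ⟨fun i => ?_, h1⟩
    rcases h.alternative d s i with hi | hi
    · exact (no_mixing χ d.ι _ _ hm (hcomp one h1') (h.fwd i) (hsq i hi) (h.pow_inj i)).elim
    · exact hi

theorem unique (s s' : d.S) (hs : d.φ s (red (g one)) = d.ι (red (g one)) ^ ℓ)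
    (hs' : d.φ s' (red (g one)) = d.ι (red (g one)) ^ ℓ) : s = s' := by
  have := h.charE d
  have := h.char
  have hall : ∀ t : d.S, d.φ t (red (g one)) = d.ι (red (g one)) ^ ℓ →
      ∀ i, d.φ t (red (g i)) = d.ι (red (g i)) ^ ℓ := fun t ht =>
    (h.consistent d t).resolve_right fun h' => h'.2 ht
  refine d.eq_of_closure h.genF fun x hx => ?_
  rcases hx with ⟨b, rfl⟩ | ⟨i, rfl⟩
  · exact d.emb_alpha s s' b
  obtain ⟨P, hP, hPr⟩ := h.rel i
  refine d.eq_of_simple_root s s' (betaInt H (g i)) P hP ?_ ?_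
  · rw [d.ψ_beta, d.ψ_beta, hall s hs i, hall s' hs' i]
  · rw [d.ψ_beta, hall s hs i, ← Polynomial.eval₂_map, ← Polynomial.derivative_map, hPr]
    simp only [Polynomial.derivative_mul, Polynomial.derivative_sub, Polynomial.derivative_X,
      Polynomial.derivative_C, Polynomial.derivative_X_pow, CharP.cast_eq_zero, sub_zero, map_zero,
      zero_mul, mul_zero, add_zero, one_mul, Polynomial.eval₂_sub, Polynomial.eval₂_X_pow,
      Polynomial.eval₂_C]
    rw [← pow_mul, sub_ne_zero, ← map_pow, d.ι.injective.ne_iff]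
    intro he
    have := h.pow_inj i (he.trans (pow_one _).symm : red (g i) ^ (ℓ * ℓ) = red (g i) ^ 1)
    nlinarith [h.prime.two_le]

theorem exists_special (hcard : Fintype.card d.S = ℓ + 1) :
    ∃ s, d.φ s (red (g one)) = d.ι (red (g one)) ^ ℓ := by
  have := h.charE d
  have : ExpChar d.E ℓ := ExpChar.prime h.prime
  by_contra! hno
  refine h.not_pow (red ⟨_, d.trace_mem (betaInt H (g one))⟩) (d.ι.injective ?_)
  rw [map_pow, d.trace_red, sum_pow_char]
  rw [Finset.sum_congr rfl (g := fun _ => d.ι (red (g one))) fun s _ => by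
    rw [d.ψ_beta]; exact (h.alternative d s one).resolve_left (hno s)]
  simp [hcard]

/-- The product of the conjugates. -/
theorem prod_eq (hcard : Fintype.card d.S = ℓ + 1) (f : K) :
    ∏ s, d.φ s f = d.ι (σ f * σ.symm f ^ ℓ) := by
  classical
  have := h.charE d
  have := h.char
  have : ExpChar d.E ℓ := ExpChar.prime h.prime
  obtain ⟨s0, hs0⟩ := h.exists_special d hcard
  have hU : ∀ x, d.φ s0 x = d.ι (σ.symm x) ^ ℓ := by
    have hall := (h.consistent d s0).resolve_right fun h' => h'.2 hs0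
    have e : d.φ s0 = ((frobenius d.E ℓ).comp d.ι).comp σ.symm.toRingHom := by
      refine RingHom.ext fun x => RingHom.eqOn_field_closure ?_ (h.genK ▸ Subfield.mem_top x)
      rintro _ (ha | ⟨i, rfl⟩)
      · rename_i a
        obtain ⟨c, hc, rfl⟩ := h.const a ha
        show d.φ s0 (red c) = d.ι (σ.symm (red c)) ^ ℓ
        have hpow : σ.symm (red c) ^ ℓ = red c := by
          rw [← map_pow, RingEquiv.symm_apply_eq, h.σ_const _ ha]
        rw [← map_pow, hpow, d.φ_const s0 c hc]
      · show d.φ s0 (red (g i)) = d.ι (σ.symm (red (g i))) ^ ℓ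
        rw [show σ.symm (red (g i)) = red (g i) from σ.symm_apply_eq.mpr (h.σ_gen i).symm, hall i]
    exact fun x => RingHom.congr_fun e x
  have hV : ∀ s, s ≠ s0 → ∀ x, d.φ s x ^ ℓ = d.ι (σ x) := by
    intro s hs
    have hall := ((h.consistent d s).resolve_left fun h' =>
      hs (h.unique d s s0 (h' one) hs0)).1
    have e : (frobenius d.E ℓ).comp (d.φ s) = d.ι.comp σ.toRingHom := by
      refine RingHom.ext fun x => RingHom.eqOn_field_closure ?_ (h.genK ▸ Subfield.mem_top x)
      rintro _ (ha | ⟨i, rfl⟩)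
      · rename_i a
        obtain ⟨c, hc, rfl⟩ := h.const a ha
        show d.φ s (red c) ^ ℓ = d.ι (σ (red c))
        rw [h.σ_const _ ha, d.φ_const s c hc, map_pow]
      · show d.φ s (red (g i)) ^ ℓ = d.ι (σ (red (g i)))
        rw [h.σ_gen, hall i]
    exact fun x => RingHom.congr_fun e x
  have hcard' : (Finset.univ.erase s0).card = ℓ := by
    rw [Finset.card_erase_of_mem (Finset.mem_univ _), Finset.card_univ, hcard, Nat.add_sub_cancel]
  obtain ⟨s1, hs1⟩ : (Finset.univ.erase s0).Nonempty :=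
    Finset.card_pos.mp (hcard' ▸ h.prime.pos)
  have hs1' := Finset.ne_of_mem_erase hs1
  have hsame : ∀ s ∈ Finset.univ.erase s0, d.φ s f = d.φ s1 f := fun s hs =>
    frobenius_inj d.E ℓ ((hV s (Finset.ne_of_mem_erase hs) f).trans (hV s1 hs1' f).symm)
  rw [← Finset.mul_prod_erase Finset.univ _ (Finset.mem_univ s0), Finset.prod_congr rfl hsame,
    Finset.prod_const, hcard', hV s1 hs1' f, hU, map_mul, map_pow, mul_comm]

end EllHyp

end FLTAgent.CongruenceRel
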