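import Mathlib.RingTheory.PowerSeries.Expand
import Mathlib.FieldTheory.Finite.Basic
import Fermat.Agent.Igusa.ModularPolynomial
import Fermat.Agent.CongruenceRel.Setup

set_option autoImplicit false

/-!
# The modular equations and Kronecker's congruence

The modular polynomial of prime level reduces to Kronecker's congruence (`modPolyMap_char`) and has
`j(q^ℓ)` as a root (`eval_modPolyMap`). Hence `j` and every `j(q^d)` are integral over each other
(`modularEquations`).
-/

noncomputable section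

namespace FLTAgent.CongruenceRel

open ModularCurve AlgebraicCurve Polynomial FLTAgent.Igusa

section Frob

variable {R : Type*} [CommRing R]

theorem qExpand_ofPowerSeries (n : ℕ) [NeZero n] (f : PowerSeries R) :
    qExpand R n (HahnSeries.ofPowerSeries ℤ R f) =
      HahnSeries.ofPowerSeries ℤ R (PowerSeries.expand n (NeZero.ne n) f) := by
  have hn : (0 : ℤ) < n := by exact_mod_cast Nat.pos_of_ne_zero (NeZero.ne n)
  ext k
  by_cases hk : (n : ℤ) ∣ k
  · obtain ⟨m, rfl⟩ := hk
    rw [qExpand_coeff_mul]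
    rcases lt_or_ge m 0 with hm | hm
    · rw [ofPowerSeries_coeff_of_neg f hm, ofPowerSeries_coeff_of_neg _ (by nlinarith)]
    · obtain ⟨i, rfl⟩ := Int.eq_ofNat_of_zero_le hm
      rw [← Nat.cast_mul, LaurentSeries.coeff_coe_powerSeries,
        LaurentSeries.coeff_coe_powerSeries, PowerSeries.coeff_expand_mul]
  · rw [qExpand_coeff_of_not_dvd n _ hk]
    rcases lt_or_ge k 0 with hk0 | hk0
    · rw [ofPowerSeries_coeff_of_neg _ hk0]
    · obtain ⟨i, rfl⟩ := Int.eq_ofNat_of_zero_le hk0
      rw [LaurentSeries.coeff_coe_powerSeries,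
        PowerSeries.coeff_expand_of_not_dvd n _ _ fun h => hk (by exact_mod_cast h)]

variable (ℓ : ℕ) [Fact ℓ.Prime]

theorem expand_eq_pow_zmod (f : PowerSeries (ZMod ℓ)) :
    PowerSeries.expand ℓ (NeZero.ne ℓ) f = f ^ ℓ := by
  have h := MvPowerSeries.map_frobenius_expand (p := ℓ) (hp := NeZero.ne ℓ) (f := f)
  rw [ZMod.frobenius_zmod, MvPowerSeries.map_id, RingHom.id_apply] at h
  exact h

theorem qExpand_jqModC_zmod :
    qExpand (ZMod ℓ) ℓ (jqModC (ZMod ℓ)) = jqModC (ZMod ℓ) ^ ℓ := by
  rw [jqModC, map_mul, qExpand_single, qExpand_ofPowerSeries, expand_eq_pow_zmod, mul_pow,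
    HahnSeries.single_pow, one_pow, map_pow, nsmul_eq_mul]

variable (k : Type*) [CommRing k] [CharP k ℓ]

/-- In characteristic `ℓ`, `j(q^(d ℓ)) = j(q^d)^ℓ`. -/
theorem qExpand_jqModC_char (d : ℕ) [NeZero d] :
    qExpand k (d * ℓ) (jqModC k) = qExpand k d (jqModC k) ^ ℓ := by
  have h := congrArg (coeffMap (ZMod.castHom dvd_rfl k : ZMod ℓ →+* k)) (qExpand_jqModC_zmod ℓ)
  rw [coeffMap_qExpand, map_pow, coeffMap_jqModC] at h
  rw [← qExpand_qExpand, h, map_pow]

end Frob

section Kronecker

variable (ℓ : ℕ) [Fact ℓ.Prime]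

/-- The modular polynomial of prime level, coefficients in `ℤ[ζ_ℓ]`. -/
def modPoly : Polynomial (Polynomial (ZetaRing ℓ)) := (allData ℓ (Fact.out)).Φ

theorem modPoly_monic : (modPoly ℓ).Monic := (allData ℓ (Fact.out)).Φ_monic

/-- The modular polynomial pushed along `f`. -/
def modPolyMap {R : Type*} [CommRing R] (f : ZetaRing ℓ →+* R) : Polynomial (Polynomial R) :=
  (modPoly ℓ).map (Polynomial.mapRingHom f)

theorem modPolyMap_monic {R : Type*} [CommRing R] (f : ZetaRing ℓ →+* R) :
    (modPolyMap ℓ f).Monic := (modPoly_monic ℓ).map _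

theorem modPolyMap_comp {R S : Type*} [CommRing R] [CommRing S] (f : ZetaRing ℓ →+* R)
    (g : R →+* S) :
    (modPolyMap ℓ f).map (Polynomial.mapRingHom g) = modPolyMap ℓ (g.comp f) := by
  rw [modPolyMap, modPolyMap, Polynomial.map_map, Polynomial.mapRingHom_comp]

variable {k : Type} [Field k]

/-- Kronecker's congruence. -/
theorem modPolyMap_char [CharP k ℓ] (f : ZetaRing ℓ →+* k) :
    modPolyMap ℓ f = (X - C (X ^ ℓ)) * (X ^ ℓ - C X) := by
  have : ExpChar k ℓ := ExpChar.prime Fact.out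
  have hone : ∀ a : ℕ, Units.map (f : ZetaRing ℓ →* k) (zetaU ℓ ^ a) = 1 := fun a => by
    refine Units.ext ?_
    have h : f ((zetaU ℓ : ZetaRing ℓ)) = 1 := by
      refine frobenius_inj k ℓ ?_
      rw [map_one, frobenius_def, ← map_pow]
      exact (congrArg f (root_pow_eq_one ℓ)).trans (map_one f)
    simp [h]
  have hp : ℓ ≠ 0 := NeZero.ne ℓ
  have h := congrArg (Polynomial.map (coeffMap f)) (allData ℓ Fact.out).Φ_eq
  rw [map_ev_jv] at h
  simp only [Polynomial.map_mul, Polynomial.map_prod, Polynomial.map_sub, Polynomial.map_X,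
    Polynomial.map_C, coeffMap_jv _ _ (mul_ne_zero hp hp), coeffMap_jv _ _ one_ne_zero, map_one,
    hone, Finset.prod_const, Finset.card_range] at h
  refine Polynomial.map_injective (Polynomial.aeval (R := k) (jv (1 : kˣ) ℓ)).toRingHom
    (transcendental_iff_injective.mp (transcendental_jv 1 hp)) (h.trans ?_)
  have e1 : jv (1 : kˣ) ℓ = jv (1 : kˣ) 1 ^ ℓ := by
    have h1 := qExpand_jqModC_char ℓ k 1
    rw [qExpand_one_apply, qExpand_congr (one_mul ℓ)] at h1
    rw [jv_one_one, jv_one_eq]
    exact h1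
  have e2 : jv (1 : kˣ) (ℓ * ℓ) = jv (1 : kˣ) ℓ ^ ℓ := by
    rw [jv_one_eq, jv_one_eq]
    exact qExpand_jqModC_char ℓ k ℓ
  have : CharP (Polynomial (LaurentSeries k)) ℓ :=
    charP_of_injective_ringHom (Polynomial.C.comp HahnSeries.C : k →+* _).injective ℓ
  have : ExpChar (Polynomial (LaurentSeries k)) ℓ := ExpChar.prime Fact.out
  rw [sub_pow_expChar, ← Polynomial.C_pow, e2, ← e1]
  simp [Polynomial.map_mul, Polynomial.map_sub, Polynomial.map_pow]

variable {ζ : kˣ}

/-- `j(q^ℓ)` is a root of the modular polynomial at `j`. -/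
theorem eval_modPolyMap (hζ : IsPrimitiveRoot (ζ : k) ℓ) :
    ((modPolyMap ℓ (zetaHom (ζ : k) hζ)).map (Polynomial.aeval (jqModC k)).toRingHom).eval
      (qExpand k ℓ (jqModC k)) = 0 := by
  apply qExpand_injective (R := k) ℓ
  rw [map_zero, ← Polynomial.eval_map_apply, Polynomial.map_map]
  have hcomp : (qExpand k ℓ).comp (Polynomial.aeval (R := k) (jqModC k)).toRingHom =
      (Polynomial.aeval (R := k) (jv (1 : kˣ) ℓ)).toRingHom := by
    rw [jv_one_eq]
    exact Polynomial.ringHom_ext (fun a => by simp [qExpand_algebraMap]) (by simp)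
  have h := (allData ℓ Fact.out).phiK_eq hζ (1 : kˣ) one_ne_zero
  simp only [one_pow, one_mul] at h
  rw [hcomp, modPolyMap, show (modPoly ℓ).map (Polynomial.mapRingHom (zetaHom (ζ : k) hζ)) =
    (allData ℓ Fact.out).phiK hζ from rfl, h, qExpand_qExpand, ← jv_one_eq]
  simp

/-- `j` is a root of the modular polynomial at `j(q^ℓ)`. -/
theorem eval_modPolyMap' (hζ : IsPrimitiveRoot (ζ : k) ℓ) :
    ((modPolyMap ℓ (zetaHom (ζ : k) hζ)).map
      (Polynomial.aeval (qExpand k ℓ (jqModC k))).toRingHom).eval (jqModC k) = 0 := by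
  have h := (allData ℓ Fact.out).phiK_eq hζ (1 : kˣ) one_ne_zero
  simp only [one_pow, one_mul] at h
  rw [← jv_one_eq, modPolyMap,
    show (modPoly ℓ).map (Polynomial.mapRingHom (zetaHom (ζ : k) hζ)) =
    (allData ℓ Fact.out).phiK hζ from rfl, h, Polynomial.eval_mul, Polynomial.eval_prod,
    Finset.prod_eq_zero (Finset.mem_range.mpr (Nat.pos_of_ne_zero (NeZero.ne ℓ))) ?_, mul_zero]
  simp [jv_one_one]

omit [Fact (Nat.Prime ℓ)] in
theorem isIntegralElem_zetaRing (x : ZetaRing ℓ) :
    (Int.castRingHom (ZetaRing ℓ)).IsIntegralElem x := by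
  have : Module.Finite ℤ (ZetaRing ℓ) :=
    (Polynomial.cyclotomic.monic ℓ ℤ).finite_adjoinRoot
  have h := Algebra.IsIntegral.isIntegral (R := ℤ) x
  rwa [IsIntegral, show algebraMap ℤ (ZetaRing ℓ) = Int.castRingHom _ from RingHom.ext_int _ _] at h

theorem isIntegralElem_of_root (hζ : IsPrimitiveRoot (ζ : k) ℓ)
    (g : Polynomial ℤ →+* LaurentSeries k)
    (x y : LaurentSeries k) (hg : g X = x)
    (h : ((modPolyMap ℓ (zetaHom (ζ : k) hζ)).map (Polynomial.aeval x).toRingHom).eval y = 0) :
    g.IsIntegralElem y := by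
  set f := zetaHom (ζ : k) hζ
  refine isIntegralElem_of_forall
    (f := ((Polynomial.aeval x).toRingHom.comp (Polynomial.mapRingHom f))) (fun r => ?_) ?_
  · induction r using Polynomial.induction_on' with
    | add p q hp hq => rw [map_add]; exact (intRing g).add_mem hp hq
    | monomial n a =>
      rw [← Polynomial.C_mul_X_pow_eq_monomial, map_mul, map_pow]
      refine (intRing g).mul_mem ?_ ((intRing g).pow_mem ?_ n)
      · rw [RingHom.comp_apply, Polynomial.coe_mapRingHom, Polynomial.map_C]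
        have h2 := isIntegralElem_map ((algebraMap k (LaurentSeries k)).comp f)
          (isIntegralElem_zetaRing ℓ a)
        rw [RingHom.ext_int ((((algebraMap k (LaurentSeries k)).comp f).comp
          (Int.castRingHom (ZetaRing ℓ)))) (g.comp Polynomial.C)] at h2
        simpa [mem_intRing] using isIntegralElem_of_comp h2
      · have := apply_mem_intRing g X
        rw [hg] at this
        simpa using this
  · refine ⟨modPoly ℓ, modPoly_monic ℓ, ?_⟩
    rw [modPolyMap, Polynomial.map_map, Polynomial.eval_map] at h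
    exact h

end Kronecker

section Equations

local notation "Qbar" => AlgebraicClosure ℚ

theorem qExpand_comp_evalJ_X (a : ℕ) [NeZero a] :
    ((qExpand ℚ a).comp (evalJ ℚ)) X = qExpand ℚ a jq := by
  simp [jqModC_rat]

theorem exists_root_unity (ℓ : ℕ) [Fact ℓ.Prime] :
    ∃ ζ : Qbarˣ, IsPrimitiveRoot (ζ : Qbar) ℓ := by
  have : NeZero (ℓ : Qbar) := ⟨Nat.cast_ne_zero.mpr (NeZero.ne ℓ)⟩
  obtain ⟨z, hz⟩ := HasEnoughRootsOfUnity.exists_primitiveRoot Qbar ℓ
  exact ⟨(hz.isUnit (NeZero.ne ℓ)).unit, hz⟩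

theorem fwd_prime (ℓ : ℕ) [Fact ℓ.Prime] :
    (evalJ ℚ).IsIntegralElem (qExpand ℚ ℓ jq) := by
  obtain ⟨ζ, hζ⟩ := exists_root_unity ℓ
  refine (isIntegralElem_map_iff (coeffEmb Qbar) (coeffMap_injective (RingHom.injective _))).mp ?_
  rw [coeffEmb_comp_evalJ, coeffEmb_qExpand_jq]
  exact isIntegralElem_of_root ℓ hζ _ _ _ (evalJ_X _) (eval_modPolyMap ℓ hζ)

theorem bwd_prime (ℓ : ℕ) [Fact ℓ.Prime] :
    ((qExpand ℚ ℓ).comp (evalJ ℚ)).IsIntegralElem jq := by
  obtain ⟨ζ, hζ⟩ := exists_root_unity ℓ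
  refine (isIntegralElem_map_iff (coeffEmb Qbar) (coeffMap_injective (RingHom.injective _))).mp ?_
  rw [ModularFF.coeffEmb_jq]
  refine isIntegralElem_of_root ℓ hζ _ _ _ ?_ (eval_modPolyMap' ℓ hζ)
  rw [RingHom.comp_apply, qExpand_comp_evalJ_X, coeffEmb_qExpand_jq]

/-- If every prime case holds then `g` transports integrality. -/
theorem integral_trans {g : Polynomial ℤ →+* LaurentSeries ℚ}
    {h : Polynomial ℤ →+* LaurentSeries ℚ} (hX : g.IsIntegralElem (h X)) {x : LaurentSeries ℚ}
    (hx : h.IsIntegralElem x) : g.IsIntegralElem x := by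
  refine isIntegralElem_of_forall (fun p => ?_) hx
  induction p using Polynomial.induction_on' with
  | add p q hp hq => rw [map_add]; exact (intRing g).add_mem hp hq
  | monomial n a =>
    rw [← Polynomial.C_mul_X_pow_eq_monomial, map_mul, map_pow, eq_intCast, map_intCast]
    exact (intRing g).mul_mem (intCast_mem _ a) ((intRing g).pow_mem hX n)

theorem modularEquations : ModularEquations := by
  have key : ∀ d : ℕ, ∀ _ : NeZero d, (evalJ ℚ).IsIntegralElem (qExpand ℚ d jq) ∧
      ((qExpand ℚ d).comp (evalJ ℚ)).IsIntegralElem jq := by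
    intro d
    induction d using induction_on_primes with
    | zero => exact fun h => absurd rfl h.out
    | one =>
      intro h
      have e : ∀ x : LaurentSeries ℚ, qExpand ℚ 1 x = x := qExpand_one_apply
      rw [e]
      refine ⟨?_, ?_⟩
      · have := RingHom.isIntegralElem_map (evalJ ℚ) (x := (X : Polynomial ℤ))
        rwa [evalJ_X, jqModC_rat] at this
      · have := RingHom.isIntegralElem_map ((qExpand ℚ 1).comp (evalJ ℚ)) (x := (X : Polynomial ℤ))
        rwa [qExpand_comp_evalJ_X, e] at this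
    | prime_mul p a hp ih =>
      intro h
      have : Fact p.Prime := ⟨hp⟩
      have : NeZero a := ⟨fun ha => h.out (by simp [ha])⟩
      obtain ⟨ih1, ih2⟩ := ih inferInstance
      rw [qExpand_congr (Nat.mul_comm p a), show (qExpand ℚ (p * a)).comp (evalJ ℚ) =
        (qExpand ℚ (a * p)).comp (evalJ ℚ) from
          RingHom.ext fun x => qExpand_congr (Nat.mul_comm p a) _]
      constructor
      · refine integral_trans (h := (qExpand ℚ a).comp (evalJ ℚ)) ?_ ?_
        · rw [qExpand_comp_evalJ_X]; exact ih1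
        · rw [← qExpand_qExpand]
          exact isIntegralElem_map (qExpand ℚ a) (fwd_prime p)
      · refine integral_trans (h := (qExpand ℚ a).comp (evalJ ℚ)) ?_ ih2
        rw [qExpand_comp_evalJ_X]
        have := isIntegralElem_map (qExpand ℚ a) (bwd_prime p)
        rwa [← RingHom.comp_assoc, show (qExpand ℚ a).comp (qExpand ℚ p) = qExpand ℚ (a * p) from
          RingHom.ext fun x => qExpand_qExpand p a x] at this
  exact ⟨fun d _ => (key d inferInstance).1, fun d _ => (key d inferInstance).2⟩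

end Equations

end FLTAgent.CongruenceRel
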