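import Fermat.Agent.CongruenceRel.Galois
import Fermat.Agent.CongruenceRel.Kronecker
import Fermat.Agent.CongruenceRel.EllEmbeddings

set_option autoImplicit false

/-!
# Reduction of the Hecke correspondence at the residual characteristic

At `q = ℓ` the correspondence satisfies Kronecker's congruence (`ellHyp`), so on divisors of
degree zero `T_ℓ` reduces to `Fr + ℓ Fr⁻¹` (`FibreInputs.mapDomain_hecke_ell`).
-/

noncomputable section

namespace FLTAgent.CongruenceRel

open ModularCurve AlgebraicCurve Polynomial FLTAgent.GoodReduction FLTAgent.Igusa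

local notation "Qbar" => AlgebraicClosure ℚ

section Series

variable (k : Type) [Field k]

theorem modularEquations_fwd_char (d : ℕ) [NeZero d] :
    (evalJ k).IsIntegralElem (qExpand k d (jqModC k)) := by
  have hQ := modularEquations.fwd d
  have hZ : (evalJ ℤ).IsIntegralElem (qExpand ℤ d (jqModC ℤ)) := by
    refine (isIntegralElem_map_iff (coeffMap (Int.castRingHom ℚ))
      (coeffMap_injective Int.cast_injective)).mp ?_
    rwa [coeffMap_comp_evalJ, coeffMap_qExpand, coeffMap_jqModC, jqModC_rat]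
  have h := isIntegralElem_map (coeffMap (Int.castRingHom k)) hZ
  rwa [coeffMap_comp_evalJ, coeffMap_qExpand, coeffMap_jqModC] at h

theorem coeffMap_comp_qExpand_evalJ {R S : Type*} [CommRing R] [CommRing S] (f : R →+* S)
    (d : ℕ) [NeZero d] :
    (coeffMap f).comp ((qExpand R d).comp (evalJ R)) = (qExpand S d).comp (evalJ S) :=
  Polynomial.ringHom_ext' (RingHom.ext_int _ _) (by simp [coeffMap_qExpand, coeffMap_jqModC])

theorem modularEquations_bwd_char (d : ℕ) [NeZero d] :
    ((qExpand k d).comp (evalJ k)).IsIntegralElem (jqModC k) := by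
  have hQ := modularEquations.bwd d
  have hZ : ((qExpand ℤ d).comp (evalJ ℤ)).IsIntegralElem (jqModC ℤ) := by
    refine (isIntegralElem_map_iff (coeffMap (Int.castRingHom ℚ))
      (coeffMap_injective Int.cast_injective)).mp ?_
    rwa [coeffMap_comp_qExpand_evalJ, coeffMap_jqModC, jqModC_rat]
  have h := isIntegralElem_map (coeffMap (Int.castRingHom k)) hZ
  rwa [coeffMap_comp_qExpand_evalJ, coeffMap_jqModC] at h

theorem order_jqModC' : (jqModC k).order = -1 := by
  have h1 : (jqModC k).coeff (-1) ≠ 0 := by rw [coeff_jqModC_neg_one]; exact one_ne_zero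
  refine le_antisymm (HahnSeries.order_le_of_coeff_ne_zero h1) (not_lt.mp fun hlt => ?_)
  have hne : jqModC k ≠ 0 := fun h => h1 (by rw [h]; rfl)
  refine mt (HahnSeries.coeff_order_eq_zero).mp hne ?_
  simpa using coeff_jqModC_pow_of_lt k (b := 1) (m := (jqModC k).order) (by simpa using hlt)

theorem jqModC_ne_pow {ℓ : ℕ} (hℓ : 1 < ℓ) (T : LaurentSeries k) : T ^ ℓ ≠ jqModC k := by
  intro h
  have ho := congrArg HahnSeries.order h
  rw [order_jqModC', HahnSeries.order_pow, nsmul_eq_mul] at ho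
  rcases le_or_gt 0 T.order with ht | ht <;> nlinarith

theorem qExpand_jqModC_pow_injective (d : ℕ) [NeZero d] :
    Function.Injective fun n : ℕ => qExpand k d (jqModC k) ^ n := by
  intro n m h
  simp only [← map_pow] at h
  have h' : (X : Polynomial k) ^ n = X ^ m := sub_eq_zero.mp
    (aeval_jqModC_eq_zero (p := X ^ n - X ^ m) (by simp [qExpand_injective d h]))
  simpa using congrArg Polynomial.natDegree h'

end Series

section Residue

variable {A : ValuationSubring Qbar} {ℓ : ℕ}

theorem charP_residueField (hℓ : ℓ.Prime) (hA : A.LiesOverPrime ℓ) :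
    CharP (IsLocalRing.ResidueField A) ℓ := by
  refine (CharP.charP_iff_prime_eq_zero hℓ).mpr ?_
  rw [← map_natCast (IsLocalRing.residue A) ℓ, IsLocalRing.residue_eq_zero_iff,
    ← ValuationSubring.coe_mem_nonunits_iff]
  exact_mod_cast hA

theorem exists_zetaInt (A : ValuationSubring Qbar) (ℓ : ℕ) [Fact ℓ.Prime] :
    ∃ (ζ : Qbarˣ) (hζ : IsPrimitiveRoot (ζ : Qbar) ℓ) (fA : ZetaRing ℓ →+* A),
      A.subtype.comp fA = zetaHom (ζ : Qbar) hζ := by
  obtain ⟨ζ, hζ⟩ := exists_root_unity ℓ
  have hmem : ∀ x, zetaHom (ζ : Qbar) hζ x ∈ A.toSubring := fun x => by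
    have h := isIntegralElem_map (zetaHom (ζ : Qbar) hζ) (isIntegralElem_zetaRing ℓ x)
    rw [RingHom.ext_int ((zetaHom (ζ : Qbar) hζ).comp (Int.castRingHom _))
      ((algebraMap A Qbar).comp (Int.castRingHom A))] at h
    obtain ⟨y, hy⟩ := IsIntegrallyClosed.isIntegral_iff.mp
      (show IsIntegral A (zetaHom (ζ : Qbar) hζ x) from isIntegralElem_of_comp h)
    exact hy ▸ y.2
  exact ⟨ζ, hζ, (zetaHom (ζ : Qbar) hζ).codRestrict A.toSubring hmem, RingHom.ext fun _ => rfl⟩

end Residue

section Generic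

variable {R B F' L : Type*} [CommRing R] [CommRing B] [Field F'] [Field L]

theorem eval₂_map_eq_zero_of (v : F' →+* L) (αB : B →+* F') (cB : R →+* B) (x : B) (y : F')
    (gL : Polynomial R →+* L) (hc : ∀ a, v (αB (cB a)) = gL (C a)) (hx : v (αB x) = gL X)
    {P : Polynomial (Polynomial R)} (h : P.eval₂ gL (v y) = 0) :
    (P.map (Polynomial.eval₂RingHom cB x)).eval₂ αB y = 0 := by
  refine v.injective ?_
  rw [Polynomial.eval₂_map, Polynomial.hom_eval₂, map_zero,
    show v.comp (αB.comp (Polynomial.eval₂RingHom cB x)) = gL from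
      Polynomial.ringHom_ext (fun a => by simp [hc]) (by simp [hx])]
  exact h

theorem val_comp_apply {L M : Type*} [Field L] [Field M] [Algebra L M]
    {E E' : IntermediateField L M} (u : E →ₐ[L] E') (hu : M →+* M)
    (hu' : ∀ x : E, ((u x : E') : M) = hu (x : M)) (C : Subring E) (c : C) :
    (IntermediateField.val E').toRingHom (u.toRingHom.comp C.subtype c) =
      hu ((IntermediateField.val E).toRingHom.comp C.subtype c) :=
  hu' (c : E)

theorem val_apply {L M : Type*} [Field L] [Field M] [Algebra L M]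
    {E E' : IntermediateField L M} (u : E →ₐ[L] E') (hu : M →+* M)
    (hu' : ∀ x : E, ((u x : E') : M) = hu (x : M)) (C : Subring E) (c : C) :
    (IntermediateField.val E').toRingHom (u.toRingHom (c : E)) =
      hu ((IntermediateField.val E).toRingHom.comp C.subtype c) :=
  hu' (c : E)

theorem closure_eq_top_of_map (v : F' →+* L) (T : Set F') (G : Set L)
    (hG : ∀ x, v x ∈ Subfield.closure G) (h : G ⊆ (Subfield.closure T).map v) :
    Subfield.closure T = ⊤ := by
  refine eq_top_iff.mpr fun x _ => ?_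
  obtain ⟨y, hy, hyx⟩ := Subfield.closure_le.mpr h (hG x)
  rwa [← v.injective hyx]

end Generic

section

variable {A : ValuationSubring Qbar} {N : ℕ}

local notation "FF" => modularFunctionFieldBar N
local notation "kA" => IsLocalRing.ResidueField A
local notation "FK" => modularFunctionFieldFullC (IsLocalRing.ResidueField A) N

/-- The generators `j(q^d)` of the chart, indexed by divisors. -/
def jgenDiv [NeZero N] (hM : ModularEquations) (i : {d : ℕ // d ∣ N}) : chart A N :=
  haveI : NeZero i.1 := ⟨fun h => NeZero.ne N (Nat.eq_zero_of_zero_dvd (h ▸ i.2))⟩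
  jgen hM i.1 i.2

/-- The inclusion of the level `M` function field into Laurent series. -/
abbrev seriesHom (M : ℕ) : modularFunctionFieldBar M →+* LaurentSeries Qbar :=
  (IntermediateField.val (modularFunctionFieldBar M)).toRingHom

theorem seriesHom_alpha (ℓ : ℕ) [NeZero ℓ] [NeZero N] (b : chart A N) :
    seriesHom (N * ℓ) ((heckeAlphaBar Qbar N ℓ).toRingHom.comp (chart A N).subtype b) =
      chartIncl A N b :=
  val_comp_apply (heckeAlphaBar Qbar N ℓ) (RingHom.id _) (coe_heckeAlphaBar N ℓ) (chart A N) b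

theorem seriesHom_beta (ℓ : ℕ) [NeZero ℓ] [NeZero N] (b : chart A N) :
    seriesHom (N * ℓ) ((heckeBetaBar Qbar N ℓ).toRingHom (b : FF)) =
      qExpand Qbar ℓ (chartIncl A N b) :=
  val_apply (heckeBetaBar Qbar N ℓ) (qExpand Qbar ℓ) (coe_heckeBetaBar N ℓ) (chart A N) b

theorem chartIncl_jgen (hM : ModularEquations) (d : ℕ) [NeZero d] (hd : d ∣ N) :
    chartIncl A N (jgen hM d hd) = qExpand Qbar d (jqModC Qbar) := rfl

theorem eval₂_modPolyMap_qExpand (ℓ : ℕ) [Fact ℓ.Prime] (d : ℕ) [NeZero d]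
    {ζ : Qbarˣ} (hζ : IsPrimitiveRoot (ζ : Qbar) ℓ)
    (fA : ZetaRing ℓ →+* A) (hfA : A.subtype.comp fA = zetaHom (ζ : Qbar) hζ) :
    (modPolyMap ℓ fA).eval₂
      (((qExpand Qbar d).comp (Polynomial.aeval (R := Qbar) (jqModC Qbar)).toRingHom).comp
        (Polynomial.mapRingHom A.subtype))
      (qExpand Qbar d (qExpand Qbar ℓ (jqModC Qbar))) = 0 := by
  rw [← Polynomial.eval₂_map, modPolyMap_comp, hfA, ← Polynomial.hom_eval₂,
    ← Polynomial.eval_map, eval_modPolyMap ℓ hζ, map_zero]

theorem eval₂_modPolyMap_eq_zero (hM : ModularEquations) (ℓ : ℕ) [Fact ℓ.Prime] [NeZero N]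
    (d : ℕ) [NeZero d] (hd : d ∣ N) {ζ : Qbarˣ} (hζ : IsPrimitiveRoot (ζ : Qbar) ℓ)
    (fA : ZetaRing ℓ →+* A) (hfA : A.subtype.comp fA = zetaHom (ζ : Qbar) hζ) :
    ((modPolyMap ℓ fA).map (Polynomial.eval₂RingHom (chartC A) (jgen hM d hd))).eval₂
      ((heckeAlphaBar Qbar N ℓ).toRingHom.comp (chart A N).subtype)
      ((heckeBetaBar Qbar N ℓ).toRingHom (jgen (A := A) hM d hd : FF)) = 0 := by
  refine eval₂_map_eq_zero_of (seriesHom (N * ℓ)) _ _ _ _
    (((qExpand Qbar d).comp (Polynomial.aeval (R := Qbar) (jqModC Qbar)).toRingHom).comp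
      (Polynomial.mapRingHom A.subtype)) (fun a => ?_) ?_ ?_
  · rw [seriesHom_alpha, chartIncl_chartC]
    simp [qExpand_algebraMap]
  · rw [seriesHom_alpha, chartIncl_jgen]
    simp
  · rw [seriesHom_beta, chartIncl_jgen, qExpand_qExpand, qExpand_congr (Nat.mul_comm ℓ d),
      ← qExpand_qExpand]
    exact eval₂_modPolyMap_qExpand ℓ d hζ fA hfA

theorem genF_hecke [NeZero N] (hM : ModularEquations) (ℓ : ℕ) [Fact ℓ.Prime] :
    Subfield.closure ((Set.range fun b : chart A N =>
      (heckeAlphaBar Qbar N ℓ).toRingHom (b : FF)) ∪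
      Set.range fun i : {d : ℕ // d ∣ N} =>
        (heckeBetaBar Qbar N ℓ).toRingHom (jgenDiv (A := A) hM i : FF)) = ⊤ := by
  set T := ((Set.range fun b : chart A N =>
      (heckeAlphaBar Qbar N ℓ).toRingHom (b : FF)) ∪
      Set.range fun i : {d : ℕ // d ∣ N} =>
        (heckeBetaBar Qbar N ℓ).toRingHom (jgenDiv (A := A) hM i : FF)) with hT
  refine closure_eq_top_of_map (seriesHom (N * ℓ)) T
    (Set.range (algebraMap Qbar (LaurentSeries Qbar)) ∪
      (⇑(coeffEmb Qbar) '' (modularFunctionFieldFull (N * ℓ) : Set (LaurentSeries ℚ))))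
    (fun x => mem_laurentBaseChange_iff.mp x.2) ?_
  set S := (Subfield.closure T).map (seriesHom (N * ℓ)) with hS
  have hα : ∀ b : chart A N, chartIncl A N b ∈ S := fun b =>
    ⟨_, Subfield.subset_closure (Or.inl ⟨b, rfl⟩), seriesHom_alpha ℓ b⟩
  have hβ : ∀ i : {d : ℕ // d ∣ N}, qExpand Qbar ℓ (chartIncl A N (jgenDiv hM i)) ∈ S := fun i =>
    ⟨_, Subfield.subset_closure (Or.inr ⟨i, rfl⟩), seriesHom_beta ℓ (jgenDiv hM i)⟩
  have hc : ∀ c : Qbar, algebraMap Qbar (LaurentSeries Qbar) c ∈ S := fun c => by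
    rcases A.mem_or_inv_mem c with hc | hc
    · exact chartIncl_chartC (N := N) (⟨c, hc⟩ : A) ▸ hα (chartC A ⟨c, hc⟩)
    · rw [← inv_inv c, map_inv₀]
      exact inv_mem (chartIncl_chartC (N := N) (⟨c⁻¹, hc⟩ : A) ▸ hα (chartC A ⟨c⁻¹, hc⟩))
  rintro _ (⟨c, rfl⟩ | ⟨z, hz, rfl⟩)
  · exact hc c
  · induction hz using IntermediateField.adjoin_induction with
    | mem y hy =>
      obtain ⟨d, hd0, hd, rfl⟩ := hy
      rw [coeffEmb_qExpand_jq]
      by_cases hℓd : ℓ ∣ d
      · obtain ⟨d', rfl⟩ := hℓd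
        have hd' : d' ∣ N := Nat.dvd_of_mul_dvd_mul_left (Nat.Prime.pos Fact.out)
          (Nat.mul_comm N ℓ ▸ hd)
        have : NeZero d' := ⟨fun h0 => hd0.out (by simp [h0])⟩
        rw [← qExpand_qExpand, ← chartIncl_jgen (A := A) hM d' hd']
        exact hβ ⟨d', hd'⟩
      · have hd' : d ∣ N :=
          (Nat.Coprime.dvd_of_dvd_mul_right
            ((Nat.Prime.coprime_iff_not_dvd Fact.out).mpr hℓd).symm hd)
        exact chartIncl_jgen (A := A) hM d hd' ▸ hα (jgen hM d hd')
    | algebraMap c =>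
      rw [algebraMap_laurentSeries_eq_single, coeffEmb, coeffMap_single,
        ← algebraMap_laurentSeries_eq_single]
      exact hc _
    | add a b _ _ ha hb => rw [map_add]; exact add_mem ha hb
    | inv a _ ha => rw [map_inv₀]; exact inv_mem ha
    | mul a b _ _ ha hb => rw [map_mul]; exact mul_mem ha hb

theorem ellHyp [NeZero N] (hGR : X0GoodReduction A (IsLocalRing.residue A) N)
    (hM : ModularEquations) (ℓ : ℕ) [Fact ℓ.Prime] (hA : A.LiesOverPrime ℓ)
    (ρ : IsLocalRing.ResidueField A ≃+* IsLocalRing.ResidueField A) (hρ : ∀ a, ρ a = a ^ ℓ) :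
    EllHyp (heckeAlphaBar Qbar N ℓ).toRingHom (heckeBetaBar Qbar N ℓ).toRingHom (chart A N)
      (chartRed hGR) ℓ {d : ℕ // d ∣ N} (jgenDiv hM) ⟨1, one_dvd N⟩
      (SemilinearAut.toRingAut (specialAut N ρ)) (Set.range (algebraMap kA (FK))) := by
  have hchar := charP_residueField Fact.out hA
  have hco : ∀ i : {d : ℕ // d ∣ N}, ∀ _ : NeZero i.1,
      (chartRed hGR (jgenDiv hM i) : LaurentSeries kA) = qExpand kA i.1 (jqModC kA) := fun i _ =>
    chartRed_jgen hGR hM i.1 i.2
  have hone : (chartRed hGR (jgenDiv hM ⟨1, one_dvd N⟩) : LaurentSeries kA) = jqModC kA :=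
    (hco ⟨1, one_dvd N⟩ inferInstance).trans (qExpand_one_apply _)
  have hnz : ∀ i : {d : ℕ // d ∣ N}, NeZero i.1 := fun i =>
    ⟨fun h => NeZero.ne N (Nat.eq_zero_of_zero_dvd (h ▸ i.2))⟩
  refine
    { prime := Fact.out
      char := charP_of_injective_ringHom (algebraMap kA (FK)).injective ℓ
      rel := fun i => ?_
      pow_inj := fun i => ?_
      fwd := fun i => ?_
      bwd := fun i => ?_
      not_pow := fun T hT => ?_
      σ_gen := fun i => ?_
      σ_const := ?_
      const := ?_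
      genK := ?_
      genF := ?_ }
  · have := hnz i
    obtain ⟨ζ, hζ, fA, hfA⟩ := exists_zetaInt A ℓ
    refine ⟨_, eval₂_modPolyMap_eq_zero hM ℓ i.1 i.2 hζ fA hfA, ?_⟩
    have hcomp : (chartRed hGR).comp (Polynomial.eval₂RingHom (chartC A) (jgen hM i.1 i.2)) =
        (Polynomial.eval₂RingHom (algebraMap kA (FK)) (chartRed hGR (jgenDiv hM i))).comp
          (Polynomial.mapRingHom (IsLocalRing.residue A)) :=
      Polynomial.ringHom_ext (fun a => by simp [chartRed_chartC]) (by simp [jgenDiv])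
    rw [Polynomial.map_map, hcomp, ← Polynomial.map_map, modPolyMap_comp, modPolyMap_char]
    simp
  · have := hnz i
    intro n m h
    have h' := congrArg (fun z : FK => (z : LaurentSeries kA)) h
    simp only [SubmonoidClass.coe_pow, hco i inferInstance] at h'
    exact qExpand_jqModC_pow_injective kA i.1 h'
  · have := hnz i
    refine (isIntegralElem_map_iff (IntermediateField.val (FK)).toRingHom
      Subtype.val_injective).mp ?_
    rw [show (IntermediateField.val (FK)).toRingHom.comp (Polynomial.eval₂RingHom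
        (Int.castRingHom (FK)) (chartRed hGR (jgenDiv hM ⟨1, one_dvd N⟩))) = evalJ kA from
      Polynomial.ringHom_ext' (RingHom.ext_int _ _) (by simpa using hone)]
    rw [show (IntermediateField.val (FK)).toRingHom (chartRed hGR (jgenDiv hM i)) =
      qExpand kA i.1 (jqModC kA) from hco i inferInstance]
    exact modularEquations_fwd_char kA i.1
  · have := hnz i
    refine (isIntegralElem_map_iff (IntermediateField.val (FK)).toRingHom
      Subtype.val_injective).mp ?_
    rw [show (IntermediateField.val (FK)).toRingHom.comp (Polynomial.eval₂RingHom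
        (Int.castRingHom (FK)) (chartRed hGR (jgenDiv hM i))) =
        (qExpand kA i.1).comp (evalJ kA) from
      Polynomial.ringHom_ext' (RingHom.ext_int _ _) (by simpa using hco i inferInstance)]
    rw [show (IntermediateField.val (FK)).toRingHom
      (chartRed hGR (jgenDiv hM ⟨1, one_dvd N⟩)) = jqModC kA from hone]
    exact modularEquations_bwd_char kA i.1
  · refine jqModC_ne_pow kA (Nat.Prime.one_lt (p := ℓ) Fact.out) (T : LaurentSeries kA) ?_
    rw [← hone, ← hT, SubmonoidClass.coe_pow]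
  · have := hnz i
    apply Subtype.ext
    rw [← SemilinearAut.smul_def, coe_specialAut_smul, hco i inferInstance, coeffMap_qExpand,
      coeffMap_jqModC]
  · rintro _ ⟨a, rfl⟩
    rw [← SemilinearAut.smul_def, SemilinearAut.smul_algebraMap, ← map_pow]
    exact congrArg _ (hρ a)
  · rintro _ ⟨a, rfl⟩
    obtain ⟨a, rfl⟩ := IsLocalRing.residue_surjective a
    exact ⟨chartC A a, ((heckeAlphaBar Qbar N ℓ).commutes _).trans
      ((heckeBetaBar Qbar N ℓ).commutes _).symm, chartRed_chartC hGR a⟩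
  · rw [eq_top_iff, ← IntermediateField.top_toSubfield (F := kA),
      ← adjoin_preimage_eq_top kA N]
    refine Subfield.closure_mono (Set.union_subset_union_right _ ?_)
    rintro x ⟨d, hd0, hd, hx⟩
    exact ⟨⟨d, hd⟩, Subtype.ext ((hco ⟨d, hd⟩ hd0).trans hx.symm)⟩
  · exact genF_hecke hM ℓ

variable {r : Place Qbar (modularFunctionFieldBar N) → Place (IsLocalRing.ResidueField A)
  (modularFunctionFieldFullC (IsLocalRing.ResidueField A) N)}

theorem frobenius_divisor {K F : Type*} [Field K] [Field F] [Algebra K F] (g : SemilinearAut K F)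
    {D : Divisor K F} {f : F} (hf : f ≠ 0) (hD : ∀ v : Place K F, D v = v.ord f) (n : ℕ)
    (v : Place K F) :
    v.ord (g • f * (g⁻¹ • f) ^ n) = (g • D) v + n * (g⁻¹ • D) v := by
  have h0 : ∀ g' : SemilinearAut K F, g' • f ≠ 0 := fun g' h =>
    hf ((MulAction.injective g') (h.trans (smul_zero g').symm))
  rw [v.ord_mul (h0 g) (pow_ne_zero _ (h0 g⁻¹)), ← zpow_natCast, v.ord_zpow,
    HeckeJacobian.smul_apply_principal g hD, HeckeJacobian.smul_apply_principal g⁻¹ hD]

/-- On divisors of degree zero, `T_ℓ` reduces to `Fr + ℓ Fr⁻¹`. -/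
theorem FibreInputs.mapDomain_hecke_ell [NeZero N] (hI : FibreInputs A N r) (ℓ : ℕ)
    [Fact ℓ.Prime] [HasPrincipalDivisors Qbar (modularFunctionFieldBar (N * ℓ))]
    (hα : HeckeAlphaBarIntegral Qbar N ℓ) (hβ : HeckeBetaBarIntegral Qbar N ℓ)
    (hA : A.LiesOverPrime ℓ)
    (ρ : IsLocalRing.ResidueField A ≃+* IsLocalRing.ResidueField A) (hρ : ∀ a, ρ a = a ^ ℓ)
    (hFI : FundamentalIdentityAlong Qbar (heckeBetaBar Qbar N ℓ) hβ)
    (hfin : FiniteAlong Qbar (heckeAlphaBar Qbar N ℓ))
    (hN : NormFormulaAlong Qbar (heckeAlphaBar Qbar N ℓ) hfin)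
    (hdeg : finrankAlong Qbar (heckeAlphaBar Qbar N ℓ) = ℓ + 1)
    {D : Divisor Qbar (FF)} (hD : D ∈ Divisor.degZero (K := Qbar) (F := FF)) :
    Finsupp.mapDomain r (heckeDivBar hα hβ D) =
      specialAut N ρ • Finsupp.mapDomain r D
        + (ℓ : ℤ) • ((specialAut N ρ)⁻¹ • Finsupp.mapDomain r D) := by
  obtain ⟨d⟩ := hI.exists_normRedData hfin Fact.out hA
  have hE := ellHyp hI.red hI.equations ℓ hA ρ hρ
  have hcard : Fintype.card d.S = ℓ + 1 := d.card_eq.trans hdeg
  set g := specialAut N ρ with hg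
  ext v
  rw [Finsupp.add_apply, Finsupp.smul_apply, smul_eq_mul]
  let δ : Divisor Qbar (FF) →+ ℤ :=
    { toFun := fun E => redHeckeAt r hα hβ v E -
        ((g • Finsupp.mapDomain r E) v + (ℓ : ℤ) * (g⁻¹ • Finsupp.mapDomain r E) v)
      map_zero' := by simp
      map_add' := fun E E' => by
        simp only [map_add, smul_add, Finsupp.mapDomain_add, Finsupp.add_apply]
        ring }
  have h : δ D = 0 := by
    refine eq_zero_of_bounded hI.degGen hI.bounded δ (vanish_on_principal hI.gen δ ?_)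
      (finrankAlong Qbar (heckeBetaBar Qbar N ℓ) + (1 + ℓ)) (fun P => ?_) hD
    · intro E hEp
      obtain ⟨f, f', hf, -, hff', hE1, hE2⟩ :=
        hI.mapDomain_hecke_principal hα hβ d hfin hN hEp
      have hf' : f' = g • f * (g⁻¹ • f) ^ ℓ :=
        d.ι.injective (hff'.trans (hE.prod_eq d hcard f))
      show Finsupp.mapDomain r (heckeDivBar hα hβ E) v -
        ((g • Finsupp.mapDomain r E) v + (ℓ : ℤ) * (g⁻¹ • Finsupp.mapDomain r E) v) = 0
      rw [hE2, hf', frobenius_divisor g hf hE1, sub_self]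
    · show |redHeckeAt r hα hβ v (Finsupp.single P 1) -
        ((g • Finsupp.mapDomain r (Finsupp.single P 1)) v
          + (ℓ : ℤ) * (g⁻¹ • Finsupp.mapDomain r (Finsupp.single P 1)) v)| ≤ _
      refine (abs_sub _ _).trans (add_le_add (hI.abs_redHeckeAt_single_le hα hβ hFI v P) ?_)
      rw [Finsupp.mapDomain_single]
      obtain ⟨h1, h2⟩ := smul_single_nonneg g (r P) v
      obtain ⟨h3, h4⟩ := smul_single_nonneg g⁻¹ (r P) v
      rw [abs_of_nonneg (add_nonneg h1 (mul_nonneg (Int.natCast_nonneg ℓ) h3))]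
      exact add_le_add h2 (mul_le_of_le_one_right (Int.natCast_nonneg ℓ) h4)
  exact sub_eq_zero.mp h

end

end FLTAgent.CongruenceRel
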