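import Mathlib.RingTheory.IntegralClosure.IsIntegralClosure.Basic
import Mathlib.RingTheory.IntegralClosure.Algebra.Basic

set_option autoImplicit false

/-!
# Rings of elements integral along a ring homomorphism

`intRing f` is the subring of elements integral along `f`. The lemmas transport integrality along
injective maps and compositions.
-/

namespace FLTAgent.CongruenceRel

variable {R R' S S' : Type*} [CommRing R] [CommRing R'] [CommRing S] [CommRing S']

/-- The subring of elements integral along `f`. -/
def intRing (f : R →+* S) : Subring S :=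
  letI := f.toAlgebra
  (integralClosure R S).toSubring

theorem mem_intRing {f : R →+* S} {x : S} : x ∈ intRing f ↔ f.IsIntegralElem x := Iff.rfl

theorem apply_mem_intRing (f : R →+* S) (r : R) : f r ∈ intRing f :=
  f.isIntegralElem_map

theorem isIntegralElem_of_forall {f : R →+* S} {g : R' →+* S}
    (hfg : ∀ r, g.IsIntegralElem (f r)) {x : S} (hx : f.IsIntegralElem x) :
    g.IsIntegralElem x := by
  let := g.toAlgebra
  let f' : R →+* integralClosure R' S :=
    f.codRestrict (integralClosure R' S).toSubring hfg
  obtain ⟨p, hp, hpx⟩ := hx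
  have hx' : IsIntegral (integralClosure R' S) x := by
    refine ⟨p.map f', hp.map f', ?_⟩
    rw [Polynomial.eval₂_map]
    exact hpx
  exact isIntegral_trans (R := R') (A := integralClosure R' S) x hx'

theorem isIntegralElem_map {f : R →+* S} (h : S →+* S') {x : S} (hx : f.IsIntegralElem x) :
    (h.comp f).IsIntegralElem (h x) := by
  obtain ⟨p, hp, hpx⟩ := hx
  refine ⟨p, hp, ?_⟩
  rw [← Polynomial.hom_eval₂, hpx, map_zero]

theorem isIntegralElem_map_iff {f : R →+* S} (h : S →+* S') (hh : Function.Injective h) {x : S} :
    (h.comp f).IsIntegralElem (h x) ↔ f.IsIntegralElem x := by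
  refine ⟨fun ⟨p, hp, hpx⟩ => ⟨p, hp, hh ?_⟩, isIntegralElem_map h⟩
  rw [Polynomial.hom_eval₂, hpx, map_zero]

theorem isIntegralElem_of_comp {f : R →+* R'} {g : R' →+* S} {x : S}
    (hx : (g.comp f).IsIntegralElem x) : g.IsIntegralElem x := by
  obtain ⟨p, hp, hpx⟩ := hx
  refine ⟨p.map f, hp.map f, ?_⟩
  rwa [Polynomial.eval₂_map]

end FLTAgent.CongruenceRel
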