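import Fermat.Prelude.Def_AlgebraicCurve_Correspondence
import Fermat.Agent.CongruenceRel.IntRing
import Mathlib.FieldTheory.IntermediateField.Adjoin.Basic

set_option autoImplicit false

/-!
# Orders of products of conjugates are linear in the divisor

If `ι, φ₁, …, φₙ : K →+* E` are embeddings over `k`, each algebraic over the others, and
`ι g = ∏ φₛ f`, then at every place `v` the order of `g` is a fixed linear combination of the
values of the divisor of `f`.
This is `exists_linear_ord`.
-/

noncomputable section

namespace FLTAgent.CongruenceRel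

open AlgebraicCurve Polynomial

universe u

/-- Places lift along finite extensions. -/
def PlacesLift (k K : Type u) [Field k] [Field K] [Algebra k K] : Prop :=
  ∀ (M : Type u) [Field M] [Algebra k M] (i : K →ₐ[k] M) (hi : i.toRingHom.IsIntegral),
    FiniteAlong k i → ∀ v : Place k K, ∃ w : Place k M, w.restrictAlong i hi = v

variable {k K : Type u} [Field k] [Field K] [Algebra k K] {E : Type u} [Field E]

theorem isIntegralElem_inv {f : K →+* E} {x : E} (hx : f.IsIntegralElem x) :
    f.IsIntegralElem x⁻¹ := by
  let := f.toAlgebra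
  exact IsIntegral.inv hx

theorem exists_linear_ord (hlift : PlacesLift k K) (ι : K →+* E) {S : Type*} [Fintype S]
    (φ : S → K →+* E)
    (hconst : ∀ s (a : k), φ s (algebraMap k K a) = ι (algebraMap k K a))
    (G : Set K) (hGfin : G.Finite) (hG : IntermediateField.adjoin k G = ⊤)
    (hint : ∀ s, ∀ y : K, ι.IsIntegralElem (φ s y))
    (hint₁ : ∀ s, ∀ y : K, (φ s).IsIntegralElem (ι y))
    (hint₂ : ∀ s t, ∀ y : K, (φ s).IsIntegralElem (φ t y))
    (v : Place k K) :
    ∃ e : ℤ, 0 < e ∧ ∃ (Λ : Divisor k K →+ ℤ) (B : ℤ),
      (∀ w, |Λ (Finsupp.single w 1)| ≤ B) ∧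
      ∀ (f g : K) (D : Divisor k K), f ≠ 0 → (∀ w, D w = w.ord f) → ι g = ∏ s, φ s f →
        e * v.ord g = Λ D := by
  classical
  let : Algebra K E := ι.toAlgebra
  let : Algebra k E := (ι.comp (algebraMap k K)).toAlgebra
  have : IsScalarTower k K E := IsScalarTower.of_algebraMap_eq fun _ => rfl
  set T : Set E := ⋃ t, φ t '' G with hT
  have hTfin : T.Finite := Set.finite_iUnion fun t => hGfin.image _
  let M : IntermediateField K E := IntermediateField.adjoin K T
  have : FiniteDimensional K M := by
    have := hTfin.to_subtype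
    refine IntermediateField.finiteDimensional_adjoin fun x hx => ?_
    obtain ⟨t, y, -, rfl⟩ := Set.mem_iUnion.mp hx
    exact hint t y
  have hφM : ∀ s (y : K), φ s y ∈ M := by
    intro s y
    have hy : y ∈ IntermediateField.adjoin k G := hG ▸ IntermediateField.mem_top
    induction hy using IntermediateField.adjoin_induction with
    | mem x hx => exact IntermediateField.subset_adjoin K T (Set.mem_iUnion.mpr ⟨s, x, hx, rfl⟩)
    | algebraMap a => rw [hconst]; exact M.algebraMap_mem (algebraMap k K a)
    | add x y _ _ hx hy => rw [map_add]; exact add_mem hx hy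
    | inv x _ hx => rw [map_inv₀]; exact inv_mem hx
    | mul x y _ _ hx hy => rw [map_mul]; exact mul_mem hx hy
  let ι' : K →ₐ[k] M := IsScalarTower.toAlgHom k K M
  have hι' : ι'.toRingHom.IsIntegral := fun x =>
    (Algebra.IsIntegral.isIntegral (R := K) x)
  have hfin : FiniteAlong k ι' := by
    show @Module.Finite K M _ _ (algebraAlong ι').toModule
    have h : algebraAlong ι' = (inferInstance : Algebra K M) := Algebra.algebra_ext _ _ fun _ => rfl
    rw [h]
    infer_instance
  let φ' : S → (K →ₐ[k] M) := fun s =>
    { (φ s).codRestrict M (hφM s) with commutes' := fun a => Subtype.ext (hconst s a) }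
  have hφ' : ∀ s, (φ' s).toRingHom.IsIntegral := by
    intro s x
    have hx : (φ s).IsIntegralElem (x : E) := by
      obtain ⟨x, hx⟩ := x
      show (φ s).IsIntegralElem x
      induction hx using IntermediateField.adjoin_induction with
      | mem z hz =>
        obtain ⟨t, y, -, rfl⟩ := Set.mem_iUnion.mp hz
        exact hint₂ s t y
      | algebraMap a => exact hint₁ s a
      | add x y _ _ hx hy => exact RingHom.IsIntegralElem.add _ hx hy
      | inv x _ hx => exact isIntegralElem_inv hx
      | mul x y _ _ hx hy => exact RingHom.IsIntegralElem.mul _ hx hy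
    exact (isIntegralElem_map_iff (M.val : M →+* E) Subtype.val_injective).mp hx
  obtain ⟨w, hw⟩ := hlift M ι' hι' hfin v
  refine ⟨(w.ramificationIndexAlong ι' : ℤ), ?_,
    ∑ s, ((w.ramificationIndexAlong (φ' s) : ℤ) •
      (Finsupp.applyAddHom (w.restrictAlong (φ' s) (hφ' s)) : Divisor k K →+ ℤ)),
    ∑ s, (w.ramificationIndexAlong (φ' s) : ℤ), ?_, ?_⟩
  · let := algebraAlong ι'
    have := isIntegral_along ι' hι'
    exact_mod_cast w.ramificationIndex_pos (F := K)
  · intro u
    rw [AddMonoidHom.finsetSum_apply]
    refine (Finset.abs_sum_le_sum_abs _ _).trans (Finset.sum_le_sum fun s _ => ?_)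
    rw [AddMonoidHom.smul_apply, Finsupp.applyAddHom_apply, smul_eq_mul, abs_mul, Nat.abs_cast,
      Finsupp.single_apply]
    split <;> simp
  · intro f g D hf hD hg
    have hg' : ι' g = ∏ s, φ' s f := by
      apply Subtype.ext
      rw [show ((∏ s, φ' s f : M) : E) = ∏ s, φ s f from map_prod M.val _ _]
      exact hg
    have h1 : w.ord (ι' g) = (w.ramificationIndexAlong ι' : ℤ) * v.ord g := by
      rw [Place.ord_restrictAlong ι' hι', hw]
    have h2 : ∀ U : Finset S, w.ord (∏ s ∈ U, φ' s f) = ∑ s ∈ U, w.ord (φ' s f) := by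
      intro U
      induction U using Finset.induction_on with
      | empty => simp
      | insert a U ha ih =>
        rw [Finset.prod_insert ha, Finset.sum_insert ha, Place.ord_mul _ (by simpa using hf)
          (Finset.prod_ne_zero_iff.mpr fun s _ => by simpa using hf), ih]
    rw [← h1, hg', h2, AddMonoidHom.finsetSum_apply]
    refine Finset.sum_congr rfl fun s _ => ?_
    rw [AddMonoidHom.smul_apply, Finsupp.applyAddHom_apply, smul_eq_mul, hD,
      Place.ord_restrictAlong (φ' s) (hφ' s)]

end FLTAgent.CongruenceRel
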