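import Fermat.Agent.CongruenceRel.Quotient
import Fermat.Agent.CongruenceRel.DivisorLemmas
import Fermat.Agent.CongruenceRel.LinearOrd

set_option autoImplicit false

/-!
# Reduction of Hecke correspondences on divisors of degree zero

`FibreInputs` collects what is needed from the special fibre. From the chart computation, a divisor
of degree zero with principal reduction has a Hecke transform with principal reduction
(`FibreInputs.mapDomain_hecke_isPrincipal`).
-/

noncomputable section

namespace FLTAgent.CongruenceRel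

open ModularCurve AlgebraicCurve FLTAgent.GoodReduction

local notation "Qbar" => AlgebraicClosure ℚ

/-- Inputs on the special fibre used for the comparison. -/
structure FibreInputs (A : ValuationSubring Qbar) (N : ℕ)
    (r : Place Qbar (modularFunctionFieldBar N) →
      Place (IsLocalRing.ResidueField A)
        (modularFunctionFieldFullC (IsLocalRing.ResidueField A) N)) : Prop where
  red : X0GoodReduction A (IsLocalRing.residue A) N
  spec : IsPlaceReductionModL A N r
  gen : PrincipalGeneratedByIntegral A (IsLocalRing.residue A) N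
  equations : ModularEquations
  prime : ∃ ℓ : ℕ, ℓ.Prime ∧ A.LiesOverPrime ℓ
  degGen : ∀ P : Place Qbar (modularFunctionFieldBar N), P.deg = 1
  degSp : ∀ P : Place (IsLocalRing.ResidueField A)
    (modularFunctionFieldFullC (IsLocalRing.ResidueField A) N), P.deg = 1
  bounded : BoundedEffective Qbar (modularFunctionFieldBar N)
  lift : PlacesLift (IsLocalRing.ResidueField A)
    (modularFunctionFieldFullC (IsLocalRing.ResidueField A) N)
  hpd : HasPrincipalDivisors Qbar (modularFunctionFieldBar N)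

theorem vanish_on_principal {K F : Type*} [Field K] [Field F] [Algebra K F]
    {S : Set (Divisor K F)} (hgen : Divisor.principal (K := K) (F := F) ≤ AddSubgroup.closure S)
    (δ : Divisor K F →+ ℤ) (h : ∀ D ∈ S, δ D = 0) :
    ∀ D ∈ Divisor.principal (K := K) (F := F), δ D = 0 := fun _ hD =>
  (AddSubgroup.closure_le δ.ker).mpr (fun E hE => h E hE) (hgen hD)

section

variable {A : ValuationSubring Qbar} {N : ℕ}

local notation "FF" => modularFunctionFieldBar N
local notation "kA" => IsLocalRing.ResidueField A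
local notation "FK" => modularFunctionFieldFullC (IsLocalRing.ResidueField A) N

variable {r : Place Qbar (modularFunctionFieldBar N) → Place (IsLocalRing.ResidueField A)
  (modularFunctionFieldFullC (IsLocalRing.ResidueField A) N)}

theorem FibreInputs.mapDomain_chart (hI : FibreInputs A N r) (b : chart A N)
    (hb : chartRed hI.red b ≠ 0) {D : Divisor Qbar (FF)} (hD : ∀ P, D P = P.ord (b : FF))
    (v : Place kA (FK)) : Finsupp.mapDomain r D v = v.ord (chartRed hI.red b) := by
  have hy : coeffMap A.subtype (series hI.red b) ∈ laurentBaseChange Qbar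
      (modularFunctionFieldFull N) := by
    rw [coeffMap_series]; exact (b : FF).2
  have hyk : coeffMap (IsLocalRing.residue A) (series hI.red b) ∈ FK :=
    (chartRed hI.red b).2
  have hne : coeffMap (IsLocalRing.residue A) (series hI.red b) ≠ 0 :=
    fun h => hb (Subtype.ext h)
  have e : (⟨coeffMap A.subtype (series hI.red b), hy⟩ : FF) = (b : FF) :=
    Subtype.ext (coeffMap_series hI.red b)
  refine (hI.spec.2 (series hI.red b) hy hyk hne D (fun P => ?_) v).trans rfl
  rw [hD P, e]

theorem FibreInputs.exists_divisor (hI : FibreInputs A N r) (b : chart A N)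
    (hb : chartRed hI.red b ≠ 0) :
    ∃ D : Divisor Qbar (FF), ∀ P, D P = P.ord (b : FF) := by
  have := hI.hpd
  have hb' : (b : FF) ≠ 0 := fun h => hb (by rw [show b = 0 from Subtype.ext h, map_zero])
  obtain ⟨D, hD, -⟩ := HasPrincipalDivisors.exists_divisor (K := Qbar) (b : FF) hb'
  exact ⟨D, hD⟩

/-- Every integral principal divisor is a difference of divisors of chart elements. -/
theorem FibreInputs.exists_decomp (hI : FibreInputs A N r) {D : Divisor Qbar (FF)}
    (hD : D ∈ integralPrincipalDivisors A (IsLocalRing.residue A) N) :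
    ∃ (b c : chart A N) (Db Dc : Divisor Qbar (FF)) (f : FK),
      chartRed hI.red b ≠ 0 ∧ chartRed hI.red c ≠ 0 ∧ f ≠ 0 ∧
      (∀ P, Db P = P.ord (b : FF)) ∧ (∀ P, Dc P = P.ord (c : FF)) ∧ D = Db - Dc ∧
      f * chartRed hI.red c = chartRed hI.red b ∧
      ∀ v : Place kA (FK), Finsupp.mapDomain r D v = v.ord f := by
  obtain ⟨y, hy, hyk, hne, hDy⟩ := hD
  obtain ⟨b, c, hc, hb, hxc, hred⟩ :=
    exists_chart_quotient hI.red hI.equations (x := ⟨_, hy⟩) rfl hne
  obtain ⟨Db, hDb⟩ := hI.exists_divisor b hb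
  obtain ⟨Dc, hDc⟩ := hI.exists_divisor c hc
  have hc' : (c : FF) ≠ 0 := fun h => hc (by rw [show c = 0 from Subtype.ext h, map_zero])
  have hx : (⟨coeffMap A.subtype y, hy⟩ : FF) ≠ 0 := fun h => hb (by
    rw [h, zero_mul] at hxc
    rw [show b = 0 from Subtype.ext hxc.symm, map_zero])
  refine ⟨b, c, Db, Dc, ⟨_, hyk⟩, hb, hc, fun h => hne (congrArg Subtype.val h), hDb, hDc, ?_,
    Subtype.ext hred.symm, fun v => hI.spec.2 y hy hyk hne D hDy v⟩
  ext P
  have hm := Place.ord_mul P hx hc'
  rw [hxc] at hm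
  rw [Finsupp.sub_apply, hDb, hDc, hm, hDy P]
  ring

variable [NeZero N] {q : ℕ} [NeZero q] [HasPrincipalDivisors Qbar (modularFunctionFieldBar (N * q))]
  (hα : HeckeAlphaBarIntegral Qbar N q) (hβ : HeckeBetaBarIntegral Qbar N q)

theorem finite_divisorExpansionsC (k : Type*) [Field k] (N : ℕ) [NeZero N] :
    (divisorExpansionsC k N).Finite := by
  refine (Set.finite_range fun d : {d // d ∈ N.divisors} =>
    (haveI : NeZero d.1 := ⟨(Nat.pos_of_mem_divisors d.2).ne'⟩; qExpand k d.1 (jqModC k))).subset ?_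
  rintro x ⟨d, hd0, hd, rfl⟩
  exact ⟨⟨d, Nat.mem_divisors.mpr ⟨hd, NeZero.ne N⟩⟩, rfl⟩

theorem adjoin_preimage_eq_top (k : Type) [Field k] (N : ℕ) :
    IntermediateField.adjoin k
      ((Subtype.val : modularFunctionFieldFullC k N → LaurentSeries k) ⁻¹' divisorExpansionsC k N)
      = ⊤ := by
  apply IntermediateField.lift_injective
  rw [IntermediateField.lift_adjoin, IntermediateField.lift_top, modularFunctionFieldFullC,
    Set.image_preimage_eq_inter_range, Subtype.range_coe_subtype]
  congr 1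
  exact Set.inter_eq_left.mpr fun x hx => IntermediateField.subset_adjoin k _ hx

theorem ord_div {K F : Type*} [Field K] [Field F] [Algebra K F] (v : Place K F) {b c : F}
    (hb : b ≠ 0) (hc : c ≠ 0) : v.ord (b / c) = v.ord b - v.ord c := by
  rw [div_eq_mul_inv, v.ord_mul hb (inv_ne_zero hc), v.ord_inv]
  ring

theorem isSeparable_of_finite {F F' : Type*} [Field F] [Field F'] [CharZero F] [Algebra F F']
    [Module.Finite F F'] : Algebra.IsSeparable F F' := by
  have : Algebra.IsAlgebraic F F' := Algebra.IsAlgebraic.of_finite F F'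
  exact Algebra.IsAlgebraic.isSeparable_of_perfectField

omit [NeZero N] in
theorem charZero_bar : CharZero (modularFunctionFieldBar N) :=
  charZero_of_injective_algebraMap (algebraMap Qbar (modularFunctionFieldBar N)).injective

omit [HasPrincipalDivisors Qbar ↥(modularFunctionFieldBar (N * q))] in
theorem FibreInputs.exists_normRedData (hI : FibreInputs A N r)
    (hfin : FiniteAlong Qbar (heckeAlphaBar Qbar N q)) {ℓ : ℕ} (hℓ : ℓ.Prime)
    (hA : A.LiesOverPrime ℓ) :
    Nonempty (NormRedData (heckeAlphaBar Qbar N q).toRingHom (heckeBetaBar Qbar N q).toRingHom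
      (chart A N) (chartRed hI.red) (normRedHyp hI.red q hI.equations hℓ hA)) := by
  let := (heckeAlphaBar Qbar N q).toRingHom.toAlgebra
  have := charZero_bar (N := N)
  have : Module.Finite (modularFunctionFieldBar N) (modularFunctionFieldBar (N * q)) := hfin
  exact exists_normRed _ hfin isSeparable_of_finite

theorem NormRedData.red_norm_beta_ne_zero {F F' K : Type} [Field F] [Field F'] [Field K]
    {α β : F →+* F'} {B : Subring F} {red : B →+* K} {H : NormRedHyp α β B red}
    (d : NormRedData α β B red H) {b : B} (hb : red b ≠ 0) :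
    red ⟨_, d.norm_mem (betaInt H b)⟩ ≠ 0 ∧
      d.ι (red ⟨_, d.norm_mem (betaInt H b)⟩) = ∏ s, d.φ s (red b) := by
  have h : d.ι (red ⟨_, d.norm_mem (betaInt H b)⟩) = ∏ s, d.φ s (red b) :=
    (d.norm_red _).trans (Finset.prod_congr rfl fun s _ => d.ψ_beta s b)
  refine ⟨fun h0 => ?_, h⟩
  rw [h0, map_zero] at h
  obtain ⟨s, -, hs⟩ := Finset.prod_eq_zero_iff.mp h.symm
  exact hb ((d.φ s).injective (hs.trans (map_zero _).symm))

theorem NormRedData.exists_prod_eq {F F' K : Type} [Field F] [Field F'] [Field K]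
    {α β : F →+* F'} {B : Subring F} {red : B →+* K} {H : NormRedHyp α β B red}
    (d : NormRedData α β B red H) {f : K} (hf : f ≠ 0) :
    ∃ g : K, g ≠ 0 ∧ d.ι g = ∏ s, d.φ s f := by
  obtain ⟨a, b, hb, he⟩ := H.frac f
  have ha : red a ≠ 0 := he ▸ mul_ne_zero hf hb
  obtain ⟨ha0, ha1⟩ := d.red_norm_beta_ne_zero ha
  obtain ⟨hb0, hb1⟩ := d.red_norm_beta_ne_zero hb
  refine ⟨red ⟨_, d.norm_mem (betaInt H a)⟩ / red ⟨_, d.norm_mem (betaInt H b)⟩,
    div_ne_zero ha0 hb0, ?_⟩
  rw [map_div₀, ha1, hb1, div_eq_iff (Finset.prod_ne_zero_iff.mpr fun s _ =>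
    (map_ne_zero (d.φ s)).mpr hb), ← Finset.prod_mul_distrib]
  simp only [← map_mul, he]

theorem NormRedData.isIntegralElem_of_red {F F' K : Type} [Field F] [Field F'] [Field K]
    {α β : F →+* F'} {B : Subring F} {red : B →+* K} {H : NormRedHyp α β B red}
    (d : NormRedData α β B red H) (u w : K →+* d.E)
    (h : ∀ b, u.IsIntegralElem (w (red b))) (x : K) : u.IsIntegralElem (w x) := by
  obtain ⟨a, b, hb, he⟩ := H.frac x
  rw [(eq_div_iff hb).mpr he, map_div₀, div_eq_mul_inv]
  exact RingHom.IsIntegralElem.mul _ (h a) (isIntegralElem_inv (h b))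

theorem NormRedData.φ_integral {F F' K : Type} [Field F] [Field F'] [Field K]
    {α β : F →+* F'} {B : Subring F} {red : B →+* K} {H : NormRedHyp α β B red}
    (d : NormRedData α β B red H) (s : d.S) (x : K) : d.ι.IsIntegralElem (d.φ s x) :=
  d.isIntegralElem_of_red d.ι (d.φ s)
    (fun b => by rw [← d.ψ_beta]; exact isIntegralElem_of_comp (d.ψ_integral s _)) x

theorem NormRedData.ι_integral {F F' K : Type} [Field F] [Field F'] [Field K]
    {α β : F →+* F'} {B : Subring F} {red : B →+* K} {H : NormRedHyp α β B red}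
    (d : NormRedData α β B red H) (s : d.S) (x : K) : (d.φ s).IsIntegralElem (d.ι x) :=
  d.isIntegralElem_of_red (d.φ s) d.ι
    (fun b => by rw [← d.ψ_alpha s]; exact isIntegralElem_of_comp (d.ψ_integral' s s _)) x

theorem NormRedData.φ_integral' {F F' K : Type} [Field F] [Field F'] [Field K]
    {α β : F →+* F'} {B : Subring F} {red : B →+* K} {H : NormRedHyp α β B red}
    (d : NormRedData α β B red H) (s t : d.S) (x : K) :
    (d.φ s).IsIntegralElem (d.φ t x) :=
  d.isIntegralElem_of_red (d.φ s) (d.φ t)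
    (fun b => by rw [← d.ψ_beta]; exact isIntegralElem_of_comp (d.ψ_integral' s t _)) x

theorem NormRedData.φ_algebraMap {F F' K k : Type} [Field F] [Field F'] [Field K] [Field k]
    [Algebra k K] {α β : F →+* F'} {B : Subring F} {red : B →+* K} {H : NormRedHyp α β B red}
    (d : NormRedData α β B red H)
    (hc : ∀ a : k, ∃ c : B, α c = β c ∧ red c = algebraMap k K a) (s : d.S) (a : k) :
    d.φ s (algebraMap k K a) = d.ι (algebraMap k K a) := by
  obtain ⟨c, hc1, hc2⟩ := hc a
  rw [← hc2]
  exact d.φ_const s c hc1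

theorem FibreInputs.mapDomain_hecke_chart (hI : FibreInputs A N r)
    {H : NormRedHyp (heckeAlphaBar Qbar N q).toRingHom (heckeBetaBar Qbar N q).toRingHom
      (chart A N) (chartRed hI.red)}
    (d : NormRedData _ _ _ _ H) (hfin : FiniteAlong Qbar (heckeAlphaBar Qbar N q))
    (hN : NormFormulaAlong Qbar (heckeAlphaBar Qbar N q) hfin)
    (b : chart A N) (hb : chartRed hI.red b ≠ 0)
    {D : Divisor Qbar (FF)} (hD : ∀ P, D P = P.ord (b : FF)) (v : Place kA (FK)) :
    Finsupp.mapDomain r (heckeDivBar hα hβ D) v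
      = v.ord (chartRed hI.red ⟨_, d.norm_mem (betaInt H b)⟩) := by
  have hb' : (b : FF) ≠ 0 := fun h => hb (by rw [show b = 0 from Subtype.ext h, map_zero])
  exact hI.mapDomain_chart _ (d.red_norm_beta_ne_zero hb).1
    (fun P => correspondence_apply_eq_ord _ _ hβ hα hfin hN hb' hD P) v

/-- On integral principal divisors, reduction turns the Hecke correspondence into the product
of the conjugate embeddings. -/
theorem FibreInputs.mapDomain_hecke_principal (hI : FibreInputs A N r)
    {H : NormRedHyp (heckeAlphaBar Qbar N q).toRingHom (heckeBetaBar Qbar N q).toRingHom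
      (chart A N) (chartRed hI.red)}
    (d : NormRedData _ _ _ _ H) (hfin : FiniteAlong Qbar (heckeAlphaBar Qbar N q))
    (hN : NormFormulaAlong Qbar (heckeAlphaBar Qbar N q) hfin)
    {D : Divisor Qbar (FF)} (hD : D ∈ integralPrincipalDivisors A (IsLocalRing.residue A) N) :
    ∃ f g : FK, f ≠ 0 ∧ g ≠ 0 ∧ d.ι g = ∏ s, d.φ s f ∧
      (∀ v : Place kA (FK), Finsupp.mapDomain r D v = v.ord f) ∧
      ∀ v : Place kA (FK), Finsupp.mapDomain r (heckeDivBar hα hβ D) v = v.ord g := by
  obtain ⟨b, c, Db, Dc, f, hb, hc, hf, hDb, hDc, rfl, hfc, hrD⟩ := hI.exists_decomp hD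
  obtain ⟨hb0, hb1⟩ := d.red_norm_beta_ne_zero hb
  obtain ⟨hc0, hc1⟩ := d.red_norm_beta_ne_zero hc
  refine ⟨f, _, hf, div_ne_zero hb0 hc0, ?_, hrD, fun v => ?_⟩
  · rw [map_div₀, hb1, hc1, div_eq_iff (Finset.prod_ne_zero_iff.mpr fun s _ =>
      (map_ne_zero (d.φ s)).mpr hc), ← Finset.prod_mul_distrib]
    simp only [← map_mul, hfc]
  · rw [map_sub, Finsupp.mapDomain_sub, Finsupp.sub_apply,
      hI.mapDomain_hecke_chart hα hβ d hfin hN b hb hDb v,
      hI.mapDomain_hecke_chart hα hβ d hfin hN c hc hDc v,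
      ← ord_div v hb0 hc0]

variable (r) in
/-- `D ↦ (r_* T D)(v)`. -/
def redHeckeAt (v : Place kA (FK)) : Divisor Qbar (FF) →+ ℤ :=
  AddMonoidHom.comp (Finsupp.applyAddHom v : Divisor kA (FK) →+ ℤ)
    (AddMonoidHom.comp (Finsupp.mapDomain.addMonoidHom r : Divisor Qbar (FF) →+ Divisor kA (FK))
      (heckeDivBar hα hβ))

theorem FibreInputs.abs_redHeckeAt_single_le (hI : FibreInputs A N r)
    (hFI : FundamentalIdentityAlong Qbar (heckeBetaBar Qbar N q) hβ) (v : Place kA (FK))
    (P : Place Qbar (FF)) :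
    |redHeckeAt r hα hβ v (Finsupp.single P 1)| ≤ finrankAlong Qbar (heckeBetaBar Qbar N q) := by
  have hT : ∀ Q, 0 ≤ heckeDivBar hα hβ (Finsupp.single P 1) Q :=
    correspondence_single_nonneg _ _ hβ hα P
  have hdeg : ∀ Q, (r Q).deg = Q.deg := hI.spec.1
  show |Finsupp.mapDomain r (heckeDivBar hα hβ (Finsupp.single P 1)) v| ≤ _
  rw [abs_of_nonneg (mapDomain_apply_nonneg r hT v)]
  refine (apply_le_degree hI.degSp (mapDomain_apply_nonneg r hT) v).trans (le_of_eq ?_)
  rw [degree_mapDomain_of_deg_eq hdeg]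
  exact degree_correspondence_single _ _ hβ hα hFI P (hI.degGen P)

/-- The reduced Hecke transform of a divisor of degree zero reducing to that of `f` is the divisor
of any `g` with `ι g = ∏ φ f`. -/
theorem FibreInputs.mapDomain_hecke_eq (hI : FibreInputs A N r)
    {H : NormRedHyp (heckeAlphaBar Qbar N q).toRingHom (heckeBetaBar Qbar N q).toRingHom
      (chart A N) (chartRed hI.red)}
    (d : NormRedData _ _ _ _ H)
    (hFI : FundamentalIdentityAlong Qbar (heckeBetaBar Qbar N q) hβ)
    (hfin : FiniteAlong Qbar (heckeAlphaBar Qbar N q))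
    (hN : NormFormulaAlong Qbar (heckeAlphaBar Qbar N q) hfin)
    {D : Divisor Qbar (FF)} (hD : D ∈ Divisor.degZero (K := Qbar) (F := FF))
    {f g : FK} (hf : f ≠ 0) (hDf : ∀ v : Place kA (FK), Finsupp.mapDomain r D v = v.ord f)
    (hgf : d.ι g = ∏ s, d.φ s f) (v : Place kA (FK)) :
    Finsupp.mapDomain r (heckeDivBar hα hβ D) v = v.ord g := by
  have hfinG := finite_divisorExpansionsC kA N
  have hc₀ : ∀ a : kA, ∃ c : chart A N, (heckeAlphaBar Qbar N q).toRingHom (c : FF)
      = (heckeBetaBar Qbar N q).toRingHom (c : FF) ∧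
      chartRed hI.red c = algebraMap kA (FK) a := fun a => by
    obtain ⟨a, rfl⟩ := IsLocalRing.residue_surjective a
    exact ⟨chartC A a, ((heckeAlphaBar Qbar N q).commutes _).trans
      ((heckeBetaBar Qbar N q).commutes _).symm, chartRed_chartC hI.red a⟩
  obtain ⟨e, he, Λ, C, hΛ, hΛeq⟩ := exists_linear_ord hI.lift d.ι d.φ (d.φ_algebraMap hc₀)
    ((Subtype.val : FK → LaurentSeries kA) ⁻¹' divisorExpansionsC kA N)
    (hfinG.preimage Subtype.val_injective.injOn)
    (adjoin_preimage_eq_top kA N)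
    d.φ_integral d.ι_integral d.φ_integral' v
  have h0 : ((e • redHeckeAt r hα hβ v) - Λ.comp (Finsupp.mapDomain.addMonoidHom r)) D = 0 := by
    refine eq_zero_of_bounded hI.degGen hI.bounded _ (vanish_on_principal hI.gen _ ?_)
      (|e| * finrankAlong Qbar (heckeBetaBar Qbar N q) + C) (fun P => ?_) hD
    · intro E hE
      obtain ⟨f', g', hf', -, hgf', hE1, hE2⟩ :=
        hI.mapDomain_hecke_principal hα hβ d hfin hN hE
      show e * Finsupp.mapDomain r (heckeDivBar hα hβ E) v - Λ (Finsupp.mapDomain r E) = 0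
      rw [hE2, hΛeq f' g' _ hf' hE1 hgf', sub_self]
    · show |e * redHeckeAt r hα hβ v (Finsupp.single P 1)
        - Λ (Finsupp.mapDomain r (Finsupp.single P 1))| ≤ _
      refine (abs_sub _ _).trans (add_le_add ?_ ?_)
      · rw [abs_mul]
        exact mul_le_mul_of_nonneg_left (hI.abs_redHeckeAt_single_le hα hβ hFI v P) (abs_nonneg e)
      · rw [Finsupp.mapDomain_single]
        exact hΛ _
  change e * Finsupp.mapDomain r (heckeDivBar hα hβ D) v - Λ (Finsupp.mapDomain r D) = 0 at h0
  rw [← hΛeq f g _ hf hDf hgf, sub_eq_zero] at h0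
  exact mul_left_cancel₀ he.ne' h0

/-- If the reduction of a degree zero divisor is principal, so is that of its Hecke transform. -/
theorem FibreInputs.mapDomain_hecke_isPrincipal (hI : FibreInputs A N r)
    (hFI : FundamentalIdentityAlong Qbar (heckeBetaBar Qbar N q) hβ)
    (hfin : FiniteAlong Qbar (heckeAlphaBar Qbar N q))
    (hN : NormFormulaAlong Qbar (heckeAlphaBar Qbar N q) hfin)
    {D : Divisor Qbar (FF)} (hD : D ∈ Divisor.degZero (K := Qbar) (F := FF))
    (hp : Divisor.IsPrincipal (Finsupp.mapDomain r D)) :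
    Divisor.IsPrincipal (Finsupp.mapDomain r (heckeDivBar hα hβ D)) := by
  obtain ⟨ℓ, hℓ, hA⟩ := hI.prime
  obtain ⟨d⟩ := hI.exists_normRedData hfin hℓ hA
  obtain ⟨f, hf, hDf⟩ := hp
  obtain ⟨g, hg, hgf⟩ := d.exists_prod_eq hf
  exact ⟨g, hg, hI.mapDomain_hecke_eq hα hβ d hFI hfin hN hD hf hDf hgf⟩

end

end FLTAgent.CongruenceRel
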