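import Fermat.Prelude.Def_ModularCurve_X0ModL
import Fermat.Prelude.Def_AlgebraicCurve_BaseChangeGalois
import Fermat.Agent.CongruenceRel.Instances

set_option autoImplicit false

/-!
# Coefficientwise automorphisms of the special fibre

`specialAut N ρ` is the semilinear automorphism of the special-fibre function field given by an
automorphism `ρ` of the constants acting on coefficients. It carries the residual Galois action in
`Galois`.
-/

noncomputable section

namespace FLTAgent.CongruenceRel

open ModularCurve AlgebraicCurve

variable {k : Type} [Field k]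

theorem coeffMap_mem_fullC (N : ℕ) (ρ : k →+* k) {x : LaurentSeries k}
    (hx : x ∈ modularFunctionFieldFullC k N) :
    coeffMap ρ x ∈ modularFunctionFieldFullC k N := by
  induction hx using IntermediateField.adjoin_induction with
  | mem y hy =>
    obtain ⟨d, hd0, hd, rfl⟩ := hy
    rw [coeffMap_qExpand, coeffMap_jqModC]
    exact jqModCd_mem_full k N hd
  | algebraMap c =>
    rw [coeffMap_algebraMap]
    exact (modularFunctionFieldFullC k N).algebraMap_mem _
  | add a b _ _ ha hb => rw [map_add]; exact add_mem ha hb
  | inv a _ ha => rw [map_inv₀]; exact inv_mem ha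
  | mul a b _ _ ha hb => rw [map_mul]; exact mul_mem ha hb

theorem coeffMap_comp_symm {F : Type} [Field F] (ρ : F ≃+* F) (x : LaurentSeries F) :
    coeffMap (ρ.symm : F →+* F) (coeffMap (ρ : F →+* F) x) = x := by
  rw [coeffMap_coeffMap, coeffMap_congr (g := RingHom.id F)
    (RingHom.ext fun a => ρ.symm_apply_apply a) x, coeffMap_id]

/-- A field automorphism of the constants acting on coefficients. -/
def specialAut (N : ℕ) (ρ : k ≃+* k) : SemilinearAut k (modularFunctionFieldFullC k N) :=
  ⟨({ toFun := fun x => ⟨coeffMap (ρ : k →+* k) (x : LaurentSeries k), coeffMap_mem_fullC N _ x.2⟩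
      invFun := fun x => ⟨coeffMap (ρ.symm : k →+* k) (x : LaurentSeries k),
        coeffMap_mem_fullC N _ x.2⟩
      left_inv := fun _ => Subtype.ext (coeffMap_comp_symm ρ _)
      right_inv := fun _ => Subtype.ext (coeffMap_comp_symm ρ.symm _)
      map_mul' := fun x y => Subtype.ext
        (map_mul (coeffMap (ρ : k →+* k)) (x : LaurentSeries k) (y : LaurentSeries k))
      map_add' := fun x y => Subtype.ext
        (map_add (coeffMap (ρ : k →+* k)) (x : LaurentSeries k) (y : LaurentSeries k)) }, ρ),
    fun a => Subtype.ext (coeffMap_algebraMap (ρ : k →+* k) a)⟩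

theorem coe_specialAut_smul (N : ℕ) (ρ : k ≃+* k) (x : modularFunctionFieldFullC k N) :
    ((specialAut N ρ • x : modularFunctionFieldFullC k N) : LaurentSeries k)
      = coeffMap (ρ : k →+* k) (x : LaurentSeries k) := rfl

theorem coe_specialAut_inv_smul (N : ℕ) (ρ : k ≃+* k) (x : modularFunctionFieldFullC k N) :
    (((specialAut N ρ)⁻¹ • x : modularFunctionFieldFullC k N) : LaurentSeries k)
      = coeffMap (ρ.symm : k →+* k) (x : LaurentSeries k) := rfl

/-- The identity of the constants acts trivially on the function field. -/
theorem specialAut_refl (N : ℕ) : specialAut N (RingEquiv.refl k) = 1 :=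
  Subtype.ext
    (Prod.ext (RingEquiv.ext fun x => Subtype.ext (coeffMap_id (x : LaurentSeries k))) rfl)

end FLTAgent.CongruenceRel
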