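import Fermat.Agent.HeckeJacobian.HeckeCommute
import Fermat.Agent.CongruenceRel.Hecke
import Fermat.Agent.CongruenceRel.SpecialAut

set_option autoImplicit false

/-!
# Reduction commutes with the decomposition group

An automorphism of `Qbar` preserving `A` acts on `A`-integral series compatibly with its residual
action. On divisors of degree zero, reduction intertwines the two
(`FibreInputs.mapDomain_galois`), which gives the Galois equivariance used in `Assembly`.
-/

noncomputable section

namespace FLTAgent.CongruenceRel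

open ModularCurve AlgebraicCurve FLTAgent.GoodReduction

local notation "Qbar" => AlgebraicClosure ℚ

theorem smul_single_nonneg {K F : Type*} [Field K] [Field F] [Algebra K F]
    (g : SemilinearAut K F) (P v : Place K F) :
    0 ≤ (g • Finsupp.single P (1 : ℤ)) v ∧ (g • Finsupp.single P (1 : ℤ)) v ≤ 1 := by
  classical
  rw [SemilinearAut.smul_single, Finsupp.single_apply]
  split <;> simp

section Generic

variable {K F k G : Type} [Field K] [Field F] [Algebra K F] [Field k] [Field G] [Algebra k G]

theorem mapDomain_smul_of_reduces (r : Place K F → Place k G) (g : SemilinearAut K F)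
    (g' : SemilinearAut k G) {D : Divisor K F} {f : F} {f' : G}
    (hD : ∀ v : Place K F, D v = v.ord f) (hf : ∀ v : Place k G, Finsupp.mapDomain r D v = v.ord f')
    (hgf : ∀ E : Divisor K F, (∀ v : Place K F, E v = v.ord (g • f)) →
      ∀ v : Place k G, Finsupp.mapDomain r E v = v.ord (g' • f'))
    (v : Place k G) :
    Finsupp.mapDomain r (g • D) v = (g' • Finsupp.mapDomain r D) v := by
  rw [hgf _ (fun w => HeckeJacobian.smul_apply_principal g hD w) v,
    HeckeJacobian.smul_apply_principal g' hf v]

theorem mapDomain_smul_eq (r : Place K F → Place k G) (g : SemilinearAut K F)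
    (g' : SemilinearAut k G) (hdeg : ∀ P : Place K F, P.deg = 1) (hRR : BoundedEffective K F)
    {S : Set (Divisor K F)} (hgen : Divisor.principal (K := K) (F := F) ≤ AddSubgroup.closure S)
    (hS : ∀ D ∈ S, ∀ v : Place k G, Finsupp.mapDomain r (g • D) v = (g' • Finsupp.mapDomain r D) v)
    {D : Divisor K F} (hD : D ∈ Divisor.degZero (K := K) (F := F)) :
    Finsupp.mapDomain r (g • D) = g' • Finsupp.mapDomain r D := by
  ext v
  let δ : Divisor K F →+ ℤ :=
    { toFun := fun E => Finsupp.mapDomain r (g • E) v - (g' • Finsupp.mapDomain r E) v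
      map_zero' := by simp
      map_add' := fun E E' => by
        simp only [smul_add, Finsupp.mapDomain_add, Finsupp.add_apply]
        ring }
  have h : δ D = 0 := by
    refine eq_zero_of_bounded hdeg hRR δ
      (vanish_on_principal hgen δ fun E hE => sub_eq_zero.mpr (hS E hE v)) 2 (fun P => ?_) hD
    show |Finsupp.mapDomain r (g • Finsupp.single P (1 : ℤ)) v
        - (g' • Finsupp.mapDomain r (Finsupp.single P 1)) v| ≤ 2
    rw [SemilinearAut.smul_single, Finsupp.mapDomain_single, Finsupp.mapDomain_single]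
    obtain ⟨h1, h2⟩ := smul_single_nonneg (1 : SemilinearAut k G) (r (g • P)) v
    rw [one_smul] at h1 h2
    obtain ⟨h3, h4⟩ := smul_single_nonneg g' (r P) v
    rw [abs_le]
    omega
  exact sub_eq_zero.mp h

end Generic

section

variable {A : ValuationSubring Qbar} {N : ℕ}

local notation "FF" => modularFunctionFieldBar N
local notation "kA" => IsLocalRing.ResidueField A
local notation "FK" => modularFunctionFieldFullC (IsLocalRing.ResidueField A) N

variable {r : Place Qbar (modularFunctionFieldBar N) → Place (IsLocalRing.ResidueField A)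
  (modularFunctionFieldFullC (IsLocalRing.ResidueField A) N)}

/-- The action on series with coefficients in `A` of an automorphism preserving `A`. -/
def restrictAut (σ : Qbar ≃ₐ[ℚ] Qbar) (hσ : ∀ x ∈ A, σ x ∈ A) : A →+* A :=
  ((σ : Qbar →+* Qbar).comp A.subtype).codRestrict A fun x => hσ x x.2

theorem coeffMap_restrictAut (σ : Qbar ≃ₐ[ℚ] Qbar) (hσ : ∀ x ∈ A, σ x ∈ A) (y : LaurentSeries A) :
    coeffMap A.subtype (coeffMap (restrictAut σ hσ) y)
      = coeffMap (σ : Qbar →+* Qbar) (coeffMap A.subtype y) := by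
  rw [coeffMap_coeffMap, coeffMap_coeffMap]
  exact coeffMap_congr (RingHom.ext fun _ => rfl) y

theorem residue_coeffMap_restrictAut (σ : Qbar ≃ₐ[ℚ] Qbar) (hσ : ∀ x ∈ A, σ x ∈ A)
    (ρ : IsLocalRing.ResidueField A ≃+* IsLocalRing.ResidueField A)
    (hρ : ∀ a : A, IsLocalRing.residue A (restrictAut σ hσ a) = ρ (IsLocalRing.residue A a))
    (y : LaurentSeries A) :
    coeffMap (IsLocalRing.residue A) (coeffMap (restrictAut σ hσ) y)
      = coeffMap (ρ : kA →+* kA) (coeffMap (IsLocalRing.residue A) y) := by
  rw [coeffMap_coeffMap, coeffMap_coeffMap]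
  exact coeffMap_congr (RingHom.ext hρ) y

theorem FibreInputs.mapDomain_galois_principal (hI : FibreInputs A N r)
    (σ : Qbar ≃ₐ[ℚ] Qbar) (hσ : ∀ x ∈ A, σ x ∈ A)
    (ρ : IsLocalRing.ResidueField A ≃+* IsLocalRing.ResidueField A)
    (hρ : ∀ a : A, IsLocalRing.residue A (restrictAut σ hσ a) = ρ (IsLocalRing.residue A a))
    {D : Divisor Qbar (FF)} (hD : D ∈ integralPrincipalDivisors A (IsLocalRing.residue A) N)
    (v : Place kA (FK)) :
    Finsupp.mapDomain r (arithmeticGalois (modularFunctionFieldFull N) σ • D) v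
      = (specialAut N ρ • Finsupp.mapDomain r D) v := by
  obtain ⟨y, hy, hyk, hne, hDy⟩ := hD
  refine mapDomain_smul_of_reduces r _ _ hDy (hI.spec.2 y hy hyk hne D hDy) (fun E hE => ?_) v
  have hcomp := coeffMap_restrictAut σ hσ y
  have hred := residue_coeffMap_restrictAut σ hσ ρ hρ y
  have hy' : coeffMap A.subtype (coeffMap (restrictAut σ hσ) y)
      ∈ laurentBaseChange Qbar (modularFunctionFieldFull N) :=
    hcomp ▸ coeffMap_mem_laurentBaseChange σ hy
  have hyk' : coeffMap (IsLocalRing.residue A) (coeffMap (restrictAut σ hσ) y) ∈ FK :=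
    hred ▸ coeffMap_mem_fullC N _ hyk
  have hne' : coeffMap (IsLocalRing.residue A) (coeffMap (restrictAut σ hσ) y) ≠ 0 :=
    fun h => hne (coeffMap_injective ρ.injective ((hred.symm.trans h).trans (map_zero _).symm))
  have e1 : (⟨_, hy'⟩ : FF) = arithmeticGalois (modularFunctionFieldFull N) σ • (⟨_, hy⟩ : FF) :=
    Subtype.ext (hcomp.trans (coe_arithmeticGalois_smul _ σ ⟨_, hy⟩).symm)
  have e2 : (⟨_, hyk'⟩ : FK) = specialAut N ρ • (⟨_, hyk⟩ : FK) :=
    Subtype.ext (hred.trans (coe_specialAut_smul N ρ ⟨_, hyk⟩).symm)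
  intro w
  exact (hI.spec.2 _ hy' hyk' hne' E (fun P => (hE P).trans (congrArg P.ord e1.symm)) w).trans
    (congrArg w.ord e2)

/-- On divisors of degree zero, reduction intertwines `σ` with its residual action. -/
theorem FibreInputs.mapDomain_galois (hI : FibreInputs A N r)
    (σ : Qbar ≃ₐ[ℚ] Qbar) (hσ : ∀ x ∈ A, σ x ∈ A)
    (ρ : IsLocalRing.ResidueField A ≃+* IsLocalRing.ResidueField A)
    (hρ : ∀ a : A, IsLocalRing.residue A (restrictAut σ hσ a) = ρ (IsLocalRing.residue A a))
    {D : Divisor Qbar (FF)} (hD : D ∈ Divisor.degZero (K := Qbar) (F := FF)) :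
    Finsupp.mapDomain r (arithmeticGalois (modularFunctionFieldFull N) σ • D)
      = specialAut N ρ • Finsupp.mapDomain r D :=
  mapDomain_smul_eq r _ _ hI.degGen hI.bounded hI.gen
    (fun _ hE v => hI.mapDomain_galois_principal σ hσ ρ hρ hE v) hD

end

end FLTAgent.CongruenceRel
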