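import Fermat.Agent.CongruenceRel.EllCase
import Fermat.Agent.GoodReduction.X0
import Fermat.Agent.Deuring.ModL
import Fermat.Agent.FFRiemannRoch.FunctionField
import Fermat.Agent.HeckeJacobian.HeckeCommute

set_option autoImplicit false

/-!
# The hypotheses of the congruence hold

Good reduction of `X₀(N)`, Riemann–Roch and lifting of places supply the structure `FibreInputs` at
a place of good reduction (`fibreInputs`), so the congruence of `Assembly` is unconditional.
-/

noncomputable section

namespace FLTAgent.CongruenceRel

open ModularCurve AlgebraicCurve FLTAgent.GoodReduction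

local notation "Qbar" => AlgebraicClosure ℚ

theorem boundedEffective_of_isFunctionField {K F : Type} [Field K] [Field F] [Algebra K F]
    [IsAlgClosed K] [FFBasic.IsFunctionField K F] : BoundedEffective K F := by
  obtain ⟨P₀⟩ : Nonempty (Place K F) := inferInstance
  refine ⟨P₀, genusFF K F, fun D hD => ?_⟩
  obtain ⟨E, hE, hdeg, hp⟩ :=
    FFRiemannRoch.exists_effective_sub_single P₀ (Divisor.mem_degZero.mp hD)
  refine ⟨E, hE, hdeg, ?_⟩
  have e : E - (genusFF K F : ℤ) • Finsupp.single P₀ 1 - D
      = -(D - (E - Finsupp.single P₀ (genusFF K F : ℤ))) := by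
    rw [Finsupp.smul_single_one]; abel
  rw [e]
  exact neg_mem hp

theorem placesLift_of_isFunctionField {k K : Type} [Field k] [Field K] [Algebra k K]
    [FFBasic.IsFunctionField k K] : PlacesLift k K := by
  intro M _ _ i hi hfin v
  let := algebraAlong i
  have := isScalarTower_along i
  have : Module.Finite K M := hfin
  have : FFBasic.IsFunctionField k M := FFBasic.IsFunctionField.of_finite_extension (F := K)
  exact FFBasic.exists_restrictAlong_eq i hi v

theorem isFunctionField_special {A : ValuationSubring Qbar} {N : ℕ}
    (H : X0GoodReduction A (IsLocalRing.residue A) N) :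
    FFBasic.IsFunctionField (IsLocalRing.ResidueField A)
      (modularFunctionFieldFullC (IsLocalRing.ResidueField A) N) :=
  Deuring.Modular.isFunctionFieldk H

/-- The hypotheses at a place of good reduction. -/
theorem fibreInputs (N : ℕ) [NeZero N] {ℓ : ℕ} (hℓ : ℓ.Prime) (hℓN : ¬ ℓ ∣ N)
    (A : ValuationSubring Qbar) (hA : A.LiesOverPrime ℓ) :
    ∃ h : ReductionInputsModL A N, FibreInputs A N (placeReductionModL h) := by
  have : Fact ℓ.Prime := ⟨hℓ⟩
  have H := x0GoodReduction N hℓ hℓN A hA
  have h := Deuring.Modular.reductionInputsModL H
  have := isFunctionField_special H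
  exact ⟨h,
    { red := H
      spec := isPlaceReductionModL_placeReductionModL h
      gen := h.choose_spec.2
      equations := modularEquations
      prime := ⟨ℓ, hℓ, hA⟩
      degGen := fun P => FFBasic.place_deg_eq_one P
      degSp := fun P => FFBasic.place_deg_eq_one P
      bounded := boundedEffective_of_isFunctionField
      lift := placesLift_of_isFunctionField
      hpd := inferInstance }⟩

end FLTAgent.CongruenceRel
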