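import Fermat.Agent.CongruenceRel.Setup
import Fermat.Agent.FFBasic.AdjoinFrac

set_option autoImplicit false

/-!
# The reduced chart is a one-dimensional domain with fraction field `F̄`

`chartJ` is `p ↦ p(j)` into the chart, which is integral over its image. `exists_jline` and
`chartRed_frac` give the two properties of the reduced chart named in the title.
-/

noncomputable section

namespace FLTAgent.CongruenceRel

open ModularCurve AlgebraicCurve Polynomial FLTAgent.GoodReduction

local notation "Qbar" => AlgebraicClosure ℚ

section Chart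

variable (A : ValuationSubring Qbar) (N : ℕ)

local notation "FF" => modularFunctionFieldBar N
local notation "kA" => IsLocalRing.ResidueField A
local notation "FK" => modularFunctionFieldFullC (IsLocalRing.ResidueField A) N

variable {A N} (hGR : X0GoodReduction A (IsLocalRing.residue A) N)

theorem jline_isMaximal {k : Type*} [Field k] {R : Type*} [CommRing R] [IsDomain R]
    (f : Polynomial k →+* R) (hf : f.IsIntegral) (P : Ideal R) (hP : P.IsPrime) (hP0 : P ≠ ⊥) :
    P.IsMaximal := by
  let := f.toAlgebra
  have : Algebra.IsIntegral (Polynomial k) R := ⟨hf⟩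
  have := hP
  refine Ideal.isMaximal_of_isIntegral_of_isMaximal_comap (R := Polynomial k) P ?_
  have : Ideal.IsPrime (P.comap (algebraMap (Polynomial k) R)) := Ideal.IsPrime.comap _
  obtain ⟨x, hx, hx0⟩ := Submodule.exists_mem_ne_zero_of_ne_bot hP0
  exact Ideal.IsPrime.isMaximal inferInstance
    (Ideal.comap_ne_bot_of_integral_mem hx0 hx (Algebra.IsIntegral.isIntegral x))

theorem jline_not_field {k : Type*} [Field k] {R : Type*} [CommRing R] [IsDomain R]
    (f : Polynomial k →+* R) (hf : f.IsIntegral) (hinj : Function.Injective f) : ¬ IsField R := by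
  intro h
  let := f.toAlgebra
  have : Algebra.IsIntegral (Polynomial k) R := ⟨hf⟩
  exact Polynomial.not_isField k (isField_of_isIntegral_of_isField hinj h)

theorem exists_jline_of {A₀ k B K : Type*} [CommRing A₀] [CommRing k] [CommRing B] [CommRing K]
    (π : A₀ →+* k) (hπ : Function.Surjective π) (red : B →+* K) (gJ : Polynomial A₀ →+* B)
    (gK : Polynomial k →+* K) (hc : red.comp gJ = gK.comp (Polynomial.mapRingHom π))
    (hint : ∀ b, gJ.IsIntegralElem b) (hinj : Function.Injective gK) :
    ∃ f : Polynomial k →+* red.range, f.IsIntegral ∧ Function.Injective f := by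
  have hmem : ∀ p, gK p ∈ red.range := fun p => by
    obtain ⟨p, rfl⟩ := Polynomial.map_surjective π hπ p
    exact ⟨gJ p, RingHom.congr_fun hc p⟩
  refine ⟨gK.codRestrict red.range hmem, fun y => ?_, fun p p' h => hinj (congrArg Subtype.val h)⟩
  obtain ⟨b, rfl⟩ := red.rangeRestrict_surjective y
  have h2 := isIntegralElem_map red.rangeRestrict (hint b)
  have h3 : red.rangeRestrict.comp gJ
      = (gK.codRestrict red.range hmem).comp (Polynomial.mapRingHom π) :=
    RingHom.ext fun x => Subtype.ext (RingHom.congr_fun hc x)
  rw [h3] at h2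
  exact isIntegralElem_of_comp h2

variable (A) in
/-- `p ↦ p(j)` in the chart. -/
def chartJ (hM : ModularEquations) : Polynomial A →+* chart A N :=
  Polynomial.eval₂RingHom (chartC A) (jgen hM 1 (one_dvd N))

theorem chartJ_C (hM : ModularEquations) (a : A) :
    chartJ A (N := N) hM (C a) = chartC A a :=
  eval₂_C _ _

theorem chartJ_X (hM : ModularEquations) :
    chartJ A (N := N) hM X = jgen hM 1 (one_dvd N) :=
  eval₂_X _ _

theorem chartJ_isIntegralElem (hM : ModularEquations) (b : chart A N) :
    (chartJ A hM).IsIntegralElem b := by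
  set v : chart A N →+* LaurentSeries Qbar :=
    (IntermediateField.val (FF)).toRingHom.comp (chart A N).subtype with hv
  refine (isIntegralElem_map_iff v (Subtype.val_injective.comp Subtype.val_injective)).mp ?_
  refine isIntegralElem_of_forall (f := (baseRing A (jqModC Qbar)).subtype) (fun r => ?_)
    (mem_chart.mp b.2)
  refine (Subring.closure_le (t := intRing (v.comp (chartJ A hM)))).mpr ?_ r.2
  rintro _ (rfl | ⟨a, rfl⟩)
  · have h := apply_mem_intRing (v.comp (chartJ A (N := N) hM)) X
    rw [RingHom.comp_apply, chartJ_X] at h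
    have e : v (jgen hM 1 (one_dvd N)) = jqModC Qbar := qExpand_one_apply _
    rwa [e] at h
  · have h := apply_mem_intRing (v.comp (chartJ A (N := N) hM)) (C a)
    rw [RingHom.comp_apply, chartJ_C] at h
    exact h

theorem exists_jline (hM : ModularEquations) :
    ∃ f : Polynomial kA →+* (chartRed hGR).range, f.IsIntegral ∧ Function.Injective f := by
  set j0 : FK := chartRed hGR (jgen hM 1 (one_dvd N)) with hj0def
  refine exists_jline_of (IsLocalRing.residue A) IsLocalRing.residue_surjective (chartRed hGR)
    (chartJ A hM) (Polynomial.aeval j0).toRingHom ?_ (chartJ_isIntegralElem hM) ?_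
  · refine Polynomial.ringHom_ext (fun a => ?_) ?_
    · rw [RingHom.comp_apply, RingHom.comp_apply, chartJ_C, chartRed_chartC, coe_mapRingHom, map_C]
      exact (Polynomial.aeval_C j0 _).symm
    · rw [RingHom.comp_apply, RingHom.comp_apply, chartJ_X, coe_mapRingHom, map_X]
      exact (Polynomial.aeval_X j0).symm
  · refine (injective_iff_map_eq_zero _).mpr fun p hp => ?_
    have hj0 : (IntermediateField.val (FK)) j0 = jqModC kA := by
      show (j0 : LaurentSeries kA) = _
      rw [hj0def, chartRed_jgen, qExpand_one_apply]
    refine aeval_jqModC_eq_zero (k := kA) (p := p) ?_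
    rw [← hj0, Polynomial.aeval_algHom_apply]
    exact (congrArg _ hp).trans (map_zero _)

theorem chartRed_frac (hM : ModularEquations) (y : FK) :
    ∃ a b : chart A N, chartRed hGR b ≠ 0 ∧ y * chartRed hGR b = chartRed hGR a := by
  obtain ⟨y, hy⟩ := y
  let f : chart A N →+* LaurentSeries kA :=
    ((FK).val : FK →+* LaurentSeries kA).comp (chartRed hGR : chart A N →+* FK)
  obtain ⟨a, b, hb, he⟩ : ∃ a b, f b ≠ 0 ∧ y * f b = f a := by
    refine FFBasic.exists_mul_eq_of_mem_adjoin f (fun c => ?_) (fun x hx => ?_) hy
    · obtain ⟨a, rfl⟩ := IsLocalRing.residue_surjective c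
      exact ⟨chartC A a, 1, by simp, by simp [f, chartRed_chartC]⟩
    · obtain ⟨d, hd0, hd, rfl⟩ := hx
      exact ⟨jgen hM d hd, 1, by simp, by simp [f, chartRed_jgen]⟩
  exact ⟨a, b, fun h0 => hb (by simp [f, h0]), Subtype.ext he⟩

end Chart

end FLTAgent.CongruenceRel
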