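import Fermat.Agent.CongruenceRel.ChartHyp
import Mathlib.RingTheory.Algebraic.Integral

set_option autoImplicit false

/-!
# Integral series in the function field are quotients of chart elements

Every element of the function field is algebraic over `Qbar[j]`. `exists_chart_quotient` writes
one whose `A`-integral expansion has nonzero reduction as a quotient of chart elements of nonzero
reduction, which is how reduction of functions is computed in `Hecke`.
-/

noncomputable section

namespace FLTAgent.CongruenceRel

open ModularCurve AlgebraicCurve Polynomial FLTAgent.GoodReduction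

local notation "Qbar" => AlgebraicClosure ℚ

/-- `Qbar[j]` inside `Qbar((q))`. -/
abbrev adjoinJ : Subalgebra Qbar (LaurentSeries Qbar) := Algebra.adjoin Qbar {jqModC Qbar}

theorem isAlgebraic_qExpand_jqModC (hM : ModularEquations) (d : ℕ) [NeZero d] :
    IsAlgebraic adjoinJ (qExpand Qbar d (jqModC Qbar)) := by
  refine IsIntegral.isAlgebraic ?_
  refine isIntegralElem_of_forall (f := evalJ Qbar)
    (g := algebraMap adjoinJ (LaurentSeries Qbar)) (fun p => ?_) (hM.fwd' d)
  have hp : evalJ Qbar p ∈ adjoinJ := by
    induction p using Polynomial.induction_on' with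
    | add p q hp hq => rw [map_add]; exact add_mem hp hq
    | monomial n a =>
      rw [← Polynomial.C_mul_X_pow_eq_monomial, map_mul, map_pow, evalJ_X, eq_intCast, map_intCast]
      exact mul_mem (intCast_mem _ a) (pow_mem (Algebra.subset_adjoin (Set.mem_singleton _)) n)
  exact RingHom.isIntegralElem_map _ (x := (⟨_, hp⟩ : adjoinJ))

theorem isAlgebraic_coeffEmb (hM : ModularEquations) (N : ℕ) {z : LaurentSeries ℚ}
    (hz : z ∈ modularFunctionFieldFull N) : IsAlgebraic adjoinJ (coeffEmb Qbar z) := by
  induction hz using IntermediateField.adjoin_induction with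
  | mem x hx =>
    obtain ⟨d, hd0, -, rfl⟩ := hx
    rw [coeffEmb_qExpand_jq]
    exact isAlgebraic_qExpand_jqModC hM d
  | algebraMap c =>
    rw [algebraMap_laurentSeries_eq_single, coeffEmb, coeffMap_single,
      ← algebraMap_laurentSeries_eq_single,
      IsScalarTower.algebraMap_apply Qbar adjoinJ (LaurentSeries Qbar)]
    exact isAlgebraic_algebraMap _
  | add x y _ _ hx hy => rw [map_add]; exact hx.add hy
  | inv x _ hx => rw [map_inv₀]; exact hx.inv
  | mul x y _ _ hx hy => rw [map_mul]; exact hx.mul hy

theorem isAlgebraic_of_mem (hM : ModularEquations) (N : ℕ) {x : LaurentSeries Qbar}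
    (hx : x ∈ modularFunctionFieldBar N) : IsAlgebraic adjoinJ x := by
  rw [mem_laurentBaseChange_iff] at hx
  induction hx using Subfield.closure_induction with
  | mem y hy =>
    rcases hy with ⟨c, rfl⟩ | ⟨z, hz, rfl⟩
    · rw [IsScalarTower.algebraMap_apply Qbar adjoinJ (LaurentSeries Qbar)]
      exact isAlgebraic_algebraMap _
    · exact isAlgebraic_coeffEmb hM N hz
  | one => exact isAlgebraic_one
  | add a b _ _ ha hb => exact ha.add hb
  | neg a _ ha => exact ha.neg
  | inv a _ ha => exact ha.inv
  | mul a b _ _ ha hb => exact ha.mul hb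

theorem exists_scale {A : ValuationSubring Qbar} {p : Polynomial Qbar} (hp : p ≠ 0) :
    ∃ (c : Qbar) (p' : Polynomial A), c ≠ 0 ∧ p'.map A.subtype = C c * p ∧
      p'.map (IsLocalRing.residue A) ≠ 0 := by
  classical
  obtain ⟨m, hm, hmax⟩ := Finset.exists_max_image p.support (fun i => A.valuation (p.coeff i))
    (Polynomial.nonempty_support_iff.mpr hp)
  have hm0 : p.coeff m ≠ 0 := Polynomial.mem_support_iff.mp hm
  have hv : A.valuation (p.coeff m) ≠ 0 := (Valuation.ne_zero_iff _).mpr hm0
  have hmem : ∀ i, (p.coeff m)⁻¹ * p.coeff i ∈ A := by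
    intro i
    rw [← A.valuation_le_one_iff, map_mul, map_inv₀]
    by_cases hi : i ∈ p.support
    · rw [inv_mul_le_one₀ (zero_lt_iff.mpr hv)]
      exact hmax i hi
    · rw [Polynomial.notMem_support_iff.mp hi, map_zero, mul_zero]
      exact zero_le
  have hsub : (↑(C (p.coeff m)⁻¹ * p).coeffs : Set Qbar) ⊆ A.toSubring := by
    intro x hx
    rw [Finset.mem_coe, Polynomial.mem_coeffs_iff] at hx
    obtain ⟨n, -, rfl⟩ := hx
    rw [Polynomial.coeff_C_mul]
    exact hmem n
  refine ⟨(p.coeff m)⁻¹, (C (p.coeff m)⁻¹ * p).toSubring A.toSubring hsub, inv_ne_zero hm0,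
    Polynomial.map_toSubring _ _ hsub, fun h => ?_⟩
  have h1 := congrArg (fun f => Polynomial.coeff f m) h
  simp only [Polynomial.coeff_map, Polynomial.coeff_zero] at h1
  rw [IsLocalRing.residue_eq_zero_iff, IsLocalRing.mem_maximalIdeal] at h1
  refine h1 ?_
  have e : ((C (p.coeff m)⁻¹ * p).toSubring A.toSubring hsub).coeff m = (1 : A) := by
    apply Subtype.ext
    rw [Polynomial.coeff_toSubring, Polynomial.coeff_C_mul, inv_mul_cancel₀ hm0]
    rfl
  rw [e]
  exact isUnit_one

section

variable (A : ValuationSubring Qbar) (N : ℕ)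

local notation "FF" => modularFunctionFieldBar N
local notation "kA" => IsLocalRing.ResidueField A
local notation "FK" => modularFunctionFieldFullC (IsLocalRing.ResidueField A) N

variable {A N} (hGR : X0GoodReduction A (IsLocalRing.residue A) N)

theorem chartIncl_chartJ (hM : ModularEquations) (p : Polynomial A) :
    chartIncl A N (chartJ A hM p) = Polynomial.aeval (jqModC Qbar) (p.map A.subtype) := by
  rw [chartJ, coe_eval₂RingHom, Polynomial.hom_eval₂, Polynomial.aeval_def, Polynomial.eval₂_map,
    show chartIncl A N (jgen hM 1 (one_dvd N)) = jqModC Qbar from qExpand_one_apply _]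
  rfl

theorem chartRed_chartJ (hM : ModularEquations) {p : Polynomial A}
    (hp : p.map (IsLocalRing.residue A) ≠ 0) : chartRed hGR (chartJ A hM p) ≠ 0 := by
  intro h
  apply hp
  refine aeval_jqModC_eq_zero ?_
  have h2 : (IntermediateField.val (FK)) (chartRed hGR (chartJ A hM p)) = 0 := by rw [h, map_zero]
  rw [chartJ, coe_eval₂RingHom, Polynomial.hom_eval₂] at h2
  have hC : (chartRed hGR).comp (chartC A)
      = (algebraMap kA (FK)).comp (IsLocalRing.residue A) :=
    RingHom.ext fun a => chartRed_chartC hGR a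
  have hj : (IntermediateField.val (FK)) (chartRed hGR (jgen hM 1 (one_dvd N))) = jqModC kA :=
    (chartRed_jgen hGR hM 1 (one_dvd N)).trans (qExpand_one_apply _)
  rw [hC, ← Polynomial.eval₂_map, ← Polynomial.aeval_def, ← Polynomial.aeval_algHom_apply, hj] at h2
  exact h2

include hGR in
theorem exists_chart_quotient (hM : ModularEquations) {y : LaurentSeries A} {x : FF}
    (hy : coeffMap A.subtype y = (x : LaurentSeries Qbar))
    (hne : coeffMap (IsLocalRing.residue A) y ≠ 0) :
    ∃ b c : chart A N, chartRed hGR c ≠ 0 ∧ chartRed hGR b ≠ 0 ∧ x * (c : FF) = (b : FF) ∧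
      (chartRed hGR b : LaurentSeries kA) =
        coeffMap (IsLocalRing.residue A) y * (chartRed hGR c : LaurentSeries kA) := by
  obtain ⟨r, hr0, hr⟩ := (isAlgebraic_of_mem hM N x.2).exists_integral_multiple
  obtain ⟨p, hp⟩ : ∃ p : Polynomial Qbar,
      Polynomial.aeval (jqModC Qbar) p = (r : LaurentSeries Qbar) := by
    have h : (r : LaurentSeries Qbar) ∈ Algebra.adjoin Qbar {jqModC Qbar} := r.2
    rw [Algebra.adjoin_singleton_eq_range_aeval] at h
    exact h
  have hp0 : p ≠ 0 := by
    rintro rfl
    exact hr0 (Subtype.ext (by rw [← hp, map_zero]; rfl))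
  obtain ⟨c₀, p', hc₀, hmap, hres⟩ := exists_scale (A := A) hp0
  set c : chart A N := chartJ A hM p'
  have hc : chartIncl A N c
      = algebraMap Qbar (LaurentSeries Qbar) c₀ * (r : LaurentSeries Qbar) := by
    rw [chartIncl_chartJ, hmap, map_mul, Polynomial.aeval_C, hp]
  have hxy : coeffMap A.subtype (y * series hGR c)
      = (((x * (c : FF)) : FF) : LaurentSeries Qbar) := by
    rw [map_mul, hy, coeffMap_series, IntermediateField.coe_mul]
  have hint : IsIntegral adjoinJ (((x * (c : FF)) : FF) : LaurentSeries Qbar) := by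
    rw [IntermediateField.coe_mul, ← chartIncl_apply, hc,
      show (x : LaurentSeries Qbar) * (algebraMap Qbar (LaurentSeries Qbar) c₀ * r)
        = algebraMap Qbar (LaurentSeries Qbar) c₀ * (r • (x : LaurentSeries Qbar)) from by
          rw [show r • (x : LaurentSeries Qbar) = (r : LaurentSeries Qbar) * x from rfl]; ring]
    refine IsIntegral.mul ?_ hr
    rw [IsScalarTower.algebraMap_apply Qbar adjoinJ (LaurentSeries Qbar)]
    exact isIntegral_algebraMap
  have hb := mem_chart_of_coeff hGR hxy hint
  have hred : (chartRed hGR ⟨_, hb⟩ : LaurentSeries kA) =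
      coeffMap (IsLocalRing.residue A) y * (chartRed hGR c : LaurentSeries kA) := by
    rw [coe_chartRed_of_eq hGR (b := ⟨_, hb⟩) hxy, map_mul, coe_chartRed]
  have hc1 := chartRed_chartJ hGR hM hres
  refine ⟨⟨_, hb⟩, c, hc1, fun h0 => ?_, rfl, hred⟩
  rw [h0, IntermediateField.coe_zero] at hred
  rcases mul_eq_zero.mp hred.symm with h | h
  · exact hne h
  · exact hc1 (Subtype.ext h)

end

end FLTAgent.CongruenceRel
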